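import Mathlib.NumberTheory.ModularForms.LevelOne.GradedRing
import Mathlib.NumberTheory.ModularForms.EisensteinSeries.QExpansion

/-!
# S23, work package R1: the `j`-invariant as a function on the upper half plane

`jInv z = E₄ z ^ 3 / Δ z`.
-/

namespace Fermat.Agent.S23.R1

open UpperHalfPlane ModularForm ModularFormClass MatrixGroups EisensteinSeries CongruenceSubgroup
open scoped Topology Manifold

/-- The modular `j`-invariant (normalised as `E₄³ / Δ`, so that `j = q⁻¹ + 744 + ⋯`). -/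
noncomputable def jInv (z : ℍ) : ℂ := E₄ z ^ 3 / ModularForm.discriminant z

theorem jInv_def (z : ℍ) : jInv z = E₄ z ^ 3 / ModularForm.discriminant z := rfl

theorem jInv_mul_discriminant (z : ℍ) : jInv z * ModularForm.discriminant z = E₄ z ^ 3 := by
  rw [jInv, div_mul_cancel₀ _ (discriminant_ne_zero z)]

theorem E₄_cube_eq (z : ℍ) : E₄ z ^ 3 = jInv z * ModularForm.discriminant z :=
  (jInv_mul_discriminant z).symm

/-- `E₆² = (j - 1728) Δ`. -/
theorem E₆_sq_eq (z : ℍ) : E₆ z ^ 2 = (jInv z - 1728) * ModularForm.discriminant z := by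
  have h := discriminant_eq_E₄_cube_sub_E₆_sq z
  have hj := jInv_mul_discriminant z
  have hΔ := discriminant_ne_zero z
  field_simp at h
  linear_combination h - hj

theorem level_one_smul_eq {k : ℤ} (f : ModularForm 𝒮ℒ k) (γ : SL(2, ℤ)) (z : ℍ) :
    f (γ • z) = denom γ z ^ k * f z := by
  have : SlashInvariantFormClass (ModularForm 𝒮ℒ k) Γ(1) k := Gamma_one_coe_eq_SL ▸ inferInstance
  exact SlashInvariantForm.slash_action_eqn_SL'' f (mem_Gamma_one γ) z

theorem discriminant_smul_eq (γ : SL(2, ℤ)) (z : ℍ) :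
    ModularForm.discriminant (γ • z) = denom γ z ^ (12 : ℤ) * ModularForm.discriminant z := by
  have : SlashInvariantFormClass (CuspForm 𝒮ℒ 12) Γ(1) 12 := Gamma_one_coe_eq_SL ▸ inferInstance
  exact SlashInvariantForm.slash_action_eqn_SL'' CuspForm.discriminant (mem_Gamma_one γ) z

/-- `j` is `SL(2, ℤ)`-invariant. -/
theorem jInv_smul (γ : SL(2, ℤ)) (z : ℍ) : jInv (γ • z) = jInv z := by
  have hd : denom γ z ≠ 0 := denom_ne_zero γ z
  rw [jInv, jInv, level_one_smul_eq, discriminant_smul_eq]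
  have hΔ := discriminant_ne_zero z
  have h12 : denom γ z ^ (12 : ℤ) = (denom γ z ^ (4 : ℤ)) ^ 3 := by
    rw [← zpow_natCast, ← zpow_mul]; norm_num
  rw [h12, mul_pow]
  field_simp

/-- `j` is `SL(2, ℤ)`-invariant, slash form. -/
theorem jInv_slash (γ : SL(2, ℤ)) : jInv ∣[(0 : ℤ)] γ = jInv := by
  ext z
  rw [SL_slash_apply, jInv_smul]
  simp

/-- `j` is holomorphic on the upper half plane. -/
theorem mdifferentiable_jInv : MDifferentiable 𝓘(ℂ) 𝓘(ℂ) jInv := by
  have h4 : MDifferentiable 𝓘(ℂ) 𝓘(ℂ) (fun z : ℍ => E₄ z ^ 3) :=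
    (ModularFormClass.holo E₄).pow 3
  exact h4.div (ModularFormClass.holo CuspForm.discriminant) discriminant_ne_zero

end Fermat.Agent.S23.R1
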