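import Mathlib

/-!
# S23, package R4: distinctness of the translates of `j(N z)` by growth at `i∞`

* `jInv z = E₄ z ^ 3 / Δ z` is the modular invariant; it is `SL(2, ℤ)`-invariant and
  `‖jInv z‖` is comparable to `exp (2 π Im z)` for `Im z` large.
* For `γ ∈ SL(2, ℤ)` and `N ≥ 1` the matrix `[N a, N b; c, d]` factors as `δ * [A, B; 0, D]`
  with `δ ∈ SL(2, ℤ)`, `A D = N`, and `A = N` only if `N ∣ c`.
* Hence `z ↦ jInv (N (γ z))` and `z ↦ jInv (N z)` are different functions when `γ ∉ Γ₀(N)`.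
-/

set_option autoImplicit false

open UpperHalfPlane Complex ModularForm EisensteinSeries CongruenceSubgroup Filter Topology

open scoped MatrixGroups ModularForm Real

namespace Fermat.Agent.S23.R4

/-- The modular invariant `j = E₄³ / Δ` (normalised so that `j = q⁻¹ + 744 + ⋯`). -/
noncomputable def jInv (z : ℍ) : ℂ := E₄ z ^ 3 / ModularForm.discriminant z

lemma jInv_def (z : ℍ) : jInv z = E₄ z ^ 3 / ModularForm.discriminant z := rfl

/-- The point `N z` of the upper half plane. -/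
noncomputable def scaleH (N : ℕ) [NeZero N] (z : ℍ) : ℍ :=
  ⟨(N : ℂ) * z, by
    have hN : (0 : ℝ) < N := Nat.cast_pos.mpr (Nat.pos_of_ne_zero (NeZero.ne N))
    have : ((N : ℂ) * (z : ℂ)).im = N * z.im := by simp
    rw [this]
    exact mul_pos hN z.im_pos⟩

@[simp] lemma coe_scaleH (N : ℕ) [NeZero N] (z : ℍ) : ((scaleH N z : ℍ) : ℂ) = (N : ℂ) * z := rfl

@[simp] lemma im_scaleH (N : ℕ) [NeZero N] (z : ℍ) : (scaleH N z).im = N * z.im := by
  show ((N : ℂ) * (z : ℂ)).im = N * z.im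
  simp

/-- The function `j_N (z) = j (N z)`. -/
noncomputable def jN (N : ℕ) [NeZero N] (z : ℍ) : ℂ := jInv (scaleH N z)

section invariance

lemma smul_eq_of_SL {k : ℤ} (f : ModularForm 𝒮ℒ k) (γ : SL(2, ℤ)) (z : ℍ) :
    f (γ • z) = (((γ 1 0 : ℤ) : ℂ) * z + ((γ 1 1 : ℤ) : ℂ)) ^ k * f z := by
  have hmem : Matrix.SpecialLinearGroup.mapGL ℝ γ ∈ 𝒮ℒ := ⟨γ, rfl⟩
  have := SlashInvariantForm.slash_action_eqn'' f hmem z
  have e : (Matrix.SpecialLinearGroup.mapGL ℝ γ) • z = γ • z := rfl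
  rw [e] at this
  rw [this]
  simp [denom]

lemma discriminant_smul (γ : SL(2, ℤ)) (z : ℍ) :
    ModularForm.discriminant (γ • z) =
      (((γ 1 0 : ℤ) : ℂ) * z + ((γ 1 1 : ℤ) : ℂ)) ^ (12 : ℤ) * ModularForm.discriminant z := by
  have hmem : Matrix.SpecialLinearGroup.mapGL ℝ γ ∈ 𝒮ℒ := ⟨γ, rfl⟩
  have := SlashInvariantForm.slash_action_eqn'' CuspForm.discriminant hmem z
  have e : (Matrix.SpecialLinearGroup.mapGL ℝ γ) • z = γ • z := rfl
  rw [e] at this
  simp only [CuspForm.coe_discriminant] at this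
  rw [this]
  simp [denom]

lemma cz_add_d_ne_zero (γ : SL(2, ℤ)) (z : ℍ) :
    ((γ 1 0 : ℤ) : ℂ) * z + ((γ 1 1 : ℤ) : ℂ) ≠ 0 := by
  have := UpperHalfPlane.denom_ne_zero (Matrix.SpecialLinearGroup.mapGL ℝ γ) z
  simpa [denom] using this

/-- `j` is invariant under `SL(2, ℤ)`. -/
theorem jInv_smul (γ : SL(2, ℤ)) (z : ℍ) : jInv (γ • z) = jInv z := by
  unfold jInv
  rw [smul_eq_of_SL E₄ γ z, discriminant_smul γ z]
  have h := cz_add_d_ne_zero γ z
  have hΔ := ModularForm.discriminant_ne_zero z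
  set w : ℂ := ((γ 1 0 : ℤ) : ℂ) * z + ((γ 1 1 : ℤ) : ℂ) with hw
  have e4 : w ^ (4 : ℤ) = w ^ 4 := by norm_cast
  have e12 : w ^ (12 : ℤ) = w ^ 12 := by norm_cast
  rw [e4, e12]
  field_simp

end invariance

section growth

/-- `E₄` tends to `1` at `i∞`. -/
lemma tendsto_E4_atImInfty : Tendsto (fun z : ℍ => E₄ z) atImInfty (𝓝 1) := by
  have hper := SlashInvariantFormClass.periodic_comp_ofComplex E₄ one_mem_strictPeriods_SL
  have han := ModularFormClass.analyticAt_cuspFunction_zero E₄ one_pos one_mem_strictPeriods_SL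
  have hv : valueAtInfty (E₄ : ℍ → ℂ) = 1 := by
    rw [← qExpansion_coeff_zero one_pos han hper]
    exact E_qExpansion_coeff_zero (by norm_num) ⟨2, rfl⟩
  have hdec := exp_decay_sub_atImInfty (h := 1) one_pos hper (ModularFormClass.holo E₄)
    (ModularFormClass.bdd_at_infty E₄)
  rw [hv] at hdec
  have h0 : Tendsto (fun τ : ℍ => Real.exp (-2 * π * τ.im / 1)) atImInfty (𝓝 0) := by
    have h1 : Tendsto (fun τ : ℍ => τ.im) atImInfty atTop := tendsto_comap
    have h2 : Tendsto (fun t : ℝ => Real.exp (-(2 * π) * t)) atTop (𝓝 0) := by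
      have := Real.tendsto_exp_neg_atTop_nhds_zero.comp
        (tendsto_id.const_mul_atTop (by positivity : (0:ℝ) < 2 * π))
      refine this.congr fun t => ?_
      simp [neg_mul]
    refine (h2.comp h1).congr fun τ => ?_
    simp
  have h3 := hdec.trans_tendsto h0
  have h4 := h3.add_const (1 : ℂ)
  simpa using h4

/-- Two-sided growth estimate for `j` at `i∞`. -/
theorem jInv_growth : ∃ A : ℝ, 0 < A ∧ ∀ z : ℍ, A ≤ z.im →
    Real.exp (2 * π * z.im) / 16 ≤ ‖jInv z‖ ∧ ‖jInv z‖ ≤ 16 * Real.exp (2 * π * z.im) := by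
  have hE := tendsto_E4_atImInfty.eventually (Metric.ball_mem_nhds (1 : ℂ) (by norm_num : (0:ℝ) < 1/2))
  have hP := ModularForm.tendsto_atImInfty_tprod_one_sub_eta_q_pow.eventually
    (Metric.ball_mem_nhds (1 : ℂ) (by norm_num : (0:ℝ) < 1/2))
  obtain ⟨A₀, hA₀⟩ := (UpperHalfPlane.atImInfty_mem _).mp (hE.and hP)
  refine ⟨max A₀ 1, lt_max_of_lt_right one_pos, fun z hz => ?_⟩
  obtain ⟨h1, h2⟩ := hA₀ z ((le_max_left _ _).trans hz)
  simp only [Complex.dist_eq] at h1 h2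
  -- bounds for `E₄`
  have hE_lo : 1 / 2 ≤ ‖E₄ z‖ := by
    have := norm_sub_norm_le (1 : ℂ) (E₄ z)
    rw [norm_one, norm_sub_rev] at this
    linarith
  have hE_hi : ‖E₄ z‖ ≤ 2 := by
    have := norm_sub_norm_le (E₄ z) (1 : ℂ)
    rw [norm_one] at this
    linarith
  -- bounds for the product
  set Pr : ℂ := ∏' n : ℕ, (1 - ModularForm.eta_q n (z : ℂ)) ^ 24 with hPr
  have hP_lo : 1 / 2 ≤ ‖Pr‖ := by
    have := norm_sub_norm_le (1 : ℂ) Pr
    rw [norm_one, norm_sub_rev] at this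
    linarith
  have hP_hi : ‖Pr‖ ≤ 2 := by
    have := norm_sub_norm_le Pr (1 : ℂ)
    rw [norm_one] at this
    linarith
  have hq : ‖Function.Periodic.qParam 1 (z : ℂ)‖ = Real.exp (-(2 * π * z.im)) := by
    simp [Function.Periodic.qParam, Complex.norm_exp]
  have hexp : Real.exp (-(2 * π * z.im)) * Real.exp (2 * π * z.im) = 1 := by
    rw [← Real.exp_add]; simp
  have hep : 0 < Real.exp (2 * π * z.im) := Real.exp_pos _
  have hen : 0 < Real.exp (-(2 * π * z.im)) := Real.exp_pos _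
  have hΔ : ‖ModularForm.discriminant z‖ = Real.exp (-(2 * π * z.im)) * ‖Pr‖ := by
    rw [ModularForm.discriminant_eq_q_prod, norm_mul, hq]
  have hj : ‖jInv z‖ = ‖E₄ z‖ ^ 3 / (Real.exp (-(2 * π * z.im)) * ‖Pr‖) := by
    rw [jInv, norm_div, norm_pow, hΔ]
  have hPpos : 0 < ‖Pr‖ := by linarith
  have hE3_lo : 1 / 8 ≤ ‖E₄ z‖ ^ 3 := by
    have := pow_le_pow_left₀ (by norm_num : (0:ℝ) ≤ 1/2) hE_lo 3
    norm_num at this
    linarith
  have hE3_hi : ‖E₄ z‖ ^ 3 ≤ 8 := by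
    have := pow_le_pow_left₀ (norm_nonneg _) hE_hi 3
    norm_num at this
    linarith
  have hden : Real.exp (-(2 * π * z.im)) = (Real.exp (2 * π * z.im))⁻¹ := by
    rw [Real.exp_neg]
  rw [hj, hden]
  constructor
  · rw [div_le_div_iff₀ (by norm_num) (by positivity)]
    have h3 : (Real.exp (2 * π * z.im))⁻¹ * Real.exp (2 * π * z.im) = 1 :=
      inv_mul_cancel₀ hep.ne'
    calc Real.exp (2 * π * z.im) * ((Real.exp (2 * π * z.im))⁻¹ * ‖Pr‖)
        = ((Real.exp (2 * π * z.im))⁻¹ * Real.exp (2 * π * z.im)) * ‖Pr‖ := by ring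
      _ = ‖Pr‖ := by rw [h3, one_mul]
      _ ≤ 2 := hP_hi
      _ ≤ ‖E₄ z‖ ^ 3 * 16 := by linarith
  · rw [div_le_iff₀ (by positivity)]
    have h3 : Real.exp (2 * π * z.im) * (Real.exp (2 * π * z.im))⁻¹ = 1 :=
      mul_inv_cancel₀ hep.ne'
    calc ‖E₄ z‖ ^ 3 ≤ 8 := hE3_hi
      _ ≤ 16 * ‖Pr‖ := by linarith
      _ = 16 * (Real.exp (2 * π * z.im) * (Real.exp (2 * π * z.im))⁻¹) * ‖Pr‖ := by
          rw [h3, mul_one]
      _ = 16 * Real.exp (2 * π * z.im) * ((Real.exp (2 * π * z.im))⁻¹ * ‖Pr‖) := by ring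

end growth

/-- The action of `SL(2, ℤ)` on the upper half plane, in coordinates. -/
lemma coe_smul_SL (g : SL(2, ℤ)) (z : ℍ) : ((g • z : ℍ) : ℂ) =
    (((g 0 0 : ℤ) : ℂ) * z + ((g 0 1 : ℤ) : ℂ)) / (((g 1 0 : ℤ) : ℂ) * z + ((g 1 1 : ℤ) : ℂ)) := by
  rw [UpperHalfPlane.coe_specialLinearGroup_apply]
  simp

section matrix

/-- Integer form of the Hermite normal form of `[N a, N b; c, d]`. -/
theorem exists_hermite (N : ℕ) [NeZero N] (a b c d : ℤ) (hdet : a * d - b * c = 1) :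
    ∃ (u v x y B : ℤ) (A D : ℕ), 0 < A ∧ 0 < D ∧ A * D = N ∧ u * x + y * v = 1 ∧
      u * A = N * a ∧ v * A = c ∧ u * B - y * D = N * b ∧ v * B + x * D = d := by
  have hN : 0 < N := Nat.pos_of_ne_zero (NeZero.ne N)
  set g : ℕ := Int.gcd (N * a) c with hg
  have hgpos : 0 < g := by
    rw [hg, Int.gcd_pos_iff]
    by_contra hcon
    push Not at hcon
    obtain ⟨h1, h2⟩ := hcon
    rw [h2] at hdet
    have ha : a ≠ 0 := by
      rintro rfl
      simp at hdet
    have : (N : ℤ) * a ≠ 0 := mul_ne_zero (by exact_mod_cast hN.ne') ha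
    exact this h1
  have hg0 : (g : ℤ) ≠ 0 := by exact_mod_cast hgpos.ne'
  obtain ⟨u, hu⟩ : (g : ℤ) ∣ N * a := Int.gcd_dvd_left _ _
  obtain ⟨v, hv⟩ : (g : ℤ) ∣ c := Int.gcd_dvd_right _ _
  set x : ℤ := Int.gcdA (N * a) c with hx
  set y : ℤ := Int.gcdB (N * a) c with hy
  have hbez : (g : ℤ) = N * a * x + c * y := Int.gcd_eq_gcd_ab _ _
  have hone : u * x + y * v = 1 := by
    have h1 : (g : ℤ) * (u * x + y * v) = g * 1 := by
      calc (g : ℤ) * (u * x + y * v) = (g * u) * x + (g * v) * y := by ring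
        _ = N * a * x + c * y := by rw [← hu, ← hv]
        _ = g * 1 := by rw [← hbez, mul_one]
    exact mul_left_cancel₀ hg0 h1
  -- `D`
  have hND : (N : ℤ) = g * (u * d - N * b * v) := by
    calc (N : ℤ) = N * (a * d - b * c) := by rw [hdet, mul_one]
      _ = (N * a) * d - N * b * c := by ring
      _ = (g * u) * d - N * b * (g * v) := by rw [← hu, ← hv]
      _ = g * (u * d - N * b * v) := by ring
  have hDpos : 0 < u * d - N * b * v := by
    have hNpos : (0 : ℤ) < N := by exact_mod_cast hN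
    have hgpos' : (0 : ℤ) < g := by exact_mod_cast hgpos
    rw [hND] at hNpos
    exact pos_of_mul_pos_right hNpos hgpos'.le |> fun h => by
      rcases lt_trichotomy (u * d - N * b * v) 0 with h' | h' | h'
      · have := mul_neg_of_pos_of_neg hgpos' h'
        linarith
      · rw [h'] at hNpos; simp at hNpos
      · exact h'
  obtain ⟨D, hD⟩ := Int.eq_ofNat_of_zero_le hDpos.le
  have hDpos' : 0 < D := by
    have : (0 : ℤ) < D := by rw [← hD]; exact hDpos
    exact_mod_cast this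
  refine ⟨u, v, x, y, x * N * b + y * d, g, D, hgpos, hDpos', ?_, hone, ?_, ?_, ?_, ?_⟩
  · have : ((g * D : ℕ) : ℤ) = (N : ℤ) := by
      push_cast
      rw [← hD, ← hND]
    exact_mod_cast this
  · rw [hu]; ring
  · rw [hv]; ring
  · rw [← hD]
    calc u * (x * N * b + y * d) - y * (u * d - N * b * v)
        = N * b * (u * x + y * v) := by ring
      _ = N * b := by rw [hone, mul_one]
  · rw [← hD]
    calc v * (x * N * b + y * d) + x * (u * d - N * b * v)
        = d * (u * x + y * v) := by ring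
      _ = d := by rw [hone, mul_one]

/-- The point `(A z + B) / D` of the upper half plane, for `A, D > 0`. -/
noncomputable def affH (A D : ℕ) (hA : 0 < A) (hD : 0 < D) (B : ℤ) (z : ℍ) : ℍ :=
  ⟨((A : ℂ) * z + B) / D, by
    have hA' : (0 : ℝ) < A := Nat.cast_pos.mpr hA
    have hD' : (0 : ℝ) < D := Nat.cast_pos.mpr hD
    have e : (((A : ℂ) * z + B) / D).im = A * z.im / D := by
      rw [Complex.div_natCast_im]
      simp
    rw [e]
    have := z.im_pos
    positivity⟩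

@[simp] lemma coe_affH (A D : ℕ) (hA : 0 < A) (hD : 0 < D) (B : ℤ) (z : ℍ) :
    ((affH A D hA hD B z : ℍ) : ℂ) = ((A : ℂ) * z + B) / D := rfl

lemma im_affH (A D : ℕ) (hA : 0 < A) (hD : 0 < D) (B : ℤ) (z : ℍ) :
    (affH A D hA hD B z).im = A * z.im / D := by
  show (((A : ℂ) * z + B) / D).im = A * z.im / D
  rw [Complex.div_natCast_im]
  simp

/-- Hermite normal form, on the upper half plane: `N (γ z) = δ ((A z + B) / D)`. -/
theorem exists_scaleH_smul_eq (N : ℕ) [NeZero N] (γ : SL(2, ℤ)) :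
    ∃ (δ : SL(2, ℤ)) (A D : ℕ) (hA : 0 < A) (hD : 0 < D) (B : ℤ), A * D = N ∧
      (A = N → (N : ℤ) ∣ γ 1 0) ∧
      ∀ z : ℍ, scaleH N (γ • z) = δ • affH A D hA hD B z := by
  have hdet : γ 0 0 * γ 1 1 - γ 0 1 * γ 1 0 = 1 := by
    have := γ.det_coe
    rw [Matrix.det_fin_two] at this
    exact this
  obtain ⟨u, v, x, y, B, A, D, hA, hD, hAD, hone, h1, h2, h3, h4⟩ :=
    exists_hermite N (γ 0 0) (γ 0 1) (γ 1 0) (γ 1 1) hdet
  let δ : SL(2, ℤ) := ⟨!![u, -y; v, x], by rw [Matrix.det_fin_two_of]; linarith⟩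
  refine ⟨δ, A, D, hA, hD, B, hAD, ?_, fun z => ?_⟩
  · intro hAN
    refine ⟨v, ?_⟩
    rw [← h2, hAN]; ring
  · apply UpperHalfPlane.ext
    rw [coe_scaleH, coe_smul_SL, coe_smul_SL, coe_affH]
    have hδ00 : δ 0 0 = u := rfl
    have hδ01 : δ 0 1 = -y := rfl
    have hδ10 : δ 1 0 = v := rfl
    have hδ11 : δ 1 1 = x := rfl
    rw [hδ00, hδ01, hδ10, hδ11]
    have hD0 : (D : ℂ) ≠ 0 := by exact_mod_cast hD.ne'
    have hden : ((γ 1 0 : ℤ) : ℂ) * z + ((γ 1 1 : ℤ) : ℂ) ≠ 0 := by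
      have := UpperHalfPlane.denom_ne_zero (Matrix.SpecialLinearGroup.mapGL ℝ γ) z
      simpa [denom] using this
    have e1 : (u : ℂ) * A = N * (γ 0 0 : ℤ) := by exact_mod_cast h1
    have e2 : (v : ℂ) * A = (γ 1 0 : ℤ) := by exact_mod_cast h2
    have e3 : (u : ℂ) * B - y * D = N * (γ 0 1 : ℤ) := by exact_mod_cast h3
    have e4 : (v : ℂ) * B + x * D = (γ 1 1 : ℤ) := by exact_mod_cast h4
    have hnum : (u : ℂ) * (((A : ℂ) * z + B) / D) + ((-y : ℤ) : ℂ) =
        ((N : ℂ) * (((γ 0 0 : ℤ) : ℂ) * z + ((γ 0 1 : ℤ) : ℂ))) / D := by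
      field_simp
      push_cast
      linear_combination (z : ℂ) * e1 + e3
    have hden' : (v : ℂ) * (((A : ℂ) * z + B) / D) + (x : ℂ) =
        (((γ 1 0 : ℤ) : ℂ) * z + ((γ 1 1 : ℤ) : ℂ)) / D := by
      field_simp
      linear_combination (z : ℂ) * e2 + e4
    rw [hnum, hden']
    field_simp

end matrix

section main

/-- **Distinctness.** If `γ ∉ Γ₀(N)` then `z ↦ j (N (γ z))` and `z ↦ j (N z)` are different
functions on the upper half plane. -/
theorem exists_jN_smul_ne (N : ℕ) [NeZero N] (γ : SL(2, ℤ)) (hγ : γ ∉ Gamma0 N) :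
    ∃ z : ℍ, jN N (γ • z) ≠ jN N z := by
  have hN : 0 < N := Nat.pos_of_ne_zero (NeZero.ne N)
  obtain ⟨δ, A, D, hA, hD, B, hAD, hAN, hz⟩ := exists_scaleH_smul_eq N γ
  obtain ⟨A₀, hA₀, hgrow⟩ := jInv_growth
  -- `A < N`
  have hne : A ≠ N := by
    intro h
    apply hγ
    rw [Gamma0_mem]
    exact (ZMod.intCast_zmod_eq_zero_iff_dvd _ N).mpr (hAN h)
  have hAle : A ≤ N := by
    rw [← hAD]
    exact Nat.le_mul_of_pos_right A hD
  have hAlt : A + 1 ≤ N := Nat.succ_le_of_lt (lt_of_le_of_ne hAle hne)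
  -- the test point
  set y : ℝ := max 1 (A₀ * D) with hy
  have hy1 : 1 ≤ y := le_max_left _ _
  have hy2 : A₀ * D ≤ y := le_max_right _ _
  have hypos : 0 < y := lt_of_lt_of_le one_pos hy1
  let z : ℍ := ⟨y * Complex.I, by simpa using hypos⟩
  have hzim : z.im = y := by
    show (y * Complex.I).im = y
    simp
  refine ⟨z, fun hcon => ?_⟩
  have hD' : (1 : ℝ) ≤ D := by exact_mod_cast hD
  have hA' : (1 : ℝ) ≤ A := by exact_mod_cast hA
  have hN' : (A : ℝ) + 1 ≤ N := by exact_mod_cast hAlt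
  have hDpos : (0 : ℝ) < D := by linarith
  -- upper bound for the left-hand side
  have h1 : ‖jN N (γ • z)‖ ≤ 16 * Real.exp (2 * π * (A * y / D)) := by
    unfold jN
    rw [hz z, jInv_smul]
    have him : (affH A D hA hD B z).im = A * y / D := by rw [im_affH, hzim]
    have hge : A₀ ≤ (affH A D hA hD B z).im := by
      rw [him, le_div_iff₀ hDpos]
      calc A₀ * D ≤ y := hy2
        _ ≤ A * y := by nlinarith
    have := (hgrow _ hge).2
    rwa [him] at this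
  -- lower bound for the right-hand side
  have h2 : Real.exp (2 * π * (N * y)) / 16 ≤ ‖jN N z‖ := by
    unfold jN
    have him : (scaleH N z).im = N * y := by rw [im_scaleH, hzim]
    have hge : A₀ ≤ (scaleH N z).im := by
      rw [him]
      calc A₀ ≤ A₀ * D := by nlinarith
        _ ≤ y := hy2
        _ ≤ N * y := by nlinarith
    have := (hgrow _ hge).1
    rwa [him] at this
  rw [hcon] at h1
  have h3 : Real.exp (2 * π * (N * y)) ≤ 256 * Real.exp (2 * π * (A * y / D)) := by linarith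
  -- compare exponents
  have h4 : A * y / D ≤ A * y := by
    rw [div_le_iff₀ hDpos]
    nlinarith [mul_nonneg (by linarith : (0:ℝ) ≤ A) hypos.le]
  have h5 : 2 * π * (A * y / D) + 2 * π ≤ 2 * π * (N * y) := by
    have hpi : 0 < π := Real.pi_pos
    have : A * y / D + 1 ≤ N * y := by nlinarith
    nlinarith
  have h6 : Real.exp (2 * π * (A * y / D)) * Real.exp (2 * π) ≤ Real.exp (2 * π * (N * y)) := by
    rw [← Real.exp_add]
    exact Real.exp_le_exp.mpr h5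
  have h7 : (256 : ℝ) < Real.exp (2 * π) := by
    have hpi : (3 : ℝ) < π := Real.pi_gt_three
    have h8 : Real.exp 6 ≤ Real.exp (2 * π) := Real.exp_le_exp.mpr (by linarith)
    have h9 : (2 : ℝ) < Real.exp 1 := by
      have := Real.add_one_lt_exp (by norm_num : (1 : ℝ) ≠ 0)
      linarith
    have h10 : Real.exp 6 = Real.exp 1 ^ 6 := by
      rw [← Real.exp_nat_mul]; norm_num
    have h11 : (2 : ℝ) ^ 6 < Real.exp 1 ^ 6 := pow_lt_pow_left₀ h9 (by norm_num) (by norm_num)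
    have h12 : (64 : ℝ) < Real.exp 6 := by rw [h10]; linarith
    -- need a better bound: exp 1 > 2.7
    have h13 : (2.7 : ℝ) < Real.exp 1 := by
      have := Real.exp_one_gt_d9
      linarith
    have h14 : (2.7 : ℝ) ^ 6 < Real.exp 1 ^ 6 := pow_lt_pow_left₀ h13 (by norm_num) (by norm_num)
    have h15 : (256 : ℝ) < (2.7 : ℝ) ^ 6 := by norm_num
    rw [h10] at h8
    linarith
  have hpos : 0 < Real.exp (2 * π * (A * y / D)) := Real.exp_pos _
  nlinarith

/-- Version for two elements: if `γ₁ γ₂⁻¹ ∉ Γ₀(N)` then the translates of `j_N` by `γ₁` and `γ₂`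
are different functions. -/
theorem exists_jN_smul_ne_smul (N : ℕ) [NeZero N] (γ₁ γ₂ : SL(2, ℤ))
    (h : γ₁ * γ₂⁻¹ ∉ Gamma0 N) : ∃ z : ℍ, jN N (γ₁ • z) ≠ jN N (γ₂ • z) := by
  obtain ⟨w, hw⟩ := exists_jN_smul_ne N (γ₁ * γ₂⁻¹) h
  refine ⟨γ₂⁻¹ • w, ?_⟩
  rw [← mul_smul, ← mul_smul, mul_inv_cancel, one_smul]
  exact hw

/-- `j_N` is invariant under `Γ₀(N)`. -/
theorem jN_smul_of_mem_Gamma0 (N : ℕ) [NeZero N] (γ : SL(2, ℤ)) (hγ : γ ∈ Gamma0 N) (z : ℍ) :
    jN N (γ • z) = jN N z := by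
  have hN : 0 < N := Nat.pos_of_ne_zero (NeZero.ne N)
  obtain ⟨c', hc'⟩ : (N : ℤ) ∣ γ 1 0 :=
    (ZMod.intCast_zmod_eq_zero_iff_dvd _ N).mp (Gamma0_mem.mp hγ)
  have hdet : γ 0 0 * γ 1 1 - γ 0 1 * γ 1 0 = 1 := by
    have := γ.det_coe
    rw [Matrix.det_fin_two] at this
    exact this
  let δ : SL(2, ℤ) := ⟨!![γ 0 0, N * γ 0 1; c', γ 1 1], by
    rw [Matrix.det_fin_two_of]
    rw [hc'] at hdet
    linarith⟩
  have key : scaleH N (γ • z) = δ • scaleH N z := by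
    apply UpperHalfPlane.ext
    rw [coe_scaleH, coe_smul_SL, coe_smul_SL, coe_scaleH]
    have hδ00 : δ 0 0 = γ 0 0 := rfl
    have hδ01 : δ 0 1 = N * γ 0 1 := rfl
    have hδ10 : δ 1 0 = c' := rfl
    have hδ11 : δ 1 1 = γ 1 1 := rfl
    rw [hδ00, hδ01, hδ10, hδ11]
    have hden : ((γ 1 0 : ℤ) : ℂ) * z + ((γ 1 1 : ℤ) : ℂ) ≠ 0 := by
      have := UpperHalfPlane.denom_ne_zero (Matrix.SpecialLinearGroup.mapGL ℝ γ) z
      simpa [denom] using this
    have e : ((γ 1 0 : ℤ) : ℂ) = N * c' := by exact_mod_cast hc'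
    have hden2 : (c' : ℂ) * ((N : ℂ) * z) + ((γ 1 1 : ℤ) : ℂ) ≠ 0 := by
      have : (c' : ℂ) * ((N : ℂ) * z) + ((γ 1 1 : ℤ) : ℂ) =
          ((γ 1 0 : ℤ) : ℂ) * z + ((γ 1 1 : ℤ) : ℂ) := by rw [e]; ring
      rw [this]; exact hden
    rw [e] at hden ⊢
    push_cast
    field_simp
  unfold jN
  rw [key, jInv_smul]

end main

end Fermat.Agent.S23.R4
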