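import Fermat.Agent.S23.H23_Distinct

/-!
# S23, package R4 (continued): holomorphy and uniform growth of the translates of `j(N z)`
-/

set_option autoImplicit false

open UpperHalfPlane Complex ModularForm EisensteinSeries CongruenceSubgroup Filter Topology

open scoped MatrixGroups ModularForm Real Manifold

namespace Fermat.Agent.S23.R4

section holomorphy

/-- `j` is holomorphic on the upper half plane. -/
theorem mdifferentiable_jInv : MDifferentiable 𝓘(ℂ) 𝓘(ℂ) jInv := by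
  have h4 : MDifferentiable 𝓘(ℂ) 𝓘(ℂ) (E₄ : ℍ → ℂ) := ModularFormClass.holo E₄
  have hΔ : MDifferentiable 𝓘(ℂ) 𝓘(ℂ) (ModularForm.discriminant : ℍ → ℂ) :=
    CuspForm.discriminant.holo'
  have h3 : MDifferentiable 𝓘(ℂ) 𝓘(ℂ) (fun z : ℍ => E₄ z ^ 3) := h4.pow 3
  exact h3.div hΔ ModularForm.discriminant_ne_zero

/-- Composition with `z ↦ N z` preserves holomorphy. -/
theorem mdifferentiable_comp_scaleH {f : ℍ → ℂ} (hf : MDifferentiable 𝓘(ℂ) 𝓘(ℂ) f)
    (N : ℕ) [NeZero N] : MDifferentiable 𝓘(ℂ) 𝓘(ℂ) (fun z : ℍ => f (scaleH N z)) := by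
  have hN : (0 : ℝ) < N := Nat.cast_pos.mpr (Nat.pos_of_ne_zero (NeZero.ne N))
  rw [UpperHalfPlane.mdifferentiable_iff] at hf ⊢
  have hmaps : Set.MapsTo (fun w : ℂ => (N : ℂ) * w) {z : ℂ | 0 < z.im} {z : ℂ | 0 < z.im} := by
    intro w hw
    simp only [Set.mem_ofPred_eq] at hw ⊢
    have : ((N : ℂ) * w).im = N * w.im := by simp
    rw [this]
    exact mul_pos hN hw
  have hcomp : DifferentiableOn ℂ ((f ∘ ofComplex) ∘ fun w : ℂ => (N : ℂ) * w) {z : ℂ | 0 < z.im} :=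
    hf.comp ((differentiable_id.const_mul (N : ℂ)).differentiableOn) hmaps
  refine hcomp.congr fun w hw => ?_
  simp only [Set.mem_ofPred_eq] at hw
  have hw' : 0 < ((N : ℂ) * w).im := hmaps hw
  simp only [Function.comp_apply]
  congr 1
  apply UpperHalfPlane.ext
  rw [coe_scaleH, ofComplex_apply_of_im_pos hw, ofComplex_apply_of_im_pos hw']

/-- `j_N` is holomorphic on the upper half plane. -/
theorem mdifferentiable_jN (N : ℕ) [NeZero N] : MDifferentiable 𝓘(ℂ) 𝓘(ℂ) (jN N) :=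
  mdifferentiable_comp_scaleH mdifferentiable_jInv N

/-- Composition with the action of an element of `SL(2, ℤ)` preserves holomorphy. -/
theorem mdifferentiable_comp_smul {f : ℍ → ℂ} (hf : MDifferentiable 𝓘(ℂ) 𝓘(ℂ) f)
    (γ : SL(2, ℤ)) : MDifferentiable 𝓘(ℂ) 𝓘(ℂ) (fun z : ℍ => f (γ • z)) := by
  have hdet : 0 < (Matrix.SpecialLinearGroup.mapGL ℝ γ).det.val := by
    simp
  have h := UpperHalfPlane.mdifferentiable_smul hdet
  exact hf.comp h

/-- The translates of `j_N` are holomorphic on the upper half plane. -/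
theorem mdifferentiable_jN_smul (N : ℕ) [NeZero N] (γ : SL(2, ℤ)) :
    MDifferentiable 𝓘(ℂ) 𝓘(ℂ) (fun z : ℍ => jN N (γ • z)) :=
  mdifferentiable_comp_smul (mdifferentiable_jN N) γ

end holomorphy

section growth

/-- Two-sided bound for the discriminant at `i∞`. -/
theorem norm_discriminant_bounds : ∃ A : ℝ, 0 < A ∧ ∀ z : ℍ, A ≤ z.im →
    Real.exp (-(2 * π * z.im)) / 2 ≤ ‖ModularForm.discriminant z‖ ∧
      ‖ModularForm.discriminant z‖ ≤ 2 * Real.exp (-(2 * π * z.im)) := by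
  have hP := ModularForm.tendsto_atImInfty_tprod_one_sub_eta_q_pow.eventually
    (Metric.ball_mem_nhds (1 : ℂ) (by norm_num : (0:ℝ) < 1/2))
  obtain ⟨A₀, hA₀⟩ := (UpperHalfPlane.atImInfty_mem _).mp hP
  refine ⟨max A₀ 1, lt_max_of_lt_right one_pos, fun z hz => ?_⟩
  have h2 : dist (∏' n : ℕ, (1 - ModularForm.eta_q n (z : ℂ)) ^ 24) 1 < 1 / 2 :=
    hA₀ z ((le_max_left _ _).trans hz)
  rw [Complex.dist_eq] at h2
  set Pr : ℂ := ∏' n : ℕ, (1 - ModularForm.eta_q n (z : ℂ)) ^ 24 with hPr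
  have hP_lo : 1 / 2 ≤ ‖Pr‖ := by
    have := norm_sub_norm_le (1 : ℂ) Pr
    rw [norm_one, norm_sub_rev] at this
    linarith
  have hP_hi : ‖Pr‖ ≤ 2 := by
    have := norm_sub_norm_le Pr (1 : ℂ)
    rw [norm_one] at this
    linarith
  have hq : ‖Function.Periodic.qParam 1 (z : ℂ)‖ = Real.exp (-(2 * π * z.im)) := by
    simp [Function.Periodic.qParam, Complex.norm_exp]
  have hΔ : ‖ModularForm.discriminant z‖ = Real.exp (-(2 * π * z.im)) * ‖Pr‖ := by
    rw [ModularForm.discriminant_eq_q_prod, norm_mul, hq]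
  have hen : 0 < Real.exp (-(2 * π * z.im)) := Real.exp_pos _
  rw [hΔ]
  constructor <;> nlinarith

/-- Uniform growth bound for all translates of `j_N`: `‖j_N (γ z)‖ ≤ 16 exp (2 π N Im z)`
for `Im z ≥ A₁`, with `A₁` independent of `γ`. -/
theorem norm_jN_smul_le (N : ℕ) [NeZero N] : ∃ A₁ : ℝ, 0 < A₁ ∧ ∀ (γ : SL(2, ℤ)) (z : ℍ),
    A₁ ≤ z.im → ‖jN N (γ • z)‖ ≤ 16 * Real.exp (2 * π * (N * z.im)) := by
  have hN : 0 < N := Nat.pos_of_ne_zero (NeZero.ne N)
  have hN' : (1 : ℝ) ≤ N := by exact_mod_cast hN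
  obtain ⟨A₀, hA₀, hgrow⟩ := jInv_growth
  refine ⟨A₀ * N, by positivity, fun γ z hz => ?_⟩
  obtain ⟨δ, A, D, hA, hD, B, hAD, -, hsm⟩ := exists_scaleH_smul_eq N γ
  have hD' : (1 : ℝ) ≤ D := by exact_mod_cast hD
  have hA' : (1 : ℝ) ≤ A := by exact_mod_cast hA
  have hDpos : (0 : ℝ) < D := by linarith
  have hADr : (A : ℝ) * D = N := by exact_mod_cast hAD
  have hDN : (D : ℝ) ≤ N := by nlinarith
  have hAN : (A : ℝ) ≤ N := by nlinarith
  have hzpos : 0 < z.im := z.im_pos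
  unfold jN
  rw [hsm z, jInv_smul]
  have him : (affH A D hA hD B z).im = A * z.im / D := im_affH A D hA hD B z
  have hge : A₀ ≤ (affH A D hA hD B z).im := by
    rw [him, le_div_iff₀ hDpos]
    calc A₀ * D ≤ A₀ * N := by nlinarith
      _ ≤ z.im := hz
      _ ≤ A * z.im := by nlinarith
  have h1 := (hgrow _ hge).2
  rw [him] at h1
  refine h1.trans ?_
  have h2 : A * z.im / D ≤ N * z.im := by
    rw [div_le_iff₀ hDpos]
    nlinarith [mul_nonneg (by linarith : (0:ℝ) ≤ N) hzpos.le]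
  have hpi : 0 < π := Real.pi_pos
  have h3 : 2 * π * (A * z.im / D) ≤ 2 * π * (N * z.im) := by nlinarith
  have := Real.exp_le_exp.mpr h3
  linarith

/-- `j_N ∘ γ` times `Δ ^ N` is bounded at `i∞`. -/
theorem isBoundedAtImInfty_jN_smul_mul_discriminant_pow (N : ℕ) [NeZero N] (γ : SL(2, ℤ)) :
    IsBoundedAtImInfty (fun z : ℍ => jN N (γ • z) * ModularForm.discriminant z ^ N) := by
  obtain ⟨A₁, hA₁, h1⟩ := norm_jN_smul_le N
  obtain ⟨A₂, hA₂, h2⟩ := norm_discriminant_bounds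
  rw [UpperHalfPlane.isBoundedAtImInfty_iff]
  refine ⟨16 * 2 ^ N, max A₁ A₂, fun z hz => ?_⟩
  have hz1 := h1 γ z ((le_max_left _ _).trans hz)
  have hz2 := (h2 z ((le_max_right _ _).trans hz)).2
  rw [norm_mul, norm_pow]
  have h3 : ‖ModularForm.discriminant z‖ ^ N ≤ (2 * Real.exp (-(2 * π * z.im))) ^ N :=
    pow_le_pow_left₀ (norm_nonneg _) hz2 N
  have h4 : (2 * Real.exp (-(2 * π * z.im))) ^ N = 2 ^ N * Real.exp (-(2 * π * (N * z.im))) := by
    rw [mul_pow, ← Real.exp_nat_mul]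
    congr 2
    ring
  have h5 : Real.exp (2 * π * (N * z.im)) * Real.exp (-(2 * π * (N * z.im))) = 1 := by
    rw [← Real.exp_add]; simp
  calc ‖jN N (γ • z)‖ * ‖ModularForm.discriminant z‖ ^ N
      ≤ (16 * Real.exp (2 * π * (N * z.im))) * (2 ^ N * Real.exp (-(2 * π * (N * z.im)))) := by
        rw [← h4]
        exact mul_le_mul hz1 h3 (by positivity) (by positivity)
    _ = 16 * 2 ^ N * (Real.exp (2 * π * (N * z.im)) * Real.exp (-(2 * π * (N * z.im)))) := by ring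
    _ = 16 * 2 ^ N := by rw [h5, mul_one]

end growth

end Fermat.Agent.S23.R4
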