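import Mathlib

/-!
# Work package R2 of S23: the integrality equation over level one

For a form `f` on an arithmetic subgroup `𝒢`, the elementary symmetric functions of the
`SL(2, ℤ)`-translates of `f` are modular forms of level one, and every translate of `f` is a root
of the monic polynomial having these as coefficients.  We also record the elementary bounds for
roots of monic polynomial equations that are needed to exploit this.
-/

set_option autoImplicit false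

namespace Fermat.Agent.S23

open UpperHalfPlane ModularForm SlashInvariantForm Filter Topology

open scoped MatrixGroups ModularForm Manifold Pointwise

section RootBounds

/-- Splitting off the leading term of a monic equation. -/
lemma monic_eq_split {μ : ℕ} {a : ℕ → ℂ} {z : ℂ} (ha : a 0 = 1)
    (h : ∑ j ∈ Finset.range (μ + 1), a j * z ^ (μ - j) = 0) :
    z ^ μ = -∑ j ∈ Finset.range μ, a (j + 1) * z ^ (μ - (j + 1)) := by
  rw [Finset.sum_range_succ', ha, one_mul, Nat.sub_zero] at h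
  exact eq_neg_of_add_eq_zero_right h

/-- Cauchy type bound for the roots of a monic polynomial equation. -/
lemma norm_le_of_monic_eq {μ : ℕ} {a : ℕ → ℂ} {z : ℂ} (ha : a 0 = 1)
    (h : ∑ j ∈ Finset.range (μ + 1), a j * z ^ (μ - j) = 0) :
    ‖z‖ ≤ max 1 (∑ j ∈ Finset.range μ, ‖a (j + 1)‖) := by
  rcases le_or_gt ‖z‖ 1 with h1 | h1
  · exact le_max_of_le_left h1
  · refine le_max_of_le_right ?_
    have hμ : 0 < μ := by
      rcases Nat.eq_zero_or_pos μ with rfl | hμ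
      · simp [ha] at h
      · exact hμ
    have hz := monic_eq_split ha h
    have hn : ‖z‖ ^ μ ≤ (∑ j ∈ Finset.range μ, ‖a (j + 1)‖) * ‖z‖ ^ (μ - 1) := by
      calc ‖z‖ ^ μ = ‖z ^ μ‖ := (norm_pow z μ).symm
        _ = ‖∑ j ∈ Finset.range μ, a (j + 1) * z ^ (μ - (j + 1))‖ := by rw [hz, norm_neg]
        _ ≤ ∑ j ∈ Finset.range μ, ‖a (j + 1) * z ^ (μ - (j + 1))‖ := norm_sum_le _ _
        _ ≤ ∑ j ∈ Finset.range μ, ‖a (j + 1)‖ * ‖z‖ ^ (μ - 1) := by
            refine Finset.sum_le_sum fun j _ => ?_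
            rw [norm_mul, norm_pow]
            refine mul_le_mul_of_nonneg_left ?_ (norm_nonneg _)
            exact pow_le_pow_right₀ h1.le (by omega)
        _ = (∑ j ∈ Finset.range μ, ‖a (j + 1)‖) * ‖z‖ ^ (μ - 1) := by rw [Finset.sum_mul]
    have hpos : 0 < ‖z‖ ^ (μ - 1) := pow_pos (lt_trans one_pos h1) _
    have e : ‖z‖ ^ μ = ‖z‖ * ‖z‖ ^ (μ - 1) := by
      rw [← pow_succ', Nat.sub_add_cancel hμ]
    rw [e] at hn
    exact le_of_mul_le_mul_right hn hpos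

/-- If the lower coefficients of a monic equation are small, so are the roots. -/
lemma norm_pow_le_of_monic_eq {μ : ℕ} {a : ℕ → ℂ} {z : ℂ} (ha : a 0 = 1)
    (h : ∑ j ∈ Finset.range (μ + 1), a j * z ^ (μ - j) = 0)
    (hS : ∑ j ∈ Finset.range μ, ‖a (j + 1)‖ ≤ 1) :
    ‖z‖ ^ μ ≤ ∑ j ∈ Finset.range μ, ‖a (j + 1)‖ := by
  have h1 : ‖z‖ ≤ 1 := (norm_le_of_monic_eq ha h).trans (max_le le_rfl hS)
  have hz := monic_eq_split ha h
  calc ‖z‖ ^ μ = ‖z ^ μ‖ := (norm_pow z μ).symm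
    _ = ‖∑ j ∈ Finset.range μ, a (j + 1) * z ^ (μ - (j + 1))‖ := by rw [hz, norm_neg]
    _ ≤ ∑ j ∈ Finset.range μ, ‖a (j + 1) * z ^ (μ - (j + 1))‖ := norm_sum_le _ _
    _ ≤ ∑ j ∈ Finset.range μ, ‖a (j + 1)‖ := by
        refine Finset.sum_le_sum fun j _ => ?_
        rw [norm_mul, norm_pow]
        exact mul_le_of_le_one_right (norm_nonneg _) (pow_le_one₀ (norm_nonneg _) h1)

/-- Roots of a monic equation whose lower coefficients tend to zero tend to zero. -/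
lemma tendsto_zero_of_monic_eq {α : Type*} {l : Filter α} {μ : ℕ} {a : ℕ → α → ℂ} {u : α → ℂ}
    (ha : ∀ x, a 0 x = 1)
    (h : ∀ᶠ x in l, ∑ j ∈ Finset.range (μ + 1), a j x * u x ^ (μ - j) = 0)
    (hlim : ∀ j, 0 < j → j ≤ μ → Tendsto (a j) l (𝓝 0)) :
    Tendsto u l (𝓝 0) := by
  have hS : Tendsto (fun x => ∑ j ∈ Finset.range μ, ‖a (j + 1) x‖) l (𝓝 0) := by
    have := tendsto_finsetSum (Finset.range μ) (fun j hj =>
      (hlim (j + 1) (Nat.succ_pos j) (Finset.mem_range.mp hj)).norm)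
    simpa using this
  rw [Metric.tendsto_nhds]
  intro ε hε
  set δ : ℝ := min 1 (ε ^ μ) with hδ
  have hδpos : 0 < δ := lt_min one_pos (pow_pos hε μ)
  have hev := (Metric.tendsto_nhds.mp hS) δ hδpos
  filter_upwards [h, hev] with x hx hxS
  rw [dist_zero_right] at hxS ⊢
  have hnn : 0 ≤ ∑ j ∈ Finset.range μ, ‖a (j + 1) x‖ :=
    Finset.sum_nonneg fun j _ => norm_nonneg _
  rw [Real.norm_of_nonneg hnn] at hxS
  have hμ : μ ≠ 0 := by
    rintro rfl
    simp [ha] at hx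
  have h1 := norm_pow_le_of_monic_eq (ha x) hx (hxS.le.trans (min_le_left _ _))
  have h2 : ‖u x‖ ^ μ < ε ^ μ := lt_of_le_of_lt h1 (lt_of_lt_of_le hxS (min_le_right _ _))
  exact lt_of_pow_lt_pow_left₀ μ hε.le h2

end RootBounds

variable {𝒢 : Subgroup (GL (Fin 2) ℝ)} [𝒢.IsArithmetic] {k : ℤ}
  {F : Type*} [FunLike F ℍ ℂ]

section SlashInvariant

variable [SlashInvariantFormClass F 𝒢 k]

/-- The `i`-th elementary symmetric function of the `SL(2, ℤ)`-translates of `f`. -/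
noncomputable def esymmFun (f : F) (i : ℕ) : ℍ → ℂ :=
  letI := Fintype.ofFinite (𝒮ℒ ⧸ 𝒢.subgroupOf 𝒮ℒ)
  ∑ s ∈ Finset.powersetCard i (Finset.univ : Finset (𝒮ℒ ⧸ 𝒢.subgroupOf 𝒮ℒ)),
    ∏ q ∈ s, quotientFunc f q

lemma esymmFun_eq [Fintype (𝒮ℒ ⧸ 𝒢.subgroupOf 𝒮ℒ)] (f : F) (i : ℕ) :
    esymmFun f i = ∑ s ∈ Finset.powersetCard i (Finset.univ : Finset (𝒮ℒ ⧸ 𝒢.subgroupOf 𝒮ℒ)),
      ∏ q ∈ s, quotientFunc f q := by
  unfold esymmFun
  have : (Fintype.ofFinite (𝒮ℒ ⧸ 𝒢.subgroupOf 𝒮ℒ)) = ‹_› := Subsingleton.elim _ _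
  subst this
  rfl

lemma esymmFun_apply [Fintype (𝒮ℒ ⧸ 𝒢.subgroupOf 𝒮ℒ)] (f : F) (i : ℕ) (τ : ℍ) :
    esymmFun f i τ = ∑ s ∈ Finset.powersetCard i (Finset.univ : Finset (𝒮ℒ ⧸ 𝒢.subgroupOf 𝒮ℒ)),
      ∏ q ∈ s, quotientFunc f q τ := by
  rw [esymmFun_eq, Finset.sum_apply]
  refine Finset.sum_congr rfl fun s _ => ?_
  rw [Finset.prod_apply]

lemma esymmFun_zero (f : F) : esymmFun f 0 = 1 := by
  classical
  let := Fintype.ofFinite (𝒮ℒ ⧸ 𝒢.subgroupOf 𝒮ℒ)
  rw [esymmFun_eq]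
  simp

/-- Slash invariance of the elementary symmetric functions. -/
lemma esymmFun_slash (f : F) (i : ℕ) {h : GL (Fin 2) ℝ} (hh : h ∈ 𝒮ℒ) :
    esymmFun f i ∣[k * i] h = esymmFun f i := by
  classical
  let := Fintype.ofFinite (𝒮ℒ ⧸ 𝒢.subgroupOf 𝒮ℒ)
  rw [esymmFun_eq, SlashAction.sum_slash]
  have hdet : |h.det.val| = 1 := Subgroup.HasDetPlusMinusOne.abs_det hh
  have key : ∀ s ∈ Finset.powersetCard i (Finset.univ : Finset (𝒮ℒ ⧸ 𝒢.subgroupOf 𝒮ℒ)),
      (∏ q ∈ s, quotientFunc f q) ∣[k * i] h =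
        ∏ q ∈ s.map (MulAction.toPerm ((⟨h, hh⟩ : 𝒮ℒ)⁻¹)).toEmbedding, quotientFunc f q := by
    intro s hs
    have hcard : s.card = i := (Finset.mem_powersetCard.mp hs).2
    rw [← hcard, ModularForm.prod_slash, hdet, one_zpow, one_smul, Finset.prod_map]
    refine Finset.prod_congr rfl fun q _ => ?_
    rw [quotientFunc_smul f hh]
    rfl
  rw [Finset.sum_congr rfl key]
  -- reindex the sum over subsets
  let e : Equiv.Perm (𝒮ℒ ⧸ 𝒢.subgroupOf 𝒮ℒ) := MulAction.toPerm ((⟨h, hh⟩ : 𝒮ℒ)⁻¹)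
  have himg : (Finset.powersetCard i (Finset.univ : Finset (𝒮ℒ ⧸ 𝒢.subgroupOf 𝒮ℒ))).map
      (Finset.mapEmbedding e.toEmbedding).toEmbedding =
      Finset.powersetCard i (Finset.univ : Finset (𝒮ℒ ⧸ 𝒢.subgroupOf 𝒮ℒ)) := by
    ext t
    simp only [Finset.mem_map, Finset.mem_powersetCard, Finset.subset_univ, true_and,
      RelEmbedding.coe_toEmbedding, Finset.mapEmbedding_apply]
    constructor
    · rintro ⟨s, hs, rfl⟩
      simpa using hs
    · intro ht
      refine ⟨t.map e.symm.toEmbedding, by simpa using ht, ?_⟩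
      ext x
      simp
  conv_rhs => rw [← himg]
  rw [Finset.sum_map]
  rfl

/-- Slash invariance of the elementary symmetric functions, for elements of `SL(2, ℤ)`. -/
lemma esymmFun_slash_SL (f : F) (i : ℕ) (γ : SL(2, ℤ)) :
    esymmFun f i ∣[k * i] γ = esymmFun f i :=
  esymmFun_slash f i ⟨γ, rfl⟩

/-- The integrality equation: every translate of `f` is a root of the monic polynomial whose
coefficients are (up to sign) the elementary symmetric functions of all translates. -/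
theorem esymm_integrality_quotientFunc (f : F) (q₀ : 𝒮ℒ ⧸ 𝒢.subgroupOf 𝒮ℒ) (τ : ℍ) :
    ∑ j ∈ Finset.range (Nat.card (𝒮ℒ ⧸ 𝒢.subgroupOf 𝒮ℒ) + 1),
      ((-1) ^ j * esymmFun f j τ) *
        quotientFunc f q₀ τ ^ (Nat.card (𝒮ℒ ⧸ 𝒢.subgroupOf 𝒮ℒ) - j) = 0 := by
  classical
  let := Fintype.ofFinite (𝒮ℒ ⧸ 𝒢.subgroupOf 𝒮ℒ)
  set s : Multiset ℂ := (Finset.univ : Finset (𝒮ℒ ⧸ 𝒢.subgroupOf 𝒮ℒ)).val.map
    (fun q => quotientFunc f q τ) with hs
  have hcard : Multiset.card s = Nat.card (𝒮ℒ ⧸ 𝒢.subgroupOf 𝒮ℒ) := by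
    rw [hs, Multiset.card_map, Finset.card_val, Finset.card_univ, Nat.card_eq_fintype_card]
  have h := congrArg (Polynomial.eval (quotientFunc f q₀ τ))
    (Multiset.prod_X_sub_X_eq_sum_esymm s)
  have hzero : Polynomial.eval (quotientFunc f q₀ τ)
      (s.map fun t => Polynomial.X - Polynomial.C t).prod = 0 := by
    rw [Polynomial.eval_multiset_prod]
    apply Multiset.prod_eq_zero
    rw [Multiset.mem_map]
    refine ⟨Polynomial.X - Polynomial.C (quotientFunc f q₀ τ), ?_, by simp⟩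
    rw [Multiset.mem_map]
    exact ⟨quotientFunc f q₀ τ, by rw [hs, Multiset.mem_map]; exact ⟨q₀, Finset.mem_univ _, rfl⟩,
      rfl⟩
  rw [hzero, Polynomial.eval_finsetSum, hcard] at h
  rw [h]
  refine Finset.sum_congr rfl fun j _ => ?_
  simp only [Polynomial.eval_mul, Polynomial.eval_pow, Polynomial.eval_neg, Polynomial.eval_one,
    Polynomial.eval_C, Polynomial.eval_X]
  rw [hs, Finset.esymm_map_val, esymmFun_apply, mul_assoc]

/-- The integrality equation for `f` itself. -/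
theorem esymm_integrality (f : F) (τ : ℍ) :
    ∑ j ∈ Finset.range (Nat.card (𝒮ℒ ⧸ 𝒢.subgroupOf 𝒮ℒ) + 1),
      ((-1) ^ j * esymmFun f j τ) * f τ ^ (Nat.card (𝒮ℒ ⧸ 𝒢.subgroupOf 𝒮ℒ) - j) = 0 := by
  have h := esymm_integrality_quotientFunc f (⟦1⟧ : 𝒮ℒ ⧸ 𝒢.subgroupOf 𝒮ℒ) τ
  rw [quotientFunc_mk] at h
  simpa using h

/-- The integrality equation for the translates `f ∣[k] γ`, `γ ∈ SL(2, ℤ)`. -/
theorem esymm_integrality_slash (f : F) (γ : SL(2, ℤ)) (τ : ℍ) :
    ∑ j ∈ Finset.range (Nat.card (𝒮ℒ ⧸ 𝒢.subgroupOf 𝒮ℒ) + 1),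
      ((-1) ^ j * esymmFun f j τ) *
        ((f : ℍ → ℂ) ∣[k] γ) τ ^ (Nat.card (𝒮ℒ ⧸ 𝒢.subgroupOf 𝒮ℒ) - j) = 0 := by
  have h := esymm_integrality_quotientFunc f
    (⟦(⟨Matrix.SpecialLinearGroup.mapGL ℝ γ⁻¹, ⟨γ⁻¹, rfl⟩⟩ : 𝒮ℒ)⟧ : 𝒮ℒ ⧸ 𝒢.subgroupOf 𝒮ℒ) τ
  rw [quotientFunc_mk] at h
  simp only [map_inv, inv_inv] at h
  exact h

/-- The number of translates is positive. -/
lemma card_quotient_pos : 0 < Nat.card (𝒮ℒ ⧸ 𝒢.subgroupOf 𝒮ℒ) := Nat.card_pos

end SlashInvariant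

section Modular

variable [ModularFormClass F 𝒢 k]

omit [𝒢.IsArithmetic] in
lemma mdifferentiable_quotientFunc (f : F) (q : 𝒮ℒ ⧸ 𝒢.subgroupOf 𝒮ℒ) :
    MDiff (quotientFunc f q) := by
  induction q using Quotient.inductionOn with
  | h r => exact (ModularForm.translate f r.val⁻¹).holo'

lemma isBoundedAtImInfty_quotientFunc (f : F) (q : 𝒮ℒ ⧸ 𝒢.subgroupOf 𝒮ℒ) :
    IsBoundedAtImInfty (quotientFunc f q) := by
  induction q using Quotient.inductionOn with
  | h r =>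
    obtain ⟨r, ⟨γ, rfl⟩⟩ := r
    have := ModularFormClass.bdd_at_infty_slash f γ⁻¹
    rw [SL_slash, map_inv] at this
    exact this

lemma mdifferentiable_esymmFun (f : F) (i : ℕ) : MDiff (esymmFun f i) := by
  classical
  let := Fintype.ofFinite (𝒮ℒ ⧸ 𝒢.subgroupOf 𝒮ℒ)
  rw [esymmFun_eq]
  exact MDifferentiable.sum fun s _ => MDifferentiable.prod fun q _ =>
    mdifferentiable_quotientFunc f q

lemma isBoundedAtImInfty_esymmFun (f : F) (i : ℕ) : IsBoundedAtImInfty (esymmFun f i) := by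
  classical
  let := Fintype.ofFinite (𝒮ℒ ⧸ 𝒢.subgroupOf 𝒮ℒ)
  rw [esymmFun_eq, IsBoundedAtImInfty, Filter.BoundedAtFilter]
  refine Asymptotics.IsBigO.sum fun s _ => ?_
  have h := Asymptotics.IsBigO.finsetProd (s := s) (l := atImInfty)
    (f := fun q => quotientFunc f q) (g := fun _ _ => (1 : ℝ))
    (fun q _ => isBoundedAtImInfty_quotientFunc f q)
  simp only [Finset.prod_const_one] at h
  exact h.congr_left fun τ => (Finset.prod_apply _ _ _).symm

/-- The elementary symmetric functions of the translates, as level one modular forms. -/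
noncomputable def esymmMF (f : F) (i : ℕ) : ModularForm 𝒮ℒ (k * i) where
  toFun := esymmFun f i
  slash_action_eq' _ hh := esymmFun_slash f i hh
  holo' := mdifferentiable_esymmFun f i
  bdd_at_cusps' {c} hc := by
    rw [OnePoint.isBoundedAt_iff_forall_SL2Z hc]
    intro γ _
    rw [esymmFun_slash_SL f i γ]
    exact isBoundedAtImInfty_esymmFun f i

@[simp] lemma coe_esymmMF (f : F) (i : ℕ) : ⇑(esymmMF f i) = esymmFun f i := rfl

end Modular

section Cusp

variable [CuspFormClass F 𝒢 k]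

lemma tendsto_quotientFunc (f : F) (q : 𝒮ℒ ⧸ 𝒢.subgroupOf 𝒮ℒ) :
    Tendsto (quotientFunc f q) atImInfty (𝓝 0) := by
  induction q using Quotient.inductionOn with
  | h r =>
    obtain ⟨r, ⟨γ, rfl⟩⟩ := r
    have := CuspFormClass.zero_at_infty_slash f γ⁻¹
    rw [SL_slash, map_inv] at this
    exact this

lemma tendsto_esymmFun (f : F) {i : ℕ} (hi : 0 < i) :
    Tendsto (esymmFun f i) atImInfty (𝓝 0) := by
  classical
  let := Fintype.ofFinite (𝒮ℒ ⧸ 𝒢.subgroupOf 𝒮ℒ)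
  have h : ∀ s ∈ Finset.powersetCard i (Finset.univ : Finset (𝒮ℒ ⧸ 𝒢.subgroupOf 𝒮ℒ)),
      Tendsto (fun τ => ∏ q ∈ s, quotientFunc f q τ) atImInfty (𝓝 0) := by
    intro s hs
    have hcard : s.card = i := (Finset.mem_powersetCard.mp hs).2
    have := tendsto_finsetProd s (fun q _ => tendsto_quotientFunc f q)
    rwa [Finset.prod_const, zero_pow (by omega)] at this
  have := tendsto_finsetSum _ h
  rw [Finset.sum_const_zero] at this
  refine this.congr fun τ => ?_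
  rw [esymmFun_apply]

/-- The elementary symmetric functions of the translates, as level one cusp forms. -/
noncomputable def esymmCF (f : F) {i : ℕ} (hi : 0 < i) : CuspForm 𝒮ℒ (k * i) where
  toFun := esymmFun f i
  slash_action_eq' _ hh := esymmFun_slash f i hh
  holo' := mdifferentiable_esymmFun f i
  zero_at_cusps' {c} hc := by
    rw [OnePoint.isZeroAt_iff_forall_SL2Z hc]
    intro γ _
    rw [esymmFun_slash_SL f i γ]
    exact tendsto_esymmFun f hi

@[simp] lemma coe_esymmCF (f : F) {i : ℕ} (hi : 0 < i) :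
    ⇑(esymmCF f hi) = esymmFun f i := rfl

end Cusp

end Fermat.Agent.S23
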