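import Mathlib
import Fermat.Prelude.Def_CuspForm_IntegralStructure
import Fermat.Prelude.Def_ModularForm_HeckeOperator

/-!
# S23: shared definitions

`IsRat f`: all `q`-expansion coefficients of `f` are rational.
`IsConj σ f g`: the `q`-expansion of `g` is the `σ`-conjugate of the `q`-expansion of `f`.
`ratForms N k`: modular forms of level `Γ₀(N)`, weight `k`, with rational `q`-expansion.
`scaleN N z`: the point `N z` of the upper half plane.
-/

set_option autoImplicit false

namespace Fermat.Agent.S23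

open UpperHalfPlane CongruenceSubgroup ModularFormClass

open scoped MatrixGroups ModularForm

/-- A function on the upper half plane has rational `q`-expansion coefficients. -/
def IsRat (f : ℍ → ℂ) : Prop := ∀ n : ℕ, ∃ r : ℚ, qCoeff f n = (r : ℂ)

/-- `g` has the `σ`-conjugate `q`-expansion of `f`. -/
def IsConj (σ : ℂ ≃+* ℂ) (f g : ℍ → ℂ) : Prop := ∀ n : ℕ, qCoeff g n = σ (qCoeff f n)

/-- Modular forms of level `Γ₀(N)` and weight `k` with rational `q`-expansion. -/
def ratForms (N : ℕ) (k : ℤ) : Set (ModularForm (Gamma0 N) k) := {m | IsRat m}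

lemma isRat_iff (f : ℍ → ℂ) : IsRat f ↔ ∀ n : ℕ, ∃ r : ℚ, qCoeff f n = (r : ℂ) := Iff.rfl

lemma isConj_iff (σ : ℂ ≃+* ℂ) (f g : ℍ → ℂ) :
    IsConj σ f g ↔ ∀ n : ℕ, qCoeff g n = σ (qCoeff f n) := Iff.rfl

lemma mem_ratForms {N : ℕ} {k : ℤ} (m : ModularForm (Gamma0 N) k) :
    m ∈ ratForms N k ↔ IsRat m := Iff.rfl

/-- The point `N z` of the upper half plane. -/
noncomputable def scaleN (N : ℕ) (z : ℍ) : ℍ := ModularForm.heckeDiagMatrix N • z

lemma coe_scaleN (N : ℕ) [NeZero N] (z : ℍ) : ((scaleN N z : ℍ) : ℂ) = (N : ℂ) * (z : ℂ) :=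
  ModularForm.coe_heckeDiagMatrix_smul (NeZero.ne N) z

lemma im_scaleN (N : ℕ) [NeZero N] (z : ℍ) : (scaleN N z).im = (N : ℝ) * z.im := by
  have h := congrArg Complex.im (coe_scaleN N z)
  simpa using h

end Fermat.Agent.S23
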