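import Mathlib
import Fermat.Agent.S23.Defs
import Fermat.Prelude.Thm_UpperHalfPlane_qCoeff_heckeT
import Fermat.Prelude.Thm_UpperHalfPlane_qCoeff_heckeU
import Fermat.Prelude.Thm_ModularForm_mdifferentiable_heckeT
import Fermat.Prelude.Thm_ModularForm_mdifferentiable_heckeU
import Fermat.Prelude.Thm_ModularForm_isBoundedAtImInfty_heckeT
import Fermat.Prelude.Thm_ModularForm_isBoundedAtImInfty_heckeU
import Fermat.Prelude.Thm_ModularForm_periodic_heckeT_comp_ofComplex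
import Fermat.Prelude.Thm_ModularForm_periodic_heckeU_comp_ofComplex
import Fermat.Prelude.Thm_CongruenceSubgroup_one_mem_strictPeriods_Gamma0

/-!
# Work package A1 (= R5a) of S23: the forms `F(N z)` on `Γ₀(N)`

For a modular form `F` of level one, `scaleMF N F` is the modular form `z ↦ F (N z)` of level
`Γ₀(N)`; its `q`-expansion is obtained from that of `F` by substituting `q ^ N` for `q`.
`resMF N F` is `F` itself, viewed as a modular form of level `Γ₀(N)`.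
-/

set_option autoImplicit false

namespace Fermat.Agent.S23

open UpperHalfPlane CongruenceSubgroup ModularFormClass ModularForm

open scoped MatrixGroups ModularForm Manifold Pointwise

/-! ### Restriction of the level -/

/-- A modular form for `Γ` is a modular form for every subgroup `Γ' ≤ Γ`. -/
noncomputable def levelMF {Γ Γ' : Subgroup (GL (Fin 2) ℝ)} (h : Γ' ≤ Γ) {k : ℤ}
    (F : ModularForm Γ k) : ModularForm Γ' k where
  toFun := F
  slash_action_eq' γ hγ := F.slash_action_eq' γ (h hγ)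
  holo' := F.holo'
  bdd_at_cusps' hc := F.bdd_at_cusps' (hc.mono h)

@[simp] theorem coe_levelMF {Γ Γ' : Subgroup (GL (Fin 2) ℝ)} (h : Γ' ≤ Γ) {k : ℤ}
    (F : ModularForm Γ k) : (⇑(levelMF h F) : ℍ → ℂ) = ⇑F := rfl

/-- A cusp form for `Γ` is a cusp form for every subgroup `Γ' ≤ Γ`. -/
noncomputable def levelCF {Γ Γ' : Subgroup (GL (Fin 2) ℝ)} (h : Γ' ≤ Γ) {k : ℤ}
    (F : CuspForm Γ k) : CuspForm Γ' k where
  toFun := F
  slash_action_eq' γ hγ := F.slash_action_eq' γ (h hγ)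
  holo' := F.holo'
  zero_at_cusps' hc := F.zero_at_cusps' (hc.mono h)

@[simp] theorem coe_levelCF {Γ Γ' : Subgroup (GL (Fin 2) ℝ)} (h : Γ' ≤ Γ) {k : ℤ}
    (F : CuspForm Γ k) : (⇑(levelCF h F) : ℍ → ℂ) = ⇑F := rfl

theorem map_gamma0_le_SL (N : ℕ) :
    Subgroup.map (Matrix.SpecialLinearGroup.mapGL ℝ) (Gamma0 N) ≤ 𝒮ℒ := by
  rintro _ ⟨γ, -, rfl⟩
  exact ⟨γ, rfl⟩

/-- A level-one modular form, viewed as a modular form on `Γ₀(N)`. -/
noncomputable def resMF (N : ℕ) {k : ℤ} (F : ModularForm 𝒮ℒ k) : ModularForm (Gamma0 N) k :=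
  levelMF (map_gamma0_le_SL N) F

@[simp] theorem coe_resMF (N : ℕ) {k : ℤ} (F : ModularForm 𝒮ℒ k) :
    (⇑(resMF N F) : ℍ → ℂ) = ⇑F := rfl

theorem resMF_apply (N : ℕ) {k : ℤ} (F : ModularForm 𝒮ℒ k) (z : ℍ) : resMF N F z = F z := rfl

/-- A level-one cusp form, viewed as a cusp form on `Γ₀(N)`. -/
noncomputable def resCF (N : ℕ) {k : ℤ} (F : CuspForm 𝒮ℒ k) : CuspForm (Gamma0 N) k :=
  levelCF (map_gamma0_le_SL N) F

@[simp] theorem coe_resCF (N : ℕ) {k : ℤ} (F : CuspForm 𝒮ℒ k) :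
    (⇑(resCF N F) : ℍ → ℂ) = ⇑F := rfl

theorem resCF_apply (N : ℕ) {k : ℤ} (F : CuspForm 𝒮ℒ k) (z : ℍ) : resCF N F z = F z := rfl

/-! ### The conjugation of `Γ₀(N)` by `diag(N, 1)` -/

/-- For `γ = [a, b; c, d] ∈ Γ₀(N)`, the matrix `[a, N b; c / N, d]`. -/
def conjSL (N : ℕ) (γ : SL(2, ℤ)) (e : ℤ) (he : γ 1 0 = N * e) : SL(2, ℤ) :=
  ⟨!![γ 0 0, N * γ 0 1; e, γ 1 1], by
    have hdet := γ.det_coe
    rw [Matrix.det_fin_two] at hdet
    rw [Matrix.det_fin_two_of]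
    rw [he] at hdet
    linear_combination hdet⟩

theorem val_mapGL_real (γ : SL(2, ℤ)) :
    ((Matrix.SpecialLinearGroup.mapGL ℝ γ : GL (Fin 2) ℝ) : Matrix (Fin 2) (Fin 2) ℝ)
      = !![((γ 0 0 : ℤ) : ℝ), ((γ 0 1 : ℤ) : ℝ); ((γ 1 0 : ℤ) : ℝ), ((γ 1 1 : ℤ) : ℝ)] := by
  ext i j
  fin_cases i <;> fin_cases j <;> simp

theorem heckeDiagMatrix_mul_mapGL (N : ℕ) [NeZero N] (γ : SL(2, ℤ)) (e : ℤ)
    (he : γ 1 0 = N * e) :
    heckeDiagMatrix N * Matrix.SpecialLinearGroup.mapGL ℝ γ =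
      Matrix.SpecialLinearGroup.mapGL ℝ (conjSL N γ e he) * heckeDiagMatrix N := by
  have hN : N ≠ 0 := NeZero.ne N
  apply Units.ext
  rw [Units.val_mul, Units.val_mul, val_heckeDiagMatrix hN, val_mapGL_real, val_mapGL_real]
  have e00 : (conjSL N γ e he) 0 0 = γ 0 0 := rfl
  have e01 : (conjSL N γ e he) 0 1 = N * γ 0 1 := rfl
  have e10 : (conjSL N γ e he) 1 0 = e := rfl
  have e11 : (conjSL N γ e he) 1 1 = γ 1 1 := rfl
  rw [e00, e01, e10, e11, he]
  ext i j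
  fin_cases i <;> fin_cases j <;> simp [Matrix.mul_apply, Fin.sum_univ_two] <;> ring

theorem map_gamma0_le_conj (N : ℕ) [NeZero N] :
    Subgroup.map (Matrix.SpecialLinearGroup.mapGL ℝ) (Gamma0 N) ≤
      ConjAct.toConjAct (heckeDiagMatrix N)⁻¹ • 𝒮ℒ := by
  rintro _ ⟨γ, hγ, rfl⟩
  rw [map_inv, Subgroup.mem_inv_pointwise_smul_iff, ConjAct.toConjAct_smul]
  have hγ' : ((γ 1 0 : ℤ) : ZMod N) = 0 := Gamma0_mem.mp hγ
  obtain ⟨e, he⟩ := (ZMod.intCast_zmod_eq_zero_iff_dvd _ _).mp hγ'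
  refine ⟨conjSL N γ e he, ?_⟩
  rw [heckeDiagMatrix_mul_mapGL N γ e he, mul_inv_cancel_right]

/-! ### The form `F(N z)` -/

/-- The modular form `z ↦ F (N z)` of level `Γ₀(N)`, for `F` of level one. -/
noncomputable def scaleMF (N : ℕ) [NeZero N] {k : ℤ} (F : ModularForm 𝒮ℒ k) :
    ModularForm (Gamma0 N) k :=
  ((N : ℂ) ^ (1 - k)) •
    levelMF (map_gamma0_le_conj N) (ModularForm.translate F (heckeDiagMatrix N))

theorem coe_scaleMF_eq_smul (N : ℕ) [NeZero N] {k : ℤ} (F : ModularForm 𝒮ℒ k) :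
    (⇑(scaleMF N F) : ℍ → ℂ) = ((N : ℂ) ^ (1 - k)) • ((⇑F : ℍ → ℂ) ∣[k] heckeDiagMatrix N) :=
  rfl

theorem scaleMF_apply (N : ℕ) [NeZero N] {k : ℤ} (F : ModularForm 𝒮ℒ k) (z : ℍ) :
    scaleMF N F z = F (scaleN N z) := by
  have hN : (N : ℂ) ≠ 0 := by exact_mod_cast NeZero.ne N
  rw [coe_scaleMF_eq_smul, Pi.smul_apply, slash_heckeDiagMatrix_apply k (NeZero.ne N), smul_eq_mul,
    ← mul_assoc, ← zpow_add₀ hN, show 1 - k + (k - 1) = 0 by ring, zpow_zero, one_mul]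
  rfl

theorem coe_scaleMF (N : ℕ) [NeZero N] {k : ℤ} (F : ModularForm 𝒮ℒ k) :
    (⇑(scaleMF N F) : ℍ → ℂ) = fun z => F (scaleN N z) :=
  funext (scaleMF_apply N F)

/-! ### `q`-expansions -/

section qExp

variable {f : ℍ → ℂ}

theorem slash_heckeDiagMatrix_eq_sub (k : ℤ) (N : ℕ) (f : ℍ → ℂ) :
    f ∣[k] heckeDiagMatrix N = heckeT k N f - heckeU k N f := by
  rw [heckeT_eq_heckeU_add, add_sub_cancel_left]

/-- The `q`-expansion of `f ∣[k] diag(N, 1)`. -/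
theorem qCoeff_slash_heckeDiagMatrix (hper : Function.Periodic (f ∘ ofComplex) 1)
    (hhol : MDiff f) (hbdd : IsBoundedAtImInfty f) (k : ℤ) {N : ℕ} (hN : N ≠ 0) (n : ℕ) :
    qCoeff (f ∣[k] heckeDiagMatrix N) n =
      if N ∣ n then (N : ℂ) ^ (k - 1) * qCoeff f (n / N) else 0 := by
  have hT := UpperHalfPlane.qCoeff_heckeT hper hhol hbdd k hN n
  have hU := UpperHalfPlane.qCoeff_heckeU hper hhol hbdd k hN n
  have aT : AnalyticAt ℂ (cuspFunction 1 (heckeT k N f)) 0 :=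
    analyticAt_cuspFunction_zero one_pos (periodic_heckeT_comp_ofComplex hper k N)
      (mdifferentiable_heckeT hhol k N) (isBoundedAtImInfty_heckeT hbdd k N)
  have aU : AnalyticAt ℂ (cuspFunction 1 (heckeU k N f)) 0 :=
    analyticAt_cuspFunction_zero one_pos (periodic_heckeU_comp_ofComplex hper k N)
      (mdifferentiable_heckeU hhol k N) (isBoundedAtImInfty_heckeU hbdd k N)
  unfold qCoeff at hT hU ⊢
  rw [slash_heckeDiagMatrix_eq_sub, qExpansion_sub aT aU, map_sub, hT, hU, coeffHeckeT_apply,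
    coeffHeckeU_apply, add_sub_cancel_left]

theorem comp_scaleN_eq_slash (N : ℕ) [NeZero N] (f : ℍ → ℂ) :
    (fun z => f (scaleN N z)) = f ∣[(1 : ℤ)] heckeDiagMatrix N := by
  funext z
  rw [slash_heckeDiagMatrix_apply 1 (NeZero.ne N), sub_self, zpow_zero, one_mul]
  rfl

theorem periodic_comp_scaleN (hper : Function.Periodic (f ∘ ofComplex) 1) (N : ℕ) [NeZero N] :
    Function.Periodic ((fun z => f (scaleN N z)) ∘ ofComplex) 1 := by
  rw [comp_scaleN_eq_slash, slash_heckeDiagMatrix_eq_sub]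
  intro w
  have h1 := periodic_heckeT_comp_ofComplex hper 1 N w
  have h2 := periodic_heckeU_comp_ofComplex hper 1 N w
  simp only [Function.comp_apply, Pi.sub_apply] at h1 h2 ⊢
  rw [h1, h2]

theorem mdifferentiable_comp_scaleN (hhol : MDiff f) (N : ℕ) [NeZero N] :
    MDiff (fun z => f (scaleN N z)) := by
  rw [comp_scaleN_eq_slash, slash_heckeDiagMatrix_eq_sub]
  exact (mdifferentiable_heckeT hhol 1 N).sub (mdifferentiable_heckeU hhol 1 N)

theorem isBoundedAtImInfty_comp_scaleN (hbdd : IsBoundedAtImInfty f) (N : ℕ) [NeZero N] :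
    IsBoundedAtImInfty (fun z => f (scaleN N z)) := by
  rw [comp_scaleN_eq_slash, slash_heckeDiagMatrix_eq_sub]
  exact (isBoundedAtImInfty_heckeT hbdd 1 N).sub (isBoundedAtImInfty_heckeU hbdd 1 N)

/-- The `q`-expansion of `z ↦ f (N z)`: substitute `q ^ N` for `q`. -/
theorem qCoeff_comp_scaleN (hper : Function.Periodic (f ∘ ofComplex) 1)
    (hhol : MDiff f) (hbdd : IsBoundedAtImInfty f) (N : ℕ) [NeZero N] (n : ℕ) :
    qCoeff (fun z => f (scaleN N z)) n = if N ∣ n then qCoeff f (n / N) else 0 := by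
  rw [comp_scaleN_eq_slash, qCoeff_slash_heckeDiagMatrix hper hhol hbdd 1 (NeZero.ne N) n,
    sub_self, zpow_zero, one_mul]

end qExp

theorem periodic_levelOne {k : ℤ} (F : ModularForm 𝒮ℒ k) :
    Function.Periodic ((⇑F : ℍ → ℂ) ∘ ofComplex) 1 :=
  SlashInvariantFormClass.periodic_comp_ofComplex F one_mem_strictPeriods_SL

theorem qCoeff_scaleMF (N : ℕ) [NeZero N] {k : ℤ} (F : ModularForm 𝒮ℒ k) (n : ℕ) :
    qCoeff (scaleMF N F) n = if N ∣ n then qCoeff F (n / N) else 0 := by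
  rw [coe_scaleMF]
  exact qCoeff_comp_scaleN (periodic_levelOne F) (ModularFormClass.holo F)
    (ModularFormClass.bdd_at_infty F) N n

theorem qCoeff_resMF (N : ℕ) {k : ℤ} (F : ModularForm 𝒮ℒ k) (n : ℕ) :
    qCoeff (resMF N F) n = qCoeff F n := rfl

/-! ### Rationality and conjugation -/

theorem isRat_scaleMF (N : ℕ) [NeZero N] {k : ℤ} {F : ModularForm 𝒮ℒ k} (hF : IsRat F) :
    IsRat (scaleMF N F) := by
  intro n
  rw [qCoeff_scaleMF]
  split_ifs
  · exact hF _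
  · exact ⟨0, by simp⟩

theorem isRat_resMF (N : ℕ) {k : ℤ} {F : ModularForm 𝒮ℒ k} (hF : IsRat F) :
    IsRat (resMF N F) := hF

theorem isConj_scaleMF (N : ℕ) [NeZero N] {k : ℤ} {F F' : ModularForm 𝒮ℒ k} {σ : ℂ ≃+* ℂ}
    (h : IsConj σ F F') : IsConj σ (scaleMF N F) (scaleMF N F') := by
  intro n
  rw [qCoeff_scaleMF, qCoeff_scaleMF]
  split_ifs
  · exact h _
  · simp

theorem isConj_resMF (N : ℕ) {k : ℤ} {F F' : ModularForm 𝒮ℒ k} {σ : ℂ ≃+* ℂ}
    (h : IsConj σ F F') : IsConj σ (resMF N F) (resMF N F') := h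

/-- The product of two functions with rational `q`-expansions has a rational `q`-expansion. -/
theorem isRat_mul_fun {x y : ℍ → ℂ} (hx : AnalyticAt ℂ (cuspFunction 1 x) 0)
    (hy : AnalyticAt ℂ (cuspFunction 1 y) 0) (rx : IsRat x) (ry : IsRat y) : IsRat (x * y) := by
  choose r hr using rx
  choose s hs using ry
  intro n
  refine ⟨∑ p ∈ (Finset.HasAntidiagonal.antidiagonal n : Finset (ℕ × ℕ)), r p.1 * s p.2, ?_⟩
  unfold qCoeff at hr hs ⊢
  rw [qExpansion_mul hx hy, PowerSeries.coeff_mul]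
  push_cast
  exact Finset.sum_congr rfl fun p _ => by rw [hr, hs]

theorem isRat_add_fun {x y : ℍ → ℂ} (hx : AnalyticAt ℂ (cuspFunction 1 x) 0)
    (hy : AnalyticAt ℂ (cuspFunction 1 y) 0) (rx : IsRat x) (ry : IsRat y) : IsRat (x + y) := by
  intro n
  obtain ⟨r, hr⟩ := rx n
  obtain ⟨s, hs⟩ := ry n
  refine ⟨r + s, ?_⟩
  unfold qCoeff at hr hs ⊢
  rw [qExpansion_add hx hy, map_add, hr, hs]
  push_cast
  rfl

theorem analyticAt_cuspFunction_gamma0 {N : ℕ} {k : ℤ} (a : ModularForm (Gamma0 N) k) :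
    AnalyticAt ℂ (cuspFunction 1 a) 0 :=
  ModularFormClass.analyticAt_cuspFunction_zero a one_pos
    (CongruenceSubgroup.one_mem_strictPeriods_Gamma0 N)

/-- The product of two modular forms on `Γ₀(N)` with rational `q`-expansions has a rational
`q`-expansion. -/
theorem isRat_mul {N : ℕ} {k₁ k₂ : ℤ} (a : ModularForm (Gamma0 N) k₁)
    (b : ModularForm (Gamma0 N) k₂) (ha : IsRat a) (hb : IsRat b) : IsRat (a.mul b) :=
  isRat_mul_fun (analyticAt_cuspFunction_gamma0 a) (analyticAt_cuspFunction_gamma0 b) ha hb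

theorem isRat_add {N : ℕ} {k : ℤ} (a b : ModularForm (Gamma0 N) k)
    (ha : IsRat a) (hb : IsRat b) : IsRat (a + b) :=
  isRat_add_fun (analyticAt_cuspFunction_gamma0 a) (analyticAt_cuspFunction_gamma0 b) ha hb

end Fermat.Agent.S23
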