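import Fermat.Agent.S23.H14_J

/-!
# S23, work package R1: level one forms are polynomials in `j`

* `exists_poly_jInv`: a holomorphic `SL(2, ℤ)`-invariant function `φ` on the upper half plane
  with `φ * Δ ^ m` bounded at `i∞` is a polynomial of degree `≤ m` in `j`.
* `exists_poly_jInv_fourteen`: the weight `14` analogue, `φ = E₄² E₆ P(j)`.
-/

namespace Fermat.Agent.S23.R1

open UpperHalfPlane ModularForm ModularFormClass MatrixGroups EisensteinSeries CongruenceSubgroup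
  OnePoint Polynomial
open scoped Topology Manifold

/-- A holomorphic function on the upper half plane which is slash-invariant of weight `k` under
`SL(2, ℤ)` and bounded at `i∞` is a level one modular form. -/
noncomputable def mkLevelOne (k : ℤ) (F : ℍ → ℂ) (hF : MDifferentiable 𝓘(ℂ) 𝓘(ℂ) F)
    (hinv : ∀ γ : SL(2, ℤ), F ∣[k] γ = F) (hbd : IsBoundedAtImInfty F) : ModularForm 𝒮ℒ k where
  toFun := F
  slash_action_eq' := fun _ ⟨γ, hγ⟩ ↦ hγ ▸ hinv γ
  holo' := hF
  bdd_at_cusps' {c} hc := by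
    rw [Subgroup.IsArithmetic.isCusp_iff_isCusp_SL2Z] at hc
    rw [isBoundedAt_iff_forall_SL2Z hc]
    intro γ _
    rw [hinv γ]
    exact hbd

@[simp]
theorem mkLevelOne_apply (k : ℤ) (F : ℍ → ℂ) (hF : MDifferentiable 𝓘(ℂ) 𝓘(ℂ) F)
    (hinv : ∀ γ : SL(2, ℤ), F ∣[k] γ = F) (hbd : IsBoundedAtImInfty F) (z : ℍ) :
    mkLevelOne k F hF hinv hbd z = F z := rfl

/-- Splitting off the leading term: a level one form `F` is `a₀ G + Δ h` where `G` is any form of
the same weight with constant coefficient `1`. -/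
theorem exists_eq_smul_add_discriminant_mul {k : ℤ} (F G : ModularForm 𝒮ℒ k)
    (hG0 : (qExpansion 1 G).coeff 0 = 1) :
    ∃ (a₀ : ℂ) (h : ModularForm 𝒮ℒ (k - 12)),
      ∀ z, F z = a₀ * G z + ModularForm.discriminant z * h z := by
  have h0 : (qExpansion 1 (F - (qExpansion 1 F).coeff 0 • G : ModularForm 𝒮ℒ k)).coeff 0 = 0 := by
    rw [FunLike.coe_sub, ModularForm.qExpansion_sub one_pos one_mem_strictPeriods_SL,
      FunLike.coe_smul, ModularForm.qExpansion_smul one_pos one_mem_strictPeriods_SL, map_sub,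
      PowerSeries.coeff_smul, hG0]
    simp
  refine ⟨(qExpansion 1 F).coeff 0, CuspForm.discriminantEquiv (toCuspForm _ h0), fun z ↦ ?_⟩
  rw [discriminant_mul_discriminantEquiv_apply, toCuspForm_apply]
  simp

/-- Generic induction: if `M_w` is spanned by a form `B` with constant coefficient `1`, then
every form of weight `12 m + w` is `B Δ ^ m P(j)` with `P` of degree at most `m`. -/
theorem exists_poly_aux (w : ℤ) (Bf : ModularForm 𝒮ℒ w)
    (hB0 : (qExpansion 1 Bf).coeff 0 = 1)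
    (hbase : ∀ F : ModularForm 𝒮ℒ w, ∃ c : ℂ, ∀ z, F z = c * Bf z) :
    ∀ (m : ℕ) (k : ℤ) (_ : k = 12 * m + w) (F : ModularForm 𝒮ℒ k),
      ∃ P : ℂ[X], P.natDegree ≤ m ∧
        ∀ z, F z = Bf z * ModularForm.discriminant z ^ m * P.eval (jInv z) := by
  intro m
  induction m with
  | zero =>
    intro k hk F
    have hk' : k = w := by simpa using hk
    subst hk'
    obtain ⟨c, hc⟩ := hbase F
    refine ⟨C c, by simp, fun z ↦ ?_⟩
    rw [hc z]
    simp [mul_comm]
  | succ m ih =>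
    intro k hk F
    have hw : ((3 * (m + 1) : ℕ) : ℤ) * 4 + w = k := by
      rw [hk]; push_cast; ring
    set G : ModularForm 𝒮ℒ k := ModularForm.mcast hw ((E₄.pow (3 * (m + 1))).mul Bf) with hG
    have hGz : ∀ z, G z = E₄ z ^ (3 * (m + 1)) * Bf z := by
      intro z
      have h1 : (G : ℍ → ℂ) = (E₄ : ℍ → ℂ) ^ (3 * (m + 1)) * (Bf : ℍ → ℂ) := by
        rw [hG, ModularForm.coe_mcast, ModularForm.coe_mul, ModularForm.coe_pow]
      rw [h1]
      rfl
    have hG0 : (qExpansion 1 G).coeff 0 = 1 := by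
      rw [hG, ModularForm.qExpansion_mcast,
        ModularForm.qExpansion_mul one_pos one_mem_strictPeriods_SL,
        ModularForm.qExpansion_pow one_pos one_mem_strictPeriods_SL,
        PowerSeries.coeff_zero_eq_constantCoeff, map_mul, map_pow]
      rw [PowerSeries.coeff_zero_eq_constantCoeff] at hB0
      have hE := E_qExpansion_coeff_zero (k := 4) (by norm_num) ⟨2, rfl⟩
      rw [PowerSeries.coeff_zero_eq_constantCoeff] at hE
      rw [hB0, hE]
      simp
    obtain ⟨a₀, h, hh⟩ := exists_eq_smul_add_discriminant_mul F G hG0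
    obtain ⟨P, hP, hPz⟩ := ih (k - 12) (by rw [hk]; push_cast; ring) h
    refine ⟨C a₀ * X ^ (m + 1) + P, ?_, fun z ↦ ?_⟩
    · refine (natDegree_add_le _ _).trans (max_le ?_ (hP.trans (Nat.le_succ m)))
      exact (natDegree_C_mul_le _ _).trans (natDegree_X_pow_le _)
    · rw [hh z, hGz z, hPz z, pow_mul, E₄_cube_eq z]
      simp only [eval_add, eval_mul, eval_C, eval_pow, eval_X]
      ring

/-- Level one forms of weight `12 m` are `Δ ^ m P(j)` with `P` of degree at most `m`. -/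
theorem exists_poly_of_weight_twelve_mul (m : ℕ) (k : ℤ) (hk : k = 12 * m)
    (F : ModularForm 𝒮ℒ k) :
    ∃ P : ℂ[X], P.natDegree ≤ m ∧
      ∀ z, F z = ModularForm.discriminant z ^ m * P.eval (jInv z) := by
  have hbase : ∀ F : ModularForm 𝒮ℒ 0, ∃ c : ℂ, ∀ z, F z = c * (1 : ModularForm 𝒮ℒ 0) z := by
    intro F
    obtain ⟨c, hc⟩ := levelOne_weight_zero_const F
    exact ⟨c, fun z ↦ by simp [hc]⟩
  have hB0 : (qExpansion 1 (1 : ModularForm 𝒮ℒ 0)).coeff 0 = 1 := by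
    rw [ModularForm.qExpansion_one]
    simp
  obtain ⟨P, hP, hPz⟩ := exists_poly_aux 0 1 hB0 hbase m k (by rw [hk]; ring) F
  exact ⟨P, hP, fun z ↦ by rw [hPz z]; simp⟩

/-- The weight `14` form `E₄² E₆`. -/
noncomputable def e4SqE6 : ModularForm 𝒮ℒ 14 :=
  ModularForm.mcast (by decide) ((E₄.pow 2).mul E₆)

theorem e4SqE6_apply (z : ℍ) : e4SqE6 z = E₄ z ^ 2 * E₆ z := by
  have h1 : (e4SqE6 : ℍ → ℂ) = (E₄ : ℍ → ℂ) ^ 2 * (E₆ : ℍ → ℂ) := by
    rw [e4SqE6, ModularForm.coe_mcast, ModularForm.coe_mul, ModularForm.coe_pow]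
  rw [h1]
  rfl

theorem e4SqE6_qExpansion_coeff_zero : (qExpansion 1 e4SqE6).coeff 0 = 1 := by
  rw [e4SqE6, ModularForm.qExpansion_mcast,
    ModularForm.qExpansion_mul one_pos one_mem_strictPeriods_SL,
    ModularForm.qExpansion_pow one_pos one_mem_strictPeriods_SL,
    PowerSeries.coeff_zero_eq_constantCoeff, map_mul, map_pow]
  have hE4 := E_qExpansion_coeff_zero (k := 4) (by norm_num) ⟨2, rfl⟩
  have hE6 := E_qExpansion_coeff_zero (k := 6) (by norm_num) ⟨3, rfl⟩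
  rw [PowerSeries.coeff_zero_eq_constantCoeff] at hE4 hE6
  rw [hE4, hE6]
  simp

theorem e4SqE6_ne_zero : e4SqE6 ≠ 0 := by
  intro h
  have h0 := e4SqE6_qExpansion_coeff_zero
  rw [h] at h0
  simp [qExpansion_zero] at h0

theorem levelOne_weight_fourteen_rank_one : Module.rank ℂ (ModularForm 𝒮ℒ 14) = 1 := by
  have h := dimension_level_one 14 ⟨7, rfl⟩
  simpa [Nat.ModEq] using h

/-- Every level one form of weight `14` is a multiple of `E₄² E₆`. -/
theorem exists_smul_e4SqE6 (F : ModularForm 𝒮ℒ 14) : ∃ c : ℂ, ∀ z, F z = c * e4SqE6 z := by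
  obtain ⟨c, hc⟩ := (finrank_eq_one_iff_of_nonzero' e4SqE6 e4SqE6_ne_zero).mp
    (Module.rank_eq_one_iff_finrank_eq_one.mp levelOne_weight_fourteen_rank_one) F
  exact ⟨c, fun z ↦ by rw [← hc]; rfl⟩

/-- Level one forms of weight `12 m + 14` are `E₄² E₆ Δ ^ m P(j)` with `P` of degree at most
`m`. -/
theorem exists_poly_of_weight_twelve_mul_add_fourteen (m : ℕ) (k : ℤ) (hk : k = 12 * m + 14)
    (F : ModularForm 𝒮ℒ k) :
    ∃ P : ℂ[X], P.natDegree ≤ m ∧
      ∀ z, F z = E₄ z ^ 2 * E₆ z * ModularForm.discriminant z ^ m * P.eval (jInv z) := by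
  obtain ⟨P, hP, hPz⟩ := exists_poly_aux 14 e4SqE6 e4SqE6_qExpansion_coeff_zero
    exists_smul_e4SqE6 m k hk F
  exact ⟨P, hP, fun z ↦ by rw [hPz z, e4SqE6_apply]⟩

/-- If `φ` is slash-invariant of weight `w` under `SL(2, ℤ)` then `φ Δ ^ m` is slash-invariant
of weight `12 m + w`. -/
theorem slash_mul_discriminant_pow (w : ℤ) (φ : ℍ → ℂ)
    (hinv : ∀ γ : SL(2, ℤ), φ ∣[w] γ = φ) (m : ℕ) (γ : SL(2, ℤ)) :
    (fun z => φ z * ModularForm.discriminant z ^ m) ∣[(12 * m + w : ℤ)] γ =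
      fun z => φ z * ModularForm.discriminant z ^ m := by
  ext z
  have hd : denom γ z ≠ 0 := denom_ne_zero γ z
  have hφ : φ (γ • z) = φ z * denom γ z ^ w := by
    have h := congrFun (hinv γ) z
    rw [SL_slash_apply] at h
    rw [← h, mul_assoc, ← zpow_add₀ hd]
    simp
  rw [SL_slash_apply, hφ, discriminant_smul_eq, mul_pow, ← zpow_natCast (denom γ z ^ (12 : ℤ)) m,
    ← zpow_mul]
  have h1 : φ z * denom γ z ^ w * (denom γ z ^ ((12 : ℤ) * m) * ModularForm.discriminant z ^ m) *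
      denom γ z ^ (-(12 * (m : ℤ) + w)) = φ z * ModularForm.discriminant z ^ m *
        (denom γ z ^ w * denom γ z ^ ((12 : ℤ) * m) * denom γ z ^ (-(12 * (m : ℤ) + w))) := by
    ring
  rw [h1, ← zpow_add₀ hd, ← zpow_add₀ hd]
  have h2 : w + 12 * (m : ℤ) + -(12 * (m : ℤ) + w) = 0 := by ring
  rw [h2, zpow_zero, mul_one]

theorem mdifferentiable_mul_discriminant_pow (φ : ℍ → ℂ) (hφ : MDifferentiable 𝓘(ℂ) 𝓘(ℂ) φ)
    (m : ℕ) : MDifferentiable 𝓘(ℂ) 𝓘(ℂ) (fun z => φ z * ModularForm.discriminant z ^ m) :=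
  hφ.mul ((ModularFormClass.holo CuspForm.discriminant).pow m)

/-- **Polynomial in `j`, weight `0`**: a holomorphic `SL(2, ℤ)`-invariant function `φ` on the
upper half plane such that `φ Δ ^ m` is bounded at `i∞` is a polynomial of degree at most `m`
in `j`. -/
theorem exists_poly_jInv (φ : ℍ → ℂ) (hφ : MDifferentiable 𝓘(ℂ) 𝓘(ℂ) φ)
    (hinv : ∀ γ : SL(2, ℤ), φ ∣[(0 : ℤ)] γ = φ) (m : ℕ)
    (hbd : IsBoundedAtImInfty (fun z => φ z * ModularForm.discriminant z ^ m)) :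
    ∃ P : ℂ[X], P.natDegree ≤ m ∧ ∀ z, φ z = P.eval (jInv z) := by
  obtain ⟨P, hP, hPz⟩ := exists_poly_of_weight_twelve_mul m (12 * m + 0) (by ring)
    (mkLevelOne (12 * m + 0) _ (mdifferentiable_mul_discriminant_pow φ hφ m)
      (slash_mul_discriminant_pow 0 φ hinv m) hbd)
  refine ⟨P, hP, fun z ↦ ?_⟩
  have h := hPz z
  rw [mkLevelOne_apply, mul_comm] at h
  exact mul_left_cancel₀ (pow_ne_zero m (discriminant_ne_zero z)) h

/-- **Polynomial in `j`, weight `14`**: a holomorphic function `φ` on the upper half plane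
which is slash-invariant of weight `14` under `SL(2, ℤ)` and such that `φ Δ ^ m` is bounded at
`i∞` is `E₄² E₆ P(j)` with `P` a polynomial of degree at most `m`. -/
theorem exists_poly_jInv_fourteen (φ : ℍ → ℂ) (hφ : MDifferentiable 𝓘(ℂ) 𝓘(ℂ) φ)
    (hinv : ∀ γ : SL(2, ℤ), φ ∣[(14 : ℤ)] γ = φ) (m : ℕ)
    (hbd : IsBoundedAtImInfty (fun z => φ z * ModularForm.discriminant z ^ m)) :
    ∃ P : ℂ[X], P.natDegree ≤ m ∧ ∀ z, φ z = E₄ z ^ 2 * E₆ z * P.eval (jInv z) := by
  obtain ⟨P, hP, hPz⟩ := exists_poly_of_weight_twelve_mul_add_fourteen m (12 * m + 14) rfl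
    (mkLevelOne (12 * m + 14) _ (mdifferentiable_mul_discriminant_pow φ hφ m)
      (slash_mul_discriminant_pow 14 φ hinv m) hbd)
  refine ⟨P, hP, fun z ↦ ?_⟩
  have h := hPz z
  rw [mkLevelOne_apply] at h
  have hΔ := pow_ne_zero m (discriminant_ne_zero z)
  have h' : ModularForm.discriminant z ^ m * φ z =
      ModularForm.discriminant z ^ m * (E₄ z ^ 2 * E₆ z * P.eval (jInv z)) := by
    rw [mul_comm, h]
    ring
  exact mul_left_cancel₀ hΔ h'

/-- Pointwise invariance implies slash invariance. -/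
theorem slash_eq_of_smul_eq (w : ℤ) (φ : ℍ → ℂ)
    (hinv : ∀ (γ : SL(2, ℤ)) (z : ℍ), φ (γ • z) = denom γ z ^ w * φ z) (γ : SL(2, ℤ)) :
    φ ∣[w] γ = φ := by
  ext z
  have hd : denom γ z ≠ 0 := denom_ne_zero γ z
  rw [SL_slash_apply, hinv γ z, mul_comm, ← mul_assoc, ← zpow_add₀ hd]
  simp

/-- `exists_poly_jInv` with pointwise invariance `φ (γ • z) = φ z`. -/
theorem exists_poly_jInv' (φ : ℍ → ℂ) (hφ : MDifferentiable 𝓘(ℂ) 𝓘(ℂ) φ)
    (hinv : ∀ (γ : SL(2, ℤ)) (z : ℍ), φ (γ • z) = φ z) (m : ℕ)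
    (hbd : IsBoundedAtImInfty (fun z => φ z * ModularForm.discriminant z ^ m)) :
    ∃ P : ℂ[X], P.natDegree ≤ m ∧ ∀ z, φ z = P.eval (jInv z) :=
  exists_poly_jInv φ hφ (slash_eq_of_smul_eq 0 φ (fun γ z ↦ by rw [hinv γ z]; simp)) m hbd

/-- `exists_poly_jInv_fourteen` with pointwise invariance `φ (γ • z) = (c z + d) ^ 14 φ z`. -/
theorem exists_poly_jInv_fourteen' (φ : ℍ → ℂ) (hφ : MDifferentiable 𝓘(ℂ) 𝓘(ℂ) φ)
    (hinv : ∀ (γ : SL(2, ℤ)) (z : ℍ), φ (γ • z) = denom γ z ^ (14 : ℤ) * φ z) (m : ℕ)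
    (hbd : IsBoundedAtImInfty (fun z => φ z * ModularForm.discriminant z ^ m)) :
    ∃ P : ℂ[X], P.natDegree ≤ m ∧ ∀ z, φ z = E₄ z ^ 2 * E₆ z * P.eval (jInv z) :=
  exists_poly_jInv_fourteen φ hφ (slash_eq_of_smul_eq 14 φ hinv) m hbd

/-- Growth of `Δ`: `exp (-2π Im z) = O(Δ)` and `Δ = O(exp (-2π Im z))` at `i∞`. The second
statement is Mathlib's exponential decay of cusp forms. -/
theorem discriminant_isBigO_exp :
    (fun z : ℍ => ModularForm.discriminant z) =O[atImInfty]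
      fun z => Real.exp (-2 * Real.pi * z.im) := by
  have h := CuspFormClass.exp_decay_atImInfty (F := CuspForm 𝒮ℒ 12) (h := 1)
    CuspForm.discriminant one_pos one_mem_strictPeriods_SL
  simpa using h

/-- A convenient sufficient condition for the boundedness hypothesis: exponential growth
`φ = O(exp (2π m Im z))` at `i∞`. -/
theorem isBoundedAtImInfty_mul_discriminant_pow (φ : ℍ → ℂ) (m : ℕ)
    (hgrow : φ =O[atImInfty] fun z : ℍ => Real.exp (2 * Real.pi * m * z.im)) :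
    IsBoundedAtImInfty (fun z => φ z * ModularForm.discriminant z ^ m) := by
  rw [IsBoundedAtImInfty, Filter.BoundedAtFilter]
  have h1 := hgrow.mul (discriminant_isBigO_exp.pow m)
  refine h1.trans (Asymptotics.IsBigO.of_bound 1 (Filter.Eventually.of_forall fun z ↦ ?_))
  have : Real.exp (2 * Real.pi * m * z.im) * Real.exp (-2 * Real.pi * z.im) ^ m = 1 := by
    rw [← Real.exp_nat_mul, ← Real.exp_add]
    have : 2 * Real.pi * m * z.im + m * (-2 * Real.pi * z.im) = 0 := by ring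
    rw [this, Real.exp_zero]
  rw [Real.norm_eq_abs, Real.norm_eq_abs, this]
  simp

end Fermat.Agent.S23.R1
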