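import Mathlib.NumberTheory.ModularForms.LevelOne.GradedRing
import Mathlib.NumberTheory.ModularForms.EisensteinSeries.QExpansion

/-!
# S23, work package R1: level one

* rationality of the `q`-expansions of `E_k` and `Δ`;
* conjugation of level one forms by a ring endomorphism of `ℂ`.
-/

namespace Fermat.Agent.S23.R1

open UpperHalfPlane ModularForm ModularFormClass MatrixGroups EisensteinSeries CongruenceSubgroup
open scoped Topology

/-- The `q`-expansion of the Eisenstein series `E_k` has rational coefficients, hence is fixed by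
every ring endomorphism of `ℂ`. -/
theorem E_qExpansion_map {k : ℕ} (hk : 3 ≤ k) (hk2 : Even k) (σ : ℂ →+* ℂ) :
    (qExpansion 1 (E hk)).map σ = qExpansion 1 (E hk) := by
  ext m
  rw [PowerSeries.coeff_map, E_qExpansion_coeff hk hk2]
  split_ifs with h
  · simp
  · simp only [map_neg, map_mul, map_div₀, map_ofNat, map_natCast, map_ratCast]

/-- The weight `12` form `E₄³ - E₆²`. -/
noncomputable def e4CubeSubE6Sq : ModularForm 𝒮ℒ 12 :=
  ModularForm.mcast (by decide) (E₄.pow 3) - ModularForm.mcast (by decide) (E₆.pow 2)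

theorem e4CubeSubE6Sq_apply (z : ℍ) : e4CubeSubE6Sq z = E₄ z ^ 3 - E₆ z ^ 2 := by
  simp only [e4CubeSubE6Sq, coe_mcast, coe_pow, sub_apply, Pi.pow_apply]

theorem e4CubeSubE6Sq_qExpansion :
    qExpansion 1 e4CubeSubE6Sq = qExpansion 1 E₄ ^ 3 - qExpansion 1 E₆ ^ 2 := by
  simp only [e4CubeSubE6Sq, FunLike.coe_sub, coe_mcast,
    ModularForm.qExpansion_sub one_pos one_mem_strictPeriods_SL,
    ModularForm.qExpansion_pow one_pos one_mem_strictPeriods_SL]

/-- `1728 Δ = E₄³ - E₆²` on the level of `q`-expansions. -/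
theorem discriminant_qExpansion_eq :
    (1728 : ℂ) • qExpansion 1 ModularForm.discriminant =
      qExpansion 1 E₄ ^ 3 - qExpansion 1 E₆ ^ 2 := by
  rw [← e4CubeSubE6Sq_qExpansion]
  have h : ((1728 : ℂ) • CuspForm.discriminant : CuspForm 𝒮ℒ 12) = (e4CubeSubE6Sq : ℍ → ℂ) := by
    ext z
    rw [e4CubeSubE6Sq_apply]
    have := discriminant_eq_E₄_cube_sub_E₆_sq z
    change (1728 : ℂ) * ModularForm.discriminant z = _
    rw [this]
    ring
  rw [← h]
  exact (ModularForm.qExpansion_smul one_pos one_mem_strictPeriods_SL (1728 : ℂ)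
    CuspForm.discriminant).symm

/-- The `q`-expansion of `Δ` has rational coefficients, hence is fixed by every ring
endomorphism of `ℂ`. -/
theorem discriminant_qExpansion_map (σ : ℂ →+* ℂ) :
    (qExpansion 1 ModularForm.discriminant).map σ = qExpansion 1 ModularForm.discriminant := by
  have h := congrArg (PowerSeries.map σ) discriminant_qExpansion_eq
  rw [map_sub, map_pow, map_pow, E_qExpansion_map _ ⟨2, rfl⟩, E_qExpansion_map _ ⟨3, rfl⟩,
    ← discriminant_qExpansion_eq] at h
  have h2 : PowerSeries.map σ ((1728 : ℂ) • qExpansion 1 ModularForm.discriminant) =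
      (1728 : ℂ) • PowerSeries.map σ (qExpansion 1 ModularForm.discriminant) := by
    ext n
    simp [map_ofNat]
  rw [h2] at h
  have h1728 : (1728 : ℂ) ≠ 0 := by norm_num
  ext n
  have hn := congrArg (PowerSeries.coeff n) h
  simp only [PowerSeries.coeff_smul, smul_eq_mul] at hn
  exact mul_left_cancel₀ h1728 hn

/-- The `q`-expansion coefficients of `E_k` are rational. -/
theorem E_qExpansion_coeff_rat {k : ℕ} (hk : 3 ≤ k) (hk2 : Even k) (n : ℕ) :
    ∃ r : ℚ, (qExpansion 1 (E hk)).coeff n = (r : ℂ) := by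
  rw [E_qExpansion_coeff hk hk2]
  split_ifs with h
  · exact ⟨1, by simp⟩
  · exact ⟨-(2 * k / bernoulli k) * (ArithmeticFunction.sigma (k - 1) n : ℚ), by push_cast; ring⟩

/-- The `q`-expansion coefficients of `Δ` are rational. -/
theorem discriminant_qExpansion_coeff_rat (n : ℕ) :
    ∃ r : ℚ, (qExpansion 1 ModularForm.discriminant).coeff n = (r : ℂ) := by
  have hrat : ∀ (p : PowerSeries ℂ), (∀ n, ∃ r : ℚ, p.coeff n = (r : ℂ)) →
      ∃ P : PowerSeries ℚ, P.map (algebraMap ℚ ℂ) = p := by
    intro p hp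
    choose r hr using hp
    exact ⟨PowerSeries.mk r, by ext n; simp [hr n]⟩
  obtain ⟨P4, hP4⟩ := hrat _ (E_qExpansion_coeff_rat (k := 4) (by norm_num) ⟨2, rfl⟩)
  obtain ⟨P6, hP6⟩ := hrat _ (E_qExpansion_coeff_rat (k := 6) (by norm_num) ⟨3, rfl⟩)
  have h := congrArg (PowerSeries.coeff n) discriminant_qExpansion_eq
  change (PowerSeries.coeff n) ((1728 : ℂ) • qExpansion 1 ModularForm.discriminant) =
    (PowerSeries.coeff n) (qExpansion 1 E₄ ^ 3 - qExpansion 1 E₆ ^ 2) at h
  rw [← hP4, ← hP6, ← map_pow, ← map_pow, ← map_sub, PowerSeries.coeff_map,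
    PowerSeries.coeff_smul, smul_eq_mul] at h
  refine ⟨(PowerSeries.coeff n (P4 ^ 3 - P6 ^ 2)) / 1728, ?_⟩
  have h1728 : (1728 : ℂ) ≠ 0 := by norm_num
  have h2 : ((1728 : ℚ) : ℂ) = 1728 := by norm_num
  rw [Rat.cast_div, h2, eq_div_iff h1728, mul_comm, h]
  simp

theorem map_smul_powerSeries (σ : ℂ →+* ℂ) (c : ℂ) (p : PowerSeries ℂ) :
    PowerSeries.map σ (c • p) = σ c • PowerSeries.map σ p := by
  ext n
  simp

/-- Conjugation of level one forms of weight `0` (constants). -/
theorem exists_conj_weight_zero (σ : ℂ →+* ℂ) (f : ModularForm 𝒮ℒ 0) :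
    ∃ g : ModularForm 𝒮ℒ 0, qExpansion 1 g = (qExpansion 1 f).map σ := by
  obtain ⟨c, hc⟩ := levelOne_weight_zero_const f
  have hf : f = c • (1 : ModularForm 𝒮ℒ 0) := by
    ext z
    simp [hc]
  refine ⟨σ c • (1 : ModularForm 𝒮ℒ 0), ?_⟩
  rw [hf, FunLike.coe_smul, FunLike.coe_smul,
    ModularForm.qExpansion_smul one_pos one_mem_strictPeriods_SL,
    ModularForm.qExpansion_smul one_pos one_mem_strictPeriods_SL, ModularForm.qExpansion_one,
    map_smul_powerSeries, map_one]

/-- **Conjugation at level one** (natural number weights): for every ring endomorphism `σ` of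
`ℂ` and every level one modular form `f` there is a level one modular form of the same weight
whose `q`-expansion is `σ` applied to the `q`-expansion of `f`. -/
theorem exists_conj_nat (σ : ℂ →+* ℂ) (k : ℕ) :
    ∀ f : ModularForm 𝒮ℒ (k : ℤ), ∃ g : ModularForm 𝒮ℒ (k : ℤ),
      qExpansion 1 g = (qExpansion 1 f).map σ := by
  induction k using Nat.strong_induction_on with | h k ih =>
  intro f
  rcases Nat.even_or_odd k with hk2 | hk2
  swap
  · have : f = 0 := levelOne_odd_weight_eq_zero (by exact_mod_cast hk2) f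
    exact ⟨0, by simp [this, qExpansion_zero]⟩
  rcases Nat.lt_or_ge k 3 with hk3 | hk3
  · interval_cases k
    · exact exists_conj_weight_zero σ f
    · exact absurd hk2 (by decide)
    · have : f = 0 := rank_zero_iff_forall_zero.mp levelOne_weight_two_rank_zero f
      exact ⟨0, by simp [this, qExpansion_zero]⟩
  -- `k ≥ 3` even
  have hE0 := E_qExpansion_coeff_zero hk3 hk2
  have h0 : (qExpansion 1 (f - (qExpansion 1 f).coeff 0 • E hk3 :
      ModularForm 𝒮ℒ (k : ℤ))).coeff 0 = 0 := by
    rw [FunLike.coe_sub, ModularForm.qExpansion_sub one_pos one_mem_strictPeriods_SL,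
      FunLike.coe_smul, ModularForm.qExpansion_smul one_pos one_mem_strictPeriods_SL, map_sub,
      PowerSeries.coeff_smul, hE0]
    simp
  have hfact := qExpansion_eq_qExpansion_discriminant_mul _ h0
  set f' : ModularForm 𝒮ℒ (k : ℤ) := f - (qExpansion 1 f).coeff 0 • E hk3 with hf'
  set h := CuspForm.discriminantEquiv (toCuspForm f' h0) with hh
  have hg : ∃ g₁ : ModularForm 𝒮ℒ ((k : ℤ) - 12),
      qExpansion 1 g₁ = (qExpansion 1 h).map σ := by
    rcases Nat.lt_or_ge k 12 with hk12 | hk12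
    · have : h = 0 :=
        rank_zero_iff_forall_zero.mp (levelOne_neg_weight_rank_zero (by omega)) h
      exact ⟨0, by simp [this, qExpansion_zero]⟩
    · have hcast : ((k : ℤ) - 12) = ((k - 12 : ℕ) : ℤ) := by omega
      obtain ⟨g₁, hg₁⟩ := ih (k - 12) (by omega) (ModularForm.mcast hcast h)
      exact ⟨ModularForm.mcast hcast.symm g₁, by simpa using hg₁⟩
  obtain ⟨g₁, hg₁⟩ := hg
  refine ⟨σ ((qExpansion 1 f).coeff 0) • E hk3 +
    CuspForm.toModularFormₗ (CuspForm.ofMulDiscriminant g₁), ?_⟩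
  have hf_eq : qExpansion 1 f = qExpansion 1 f' + (qExpansion 1 f).coeff 0 • qExpansion 1 (E hk3) := by
    rw [hf', FunLike.coe_sub, ModularForm.qExpansion_sub one_pos one_mem_strictPeriods_SL,
      FunLike.coe_smul, ModularForm.qExpansion_smul one_pos one_mem_strictPeriods_SL]
    ring
  have hmul : qExpansion 1 (CuspForm.toModularFormₗ (CuspForm.ofMulDiscriminant g₁)) =
      qExpansion 1 ModularForm.discriminant * qExpansion 1 g₁ := by
    have : ((CuspForm.toModularFormₗ (CuspForm.ofMulDiscriminant g₁) : ModularForm 𝒮ℒ (k : ℤ)) :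
        ℍ → ℂ) = (CuspForm.discriminant : ℍ → ℂ) * (g₁ : ℍ → ℂ) := by
      ext z
      simp [CuspForm.toModularFormₗ_apply]
    rw [this]
    exact ModularForm.qExpansion_mul_coe one_pos one_mem_strictPeriods_SL _ _
  rw [FunLike.coe_add, ModularForm.qExpansion_add one_pos one_mem_strictPeriods_SL,
    FunLike.coe_smul, ModularForm.qExpansion_smul one_pos one_mem_strictPeriods_SL, hmul, hg₁]
  conv_rhs => rw [hf_eq, hfact]
  rw [map_add, map_mul, map_smul_powerSeries, discriminant_qExpansion_map,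
    E_qExpansion_map hk3 hk2]
  ring

/-- **Conjugation at level one**: for every ring endomorphism `σ` of `ℂ` and every level one
modular form `f` there is a level one modular form of the same weight whose `q`-expansion is
`σ` applied to the `q`-expansion of `f`. -/
theorem exists_conj (σ : ℂ →+* ℂ) (k : ℤ) (f : ModularForm 𝒮ℒ k) :
    ∃ g : ModularForm 𝒮ℒ k, qExpansion 1 g = (qExpansion 1 f).map σ := by
  rcases lt_or_ge k 0 with hk | hk
  · have : f = 0 := rank_zero_iff_forall_zero.mp (levelOne_neg_weight_rank_zero hk) f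
    exact ⟨0, by simp [this, qExpansion_zero]⟩
  · lift k to ℕ using hk
    exact exists_conj_nat σ k f

/-- **Conjugation of level one cusp forms**. -/
theorem exists_conj_cuspForm (σ : ℂ →+* ℂ) (k : ℤ) (f : CuspForm 𝒮ℒ k) :
    ∃ g : CuspForm 𝒮ℒ k, qExpansion 1 g = (qExpansion 1 f).map σ := by
  obtain ⟨g, hg⟩ := exists_conj σ k (CuspForm.toModularFormₗ f)
  have hf0 : (qExpansion 1 f).coeff 0 = 0 :=
    CuspFormClass.qExpansion_coeff_zero f one_pos one_mem_strictPeriods_SL
  have hfun : ((CuspForm.toModularFormₗ f : ModularForm 𝒮ℒ k) : ℍ → ℂ) = f := by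
    ext z
    simp [CuspForm.toModularFormₗ_apply]
  rw [hfun] at hg
  have hg0 : (qExpansion 1 g).coeff 0 = 0 := by
    rw [hg, PowerSeries.coeff_map, hf0, map_zero]
  refine ⟨toCuspForm g hg0, ?_⟩
  have : ((toCuspForm g hg0 : CuspForm 𝒮ℒ k) : ℍ → ℂ) = g := by
    ext z
    simp [toCuspForm_apply]
  rw [this, hg]

end Fermat.Agent.S23.R1
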