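import Fermat.Agent.S23.Defs
import Fermat.Agent.S23.H14_LevelOne

/-!
# S23, leaf L1: level one forms are spanned by forms with rational `q`-expansion
-/

set_option autoImplicit false

namespace Fermat.Agent.S23.R1

open UpperHalfPlane ModularForm ModularFormClass MatrixGroups EisensteinSeries CongruenceSubgroup
open scoped Topology

/-- A power series over `ℂ` with rational coefficients comes from a power series over `ℚ`. -/
theorem exists_map_eq_of_rat (p : PowerSeries ℂ) (hp : ∀ n, ∃ r : ℚ, p.coeff n = (r : ℂ)) :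
    ∃ P : PowerSeries ℚ, P.map (algebraMap ℚ ℂ) = p := by
  choose r hr using hp
  exact ⟨PowerSeries.mk r, by ext n; simp [hr n]⟩

theorem rat_of_map_eq (P : PowerSeries ℚ) (n : ℕ) :
    ∃ r : ℚ, (P.map (algebraMap ℚ ℂ)).coeff n = (r : ℂ) :=
  ⟨P.coeff n, by simp⟩

/-- The product of two power series with rational coefficients has rational coefficients. -/
theorem rat_coeff_mul (p q : PowerSeries ℂ) (hp : ∀ n, ∃ r : ℚ, p.coeff n = (r : ℂ))
    (hq : ∀ n, ∃ r : ℚ, q.coeff n = (r : ℂ)) (n : ℕ) : ∃ r : ℚ, (p * q).coeff n = (r : ℂ) := by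
  obtain ⟨P, rfl⟩ := exists_map_eq_of_rat p hp
  obtain ⟨Q, rfl⟩ := exists_map_eq_of_rat q hq
  rw [← map_mul]
  exact rat_of_map_eq _ n

theorem isRat_E {k : ℕ} (hk : 3 ≤ k) (hk2 : Even k) : IsRat (E hk) :=
  fun n ↦ E_qExpansion_coeff_rat hk hk2 n

theorem isRat_one : IsRat (1 : ModularForm 𝒮ℒ 0) := by
  intro n
  change ∃ r : ℚ, (qExpansion 1 (1 : ModularForm 𝒮ℒ 0)).coeff n = (r : ℂ)
  rw [ModularForm.qExpansion_one, PowerSeries.coeff_one]
  split_ifs
  · exact ⟨1, by simp⟩
  · exact ⟨0, by simp⟩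

/-- Multiplication by `Δ`, as a linear map from weight `k - 12` to weight `k`. -/
noncomputable def mulDiscriminantₗ (k : ℤ) : ModularForm 𝒮ℒ (k - 12) →ₗ[ℂ] ModularForm 𝒮ℒ k :=
  CuspForm.toModularFormₗ.comp (CuspForm.discriminantEquiv (k := k)).symm.toLinearMap

theorem mulDiscriminantₗ_apply (k : ℤ) (h : ModularForm 𝒮ℒ (k - 12)) (z : ℍ) :
    mulDiscriminantₗ k h z = ModularForm.discriminant z * h z := rfl

theorem qExpansion_mulDiscriminantₗ (k : ℤ) (h : ModularForm 𝒮ℒ (k - 12)) :
    qExpansion 1 (mulDiscriminantₗ k h) = qExpansion 1 ModularForm.discriminant * qExpansion 1 h := by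
  have : ((mulDiscriminantₗ k h : ModularForm 𝒮ℒ k) : ℍ → ℂ) =
      (CuspForm.discriminant : ℍ → ℂ) * (h : ℍ → ℂ) := by
    ext z
    rfl
  rw [this]
  exact ModularForm.qExpansion_mul_coe one_pos one_mem_strictPeriods_SL _ _

theorem isRat_mulDiscriminantₗ (k : ℤ) (h : ModularForm 𝒮ℒ (k - 12)) (hh : IsRat h) :
    IsRat (mulDiscriminantₗ k h) := by
  intro n
  change ∃ r : ℚ, (qExpansion 1 (mulDiscriminantₗ k h)).coeff n = (r : ℂ)
  rw [qExpansion_mulDiscriminantₗ]
  exact rat_coeff_mul _ _ discriminant_qExpansion_coeff_rat hh n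

theorem levelOne_mem_span_rat_aux (n : ℕ) :
    ∀ (k : ℤ), k = n → ∀ c : ModularForm 𝒮ℒ k,
      c ∈ Submodule.span ℂ {m : ModularForm 𝒮ℒ k | IsRat m} := by
  induction n using Nat.strong_induction_on with | h n ih =>
  intro k hk c
  subst hk
  rcases Nat.even_or_odd n with hn2 | hn2
  swap
  · have : c = 0 := levelOne_odd_weight_eq_zero (by exact_mod_cast hn2) c
    rw [this]
    exact Submodule.zero_mem _
  rcases Nat.lt_or_ge n 3 with hn3 | hn3
  · interval_cases n
    · obtain ⟨c₀, hc₀⟩ := levelOne_weight_zero_const c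
      have hc : c = c₀ • (1 : ModularForm 𝒮ℒ 0) := by
        ext z
        simp [hc₀]
      rw [hc]
      exact Submodule.smul_mem _ _ (Submodule.subset_span isRat_one)
    · exact absurd hn2 (by decide)
    · have : c = 0 := rank_zero_iff_forall_zero.mp levelOne_weight_two_rank_zero c
      rw [this]
      exact Submodule.zero_mem _
  -- `n ≥ 3` even
  have hE0 := E_qExpansion_coeff_zero hn3 hn2
  have h0 : (qExpansion 1 (c - (qExpansion 1 c).coeff 0 • E hn3 :
      ModularForm 𝒮ℒ (n : ℤ))).coeff 0 = 0 := by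
    rw [FunLike.coe_sub, ModularForm.qExpansion_sub one_pos one_mem_strictPeriods_SL,
      FunLike.coe_smul, ModularForm.qExpansion_smul one_pos one_mem_strictPeriods_SL, map_sub,
      PowerSeries.coeff_smul, hE0]
    simp
  set c' : ModularForm 𝒮ℒ (n : ℤ) := c - (qExpansion 1 c).coeff 0 • E hn3 with hc'
  set h := CuspForm.discriminantEquiv (toCuspForm c' h0) with hh
  have hc_eq : c = (qExpansion 1 c).coeff 0 • E hn3 + mulDiscriminantₗ (n : ℤ) h := by
    ext z
    rw [add_apply, mulDiscriminantₗ_apply, hh,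
      discriminant_mul_discriminantEquiv_apply, toCuspForm_apply, hc']
    simp
  have hmem : h ∈ Submodule.span ℂ {m : ModularForm 𝒮ℒ ((n : ℤ) - 12) | IsRat m} := by
    rcases Nat.lt_or_ge n 12 with hn12 | hn12
    · have : h = 0 :=
        rank_zero_iff_forall_zero.mp (levelOne_neg_weight_rank_zero (by omega)) h
      rw [this]
      exact Submodule.zero_mem _
    · exact ih (n - 12) (by omega) _ (by omega) h
  rw [hc_eq]
  refine Submodule.add_mem _ (Submodule.smul_mem _ _ (Submodule.subset_span (isRat_E hn3 hn2))) ?_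
  have hle : Submodule.span ℂ {m : ModularForm 𝒮ℒ ((n : ℤ) - 12) | IsRat m} ≤
      (Submodule.span ℂ {m : ModularForm 𝒮ℒ (n : ℤ) | IsRat m}).comap
        (mulDiscriminantₗ (n : ℤ)) := by
    rw [Submodule.span_le]
    intro m hm
    exact Submodule.subset_span (isRat_mulDiscriminantₗ _ m hm)
  exact hle hmem

/-- **Leaf L1**: every level one modular form is a `ℂ`-linear combination of level one forms
with rational `q`-expansion. -/
theorem levelOne_mem_span_rat {k : ℤ} (c : ModularForm 𝒮ℒ k) :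
    c ∈ Submodule.span ℂ {m : ModularForm 𝒮ℒ k | IsRat m} := by
  rcases lt_or_ge k 0 with hk | hk
  · have : c = 0 := rank_zero_iff_forall_zero.mp (levelOne_neg_weight_rank_zero hk) c
    rw [this]
    exact Submodule.zero_mem _
  · lift k to ℕ using hk
    exact levelOne_mem_span_rat_aux k _ rfl c

end Fermat.Agent.S23.R1
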