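/-
S23, work package R6 (helper17): holomorphy and cuspidality by integrality.

* `R6.norm_le_of_monic_eq`, `R6.norm_pow_le_of_monic_eq`: root bounds for monic polynomials.
* `R6.exists_differentiableOn_mul_eq`: if `a, b` are holomorphic on a connected open set `U`,
  `b ≢ 0`, and `a / b` satisfies a monic equation with continuous coefficients (stated with
  denominators cleared), then `a / b` extends to a holomorphic function on `U`.
-/
import Mathlib

set_option autoImplicit false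

namespace Fermat.Agent.S23.R6

open Filter Topology Set

/-- Root bound: a root `x` of `X ^ μ + ∑ i, c i * X ^ (μ - 1 - i)` satisfies
`‖x‖ ≤ max 1 (∑ i, ‖c i‖)`. -/
theorem norm_le_of_monic_eq {μ : ℕ} (x : ℂ) (c : Fin μ → ℂ)
    (h : x ^ μ + ∑ i : Fin μ, c i * x ^ (μ - 1 - (i : ℕ)) = 0) :
    ‖x‖ ≤ max 1 (∑ i : Fin μ, ‖c i‖) := by
  by_contra hcon
  rw [not_le, max_lt_iff] at hcon
  obtain ⟨h1, hS⟩ := hcon
  have hμ : 0 < μ := by
    rcases Nat.eq_zero_or_pos μ with h0 | h0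
    · subst h0
      simp at h
    · exact h0
  have hx0 : 0 < ‖x‖ := lt_trans zero_lt_one h1
  have hpow : x ^ μ = -∑ i : Fin μ, c i * x ^ (μ - 1 - (i : ℕ)) := eq_neg_of_add_eq_zero_left h
  have hle : ‖x‖ ^ μ ≤ (∑ i : Fin μ, ‖c i‖) * ‖x‖ ^ (μ - 1) := by
    calc ‖x‖ ^ μ = ‖x ^ μ‖ := (norm_pow _ _).symm
      _ = ‖∑ i : Fin μ, c i * x ^ (μ - 1 - (i : ℕ))‖ := by rw [hpow, norm_neg]
      _ ≤ ∑ i : Fin μ, ‖c i * x ^ (μ - 1 - (i : ℕ))‖ := norm_sum_le _ _
      _ ≤ ∑ i : Fin μ, ‖c i‖ * ‖x‖ ^ (μ - 1) := by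
          refine Finset.sum_le_sum fun i _ => ?_
          rw [norm_mul, norm_pow]
          exact mul_le_mul_of_nonneg_left
            (pow_le_pow_right₀ h1.le (Nat.sub_le _ _)) (norm_nonneg _)
      _ = (∑ i : Fin μ, ‖c i‖) * ‖x‖ ^ (μ - 1) := by rw [Finset.sum_mul]
  have hsplit : ‖x‖ ^ μ = ‖x‖ * ‖x‖ ^ (μ - 1) := by
    rw [← pow_succ']
    congr 1
    omega
  rw [hsplit] at hle
  have := le_of_mul_le_mul_right hle (pow_pos hx0 _)
  exact absurd this (not_le.mpr hS)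

/-- Root bound, small coefficients: if `∑ i, ‖c i‖ ≤ 1` then a root `x` of
`X ^ μ + ∑ i, c i * X ^ (μ - 1 - i)` satisfies `‖x‖ ^ μ ≤ ∑ i, ‖c i‖`. -/
theorem norm_pow_le_of_monic_eq {μ : ℕ} (x : ℂ) (c : Fin μ → ℂ)
    (h : x ^ μ + ∑ i : Fin μ, c i * x ^ (μ - 1 - (i : ℕ)) = 0)
    (hc : ∑ i : Fin μ, ‖c i‖ ≤ 1) :
    ‖x‖ ^ μ ≤ ∑ i : Fin μ, ‖c i‖ := by
  have hx1 : ‖x‖ ≤ 1 := by
    have := norm_le_of_monic_eq x c h
    rwa [max_eq_left hc] at this
  have hpow : x ^ μ = -∑ i : Fin μ, c i * x ^ (μ - 1 - (i : ℕ)) := eq_neg_of_add_eq_zero_left h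
  calc ‖x‖ ^ μ = ‖x ^ μ‖ := (norm_pow _ _).symm
    _ = ‖∑ i : Fin μ, c i * x ^ (μ - 1 - (i : ℕ))‖ := by rw [hpow, norm_neg]
    _ ≤ ∑ i : Fin μ, ‖c i * x ^ (μ - 1 - (i : ℕ))‖ := norm_sum_le _ _
    _ ≤ ∑ i : Fin μ, ‖c i‖ := by
        refine Finset.sum_le_sum fun i _ => ?_
        rw [norm_mul, norm_pow]
        exact mul_le_of_le_one_right (norm_nonneg _) (pow_le_one₀ (norm_nonneg _) hx1)

/-- **Holomorphy by integrality.** Let `a, b` be holomorphic on a connected open set `U ⊆ ℂ` with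
`b` not identically zero, and assume that `a / b` satisfies a monic polynomial equation with
continuous coefficients `c i` (written with denominators cleared, so that it makes sense on all of
`U`). Then `a / b` extends to a holomorphic function `g` on `U`, which satisfies the same monic
equation. -/
theorem exists_differentiableOn_mul_eq {μ : ℕ} {U : Set ℂ} (hU : IsOpen U)
    (hUc : IsPreconnected U) {a b : ℂ → ℂ} (ha : DifferentiableOn ℂ a U)
    (hb : DifferentiableOn ℂ b U) (hb0 : ∃ z ∈ U, b z ≠ 0)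
    {c : Fin μ → ℂ → ℂ} (hc : ∀ i, ContinuousOn (c i) U)
    (heq : ∀ z ∈ U, a z ^ μ +
      ∑ i : Fin μ, c i z * a z ^ (μ - 1 - (i : ℕ)) * b z ^ ((i : ℕ) + 1) = 0) :
    ∃ g : ℂ → ℂ, DifferentiableOn ℂ g U ∧ (∀ z ∈ U, g z * b z = a z) ∧
      ∀ z ∈ U, g z ^ μ + ∑ i : Fin μ, c i z * g z ^ (μ - 1 - (i : ℕ)) = 0 := by
  classical
  have hμ : 0 < μ := by
    rcases Nat.eq_zero_or_pos μ with h | h
    · subst h
      obtain ⟨z, hz, _⟩ := hb0
      have := heq z hz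
      simp at this
    · exact h
  set u : ℂ → ℂ := fun z => a z / b z with hu
  -- the monic equation for `u` away from the zeros of `b`
  have hmon : ∀ z ∈ U, b z ≠ 0 →
      u z ^ μ + ∑ i : Fin μ, c i z * u z ^ (μ - 1 - (i : ℕ)) = 0 := by
    intro z hz hbz
    have h := heq z hz
    have hub : u z * b z = a z := by simp only [hu]; exact div_mul_cancel₀ _ hbz
    have key : (u z ^ μ + ∑ i : Fin μ, c i z * u z ^ (μ - 1 - (i : ℕ))) * b z ^ μ = 0 := by
      rw [add_mul, Finset.sum_mul, ← h]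
      congr 1
      · rw [← mul_pow, hub]
      · refine Finset.sum_congr rfl fun i _ => ?_
        have hi : b z ^ μ = b z ^ (μ - 1 - (i : ℕ)) * b z ^ ((i : ℕ) + 1) := by
          rw [← pow_add]
          congr 1
          have := i.2
          omega
        rw [hi, ← hub, mul_pow]
        ring
    exact (mul_eq_zero.mp key).resolve_right (pow_ne_zero _ hbz)
  -- the zeros of `b` are isolated
  have hban : AnalyticOnNhd ℂ b U := hb.analyticOnNhd hU
  have hbne : ∀ z ∈ U, ∀ᶠ w in 𝓝[≠] z, b w ≠ 0 := by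
    intro z hz
    rcases (hban z hz).eventually_eq_zero_or_eventually_ne_zero with h | h
    · exfalso
      obtain ⟨w, hw, hbw⟩ := hb0
      exact hbw (hban.eqOn_zero_of_preconnected_of_eventuallyEq_zero hUc hz h hw)
    · exact h
  set g : ℂ → ℂ := fun z => if b z = 0 then limUnder (𝓝[≠] z) u else u z with hg
  have hgu : ∀ z, b z ≠ 0 → g z = u z := fun z hz => by simp only [hg, if_neg hz]
  -- `g` is differentiable at every point of `U`
  have hgd : ∀ z ∈ U, DifferentiableAt ℂ g z := by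
    intro z₀ hz₀
    by_cases hbz : b z₀ = 0
    · -- removable singularity
      have hcb : ∀ᶠ w in 𝓝 z₀, ∀ i : Fin μ, ‖c i w‖ ≤ ‖c i z₀‖ + 1 := by
        rw [Filter.eventually_all]
        intro i
        have hci : ContinuousAt (c i) z₀ := (hc i).continuousAt (hU.mem_nhds hz₀)
        have : Tendsto (fun w => ‖c i w‖) (𝓝 z₀) (𝓝 ‖c i z₀‖) := hci.norm
        exact this.eventually_le_const (lt_add_one _)
      have hne : ∀ᶠ w in 𝓝 z₀, w ≠ z₀ → b w ≠ 0 := by
        have := hbne z₀ hz₀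
        rwa [eventually_nhdsWithin_iff] at this
      have hUn : ∀ᶠ w in 𝓝 z₀, w ∈ U := hU.mem_nhds hz₀
      set s : Set ℂ := {w | w ∈ U ∧ (w ≠ z₀ → b w ≠ 0) ∧ ∀ i : Fin μ, ‖c i w‖ ≤ ‖c i z₀‖ + 1}
        with hs
      have hsn : s ∈ 𝓝 z₀ := by
        filter_upwards [hUn, hne, hcb] with w h1 h2 h3
        exact ⟨h1, h2, h3⟩
      have hud : DifferentiableOn ℂ u (s \ {z₀}) := by
        intro w hw
        have hwU : w ∈ U := hw.1.1
        have hbw : b w ≠ 0 := hw.1.2.1 hw.2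
        exact ((ha.differentiableAt (hU.mem_nhds hwU)).div
          (hb.differentiableAt (hU.mem_nhds hwU)) hbw).differentiableWithinAt
      have hubd : BddAbove (norm ∘ u '' (s \ {z₀})) := by
        refine ⟨max 1 (∑ i : Fin μ, (‖c i z₀‖ + 1)), ?_⟩
        rintro _ ⟨w, hw, rfl⟩
        have hwU : w ∈ U := hw.1.1
        have hbw : b w ≠ 0 := hw.1.2.1 hw.2
        have h1 := norm_le_of_monic_eq (u w) (fun i => c i w) (hmon w hwU hbw)
        refine h1.trans (max_le_max le_rfl ?_)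
        exact Finset.sum_le_sum fun i _ => hw.1.2.2 i
      have hupd := Complex.differentiableOn_update_limUnder_of_bddAbove hsn hud hubd
      have hgs : ∀ w ∈ s, g w = Function.update u z₀ (limUnder (𝓝[≠] z₀) u) w := by
        intro w hw
        by_cases hwz : w = z₀
        · subst hwz
          simp only [hg, if_pos hbz, Function.update_self]
        · rw [Function.update_of_ne hwz]
          exact hgu w (hw.2.1 hwz)
      have hev : g =ᶠ[𝓝 z₀] Function.update u z₀ (limUnder (𝓝[≠] z₀) u) := by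
        filter_upwards [hsn] with w hw using hgs w hw
      exact (hupd.differentiableAt hsn).congr_of_eventuallyEq hev
    · have hcont : ContinuousAt b z₀ := (hb.differentiableAt (hU.mem_nhds hz₀)).continuousAt
      have hev : g =ᶠ[𝓝 z₀] u := by
        filter_upwards [hcont.eventually_ne hbz] with w hw using hgu w hw
      exact (((ha.differentiableAt (hU.mem_nhds hz₀)).div
        (hb.differentiableAt (hU.mem_nhds hz₀)) hbz)).congr_of_eventuallyEq hev
  have hgb : ∀ z ∈ U, g z * b z = a z := by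
    intro z hz
    by_cases hbz : b z = 0
    · have h := heq z hz
      have hsum : ∑ i : Fin μ, c i z * a z ^ (μ - 1 - (i : ℕ)) * b z ^ ((i : ℕ) + 1) = 0 := by
        refine Finset.sum_eq_zero fun i _ => ?_
        rw [hbz, zero_pow (Nat.succ_ne_zero _), mul_zero]
      rw [hsum, add_zero] at h
      rw [hbz, mul_zero, eq_comm]
      exact pow_eq_zero_iff (hμ.ne') |>.mp h
    · rw [hgu z hbz]
      simp only [hu]
      exact div_mul_cancel₀ _ hbz
  refine ⟨g, fun z hz => (hgd z hz).differentiableWithinAt, hgb, ?_⟩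
  intro z₀ hz₀
  by_cases hbz : b z₀ = 0
  · -- by continuity
    set F : ℂ → ℂ := fun z => g z ^ μ + ∑ i : Fin μ, c i z * g z ^ (μ - 1 - (i : ℕ)) with hF
    have hFc : ContinuousAt F z₀ := by
      have hgc : ContinuousAt g z₀ := (hgd z₀ hz₀).continuousAt
      refine (hgc.pow μ).add ?_
      refine tendsto_finsetSum _ fun i _ => ?_
      exact ((hc i).continuousAt (hU.mem_nhds hz₀)).mul (hgc.pow _)
    have hF0 : ∀ᶠ w in 𝓝[≠] z₀, F w = 0 := by
      have hUn : ∀ᶠ w in 𝓝[≠] z₀, w ∈ U := nhdsWithin_le_nhds (hU.mem_nhds hz₀)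
      filter_upwards [hbne z₀ hz₀, hUn] with w hw hwU
      simp only [hF]
      rw [hgu w hw]
      exact hmon w hwU hw
    have h1 : Tendsto F (𝓝[≠] z₀) (𝓝 (F z₀)) := hFc.tendsto.mono_left nhdsWithin_le_nhds
    have h2 : Tendsto F (𝓝[≠] z₀) (𝓝 0) :=
      tendsto_const_nhds.congr' (by filter_upwards [hF0] with w hw using hw.symm)
    exact tendsto_nhds_unique h1 h2
  · rw [hgu z₀ hbz]
    exact hmon z₀ hz₀ hbz


/-! ### Upper half plane version -/

open UpperHalfPlane ModularForm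
open scoped MatrixGroups Manifold

/-- **Holomorphy by integrality**, on the upper half plane. -/
theorem exists_mdifferentiable_mul_eq {μ : ℕ} {a b : ℍ → ℂ}
    (ha : MDifferentiable 𝓘(ℂ) 𝓘(ℂ) a) (hb : MDifferentiable 𝓘(ℂ) 𝓘(ℂ) b)
    (hb0 : ∃ z, b z ≠ 0) {c : Fin μ → ℍ → ℂ} (hc : ∀ i, Continuous (c i))
    (heq : ∀ z : ℍ, a z ^ μ +
      ∑ i : Fin μ, c i z * a z ^ (μ - 1 - (i : ℕ)) * b z ^ ((i : ℕ) + 1) = 0) :
    ∃ g : ℍ → ℂ, MDifferentiable 𝓘(ℂ) 𝓘(ℂ) g ∧ (∀ z, g z * b z = a z) ∧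
      ∀ z, g z ^ μ + ∑ i : Fin μ, c i z * g z ^ (μ - 1 - (i : ℕ)) = 0 := by
  have hU : IsOpen {z : ℂ | 0 < z.im} := isOpen_upperHalfPlaneSet
  have hUc : IsPreconnected {z : ℂ | 0 < z.im} :=
    (convex_halfSpace_im_gt 0).isPreconnected
  have ha' := UpperHalfPlane.mdifferentiable_iff.mp ha
  have hb' := UpperHalfPlane.mdifferentiable_iff.mp hb
  have hc' : ∀ i, ContinuousOn (c i ∘ ofComplex) {z : ℂ | 0 < z.im} := by
    intro i z hz
    have h1 : ContinuousAt (ofComplex : ℂ → ℍ) z :=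
      (mdifferentiableAt_ofComplex hz).continuousAt
    exact ((hc i).continuousAt.comp h1).continuousWithinAt
  obtain ⟨z₁, hz₁⟩ := hb0
  have hb0' : ∃ z ∈ {z : ℂ | 0 < z.im}, (b ∘ ofComplex) z ≠ 0 :=
    ⟨(z₁ : ℂ), z₁.im_pos, by simpa [ofComplex_apply] using hz₁⟩
  have heq' : ∀ z ∈ {z : ℂ | 0 < z.im}, (a ∘ ofComplex) z ^ μ +
      ∑ i : Fin μ, (c i ∘ ofComplex) z * (a ∘ ofComplex) z ^ (μ - 1 - (i : ℕ)) *
        (b ∘ ofComplex) z ^ ((i : ℕ) + 1) = 0 := fun z _ => heq (ofComplex z)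
  obtain ⟨g, hgd, hgb, hgm⟩ := exists_differentiableOn_mul_eq hU hUc ha' hb' hb0' hc' heq'
  refine ⟨fun z => g (z : ℂ), ?_, ?_, ?_⟩
  · rw [UpperHalfPlane.mdifferentiable_iff]
    refine hgd.congr fun z hz => ?_
    simp only [Function.comp_apply]
    rw [ofComplex_apply_of_im_pos hz]
  · intro z
    have := hgb (z : ℂ) z.im_pos
    simpa [ofComplex_apply] using this
  · intro z
    have := hgm (z : ℂ) z.im_pos
    simpa [ofComplex_apply] using this


/-! ### The cusp form -/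

/-- If `h` is a root of the monic polynomial `X ^ μ + ∑ i, c i * X ^ (μ - 1 - i)` pointwise and all
`c i` tend to zero at `i∞`, then so does `h`. -/
theorem isZeroAtImInfty_of_monic_eq {μ : ℕ} {h : ℍ → ℂ} {c : Fin μ → ℍ → ℂ}
    (hc : ∀ i, IsZeroAtImInfty (c i))
    (heq : ∀ z : ℍ, h z ^ μ + ∑ i : Fin μ, c i z * h z ^ (μ - 1 - (i : ℕ)) = 0) :
    IsZeroAtImInfty h := by
  have hμ : 0 < μ := by
    rcases Nat.eq_zero_or_pos μ with h0 | h0
    · subst h0
      have := heq (⟨Complex.I, by simp⟩ : ℍ)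
      simp at this
    · exact h0
  have hS : Tendsto (fun z => ∑ i : Fin μ, ‖c i z‖) atImInfty (𝓝 0) := by
    have := tendsto_finsetSum (Finset.univ : Finset (Fin μ))
      (fun i _ => (tendsto_zero_iff_norm_tendsto_zero.mp (hc i)))
    simpa using this
  rw [IsZeroAtImInfty, ZeroAtFilter, Metric.tendsto_nhds]
  intro ε hε
  have hε' : 0 < min 1 (ε ^ μ) := lt_min zero_lt_one (pow_pos hε μ)
  filter_upwards [hS.eventually_lt_const hε'] with z hz
  rw [dist_zero_right]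
  have h1 : ∑ i : Fin μ, ‖c i z‖ ≤ 1 := (hz.trans_le (min_le_left _ _)).le
  have h2 := norm_pow_le_of_monic_eq (h z) (fun i => c i z) (heq z) h1
  have h3 : ‖h z‖ ^ μ < ε ^ μ := h2.trans_lt (hz.trans_le (min_le_right _ _))
  exact lt_of_pow_lt_pow_left₀ μ hε.le h3

/-- Slashing a root of a monic polynomial with level one coefficients (of the right weights)
gives a root of the same polynomial. -/
theorem monic_eq_slash {μ : ℕ} (w : ℤ) {g : ℍ → ℂ} {c : Fin μ → ℍ → ℂ}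
    (hc_inv : ∀ (i : Fin μ) (γ : SL(2, ℤ)), c i ∣[w * ((i : ℕ) + 1)] γ = c i)
    (heq : ∀ z : ℍ, g z ^ μ + ∑ i : Fin μ, c i z * g z ^ (μ - 1 - (i : ℕ)) = 0)
    (γ : SL(2, ℤ)) (z : ℍ) :
    (g ∣[w] γ) z ^ μ + ∑ i : Fin μ, c i z * (g ∣[w] γ) z ^ (μ - 1 - (i : ℕ)) = 0 := by
  have h := heq (γ • z)
  set D : ℂ := denom γ z ^ (-w) with hD
  have hgs : (g ∣[w] γ) z = g (γ • z) * D := SL_slash_apply g γ z
  have hci : ∀ i : Fin μ, c i z = c i (γ • z) * D ^ ((i : ℕ) + 1) := by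
    intro i
    have := congrFun (hc_inv i γ) z
    rw [SL_slash_apply] at this
    rw [← this, hD, ← zpow_natCast, ← zpow_mul]
    congr 2
    push_cast
    ring
  have key : (g ∣[w] γ) z ^ μ + ∑ i : Fin μ, c i z * (g ∣[w] γ) z ^ (μ - 1 - (i : ℕ)) =
      (g (γ • z) ^ μ + ∑ i : Fin μ, c i (γ • z) * g (γ • z) ^ (μ - 1 - (i : ℕ))) * D ^ μ := by
    rw [add_mul, Finset.sum_mul, hgs, mul_pow]
    congr 1
    refine Finset.sum_congr rfl fun i _ => ?_
    have hi : D ^ μ = D ^ ((i : ℕ) + 1) * D ^ (μ - 1 - (i : ℕ)) := by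
      rw [← pow_add]
      congr 1
      have := i.2
      omega
    rw [hci i, hi, mul_pow]
    ring
  rw [key, h, zero_mul]

/-- **R6, function version.** Let `Γ` be a finite index subgroup of `SL(2, ℤ)`, let `a, b` be
holomorphic functions on `ℍ`, slash invariant under `Γ` of weights `kb + w` and `kb`, with
`b ≠ 0`, and assume that `a / b` satisfies a monic equation (written with denominators cleared)
whose `i`-th coefficient is a continuous function, slash invariant of weight `w * (i + 1)` under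
all of `SL(2, ℤ)` and tending to zero at `i∞`. Then `a / b` is a cusp form of weight `w` on `Γ`. -/
theorem exists_cuspForm_mul_eq_of_fun (Γ : Subgroup SL(2, ℤ)) [Γ.FiniteIndex] (w kb : ℤ) {μ : ℕ}
    {a b : ℍ → ℂ} (ha : MDifferentiable 𝓘(ℂ) 𝓘(ℂ) a) (hb : MDifferentiable 𝓘(ℂ) 𝓘(ℂ) b)
    (hb0 : ∃ z, b z ≠ 0)
    (ha_inv : ∀ γ ∈ Γ, a ∣[kb + w] γ = a) (hb_inv : ∀ γ ∈ Γ, b ∣[kb] γ = b)
    {c : Fin μ → ℍ → ℂ} (hc : ∀ i, Continuous (c i))
    (hc_inv : ∀ (i : Fin μ) (γ : SL(2, ℤ)), c i ∣[w * ((i : ℕ) + 1)] γ = c i)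
    (hc_zero : ∀ i, IsZeroAtImInfty (c i))
    (heq : ∀ z : ℍ, a z ^ μ +
      ∑ i : Fin μ, c i z * a z ^ (μ - 1 - (i : ℕ)) * b z ^ ((i : ℕ) + 1) = 0) :
    ∃ g : CuspForm Γ w, (∀ z : ℍ, g z * b z = a z) ∧
      ∀ z : ℍ, g z ^ μ + ∑ i : Fin μ, c i z * g z ^ (μ - 1 - (i : ℕ)) = 0 := by
  obtain ⟨g, hgd, hgb, hgm⟩ := exists_mdifferentiable_mul_eq ha hb hb0 hc heq
  have hgb' : g * b = a := funext hgb
  have hbne : b ≠ 0 := by
    rintro rfl
    obtain ⟨z, hz⟩ := hb0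
    exact hz rfl
  have hinv : ∀ γ ∈ Γ, g ∣[w] γ = g := by
    intro γ hγ
    have h1 : (g * b) ∣[w + kb] γ = g ∣[w] γ * b ∣[kb] γ := mul_slash_SL2 w kb γ g b
    rw [hgb', hb_inv γ hγ, add_comm w kb, ha_inv γ hγ, ← hgb'] at h1
    have h2 : (g ∣[w] γ - g) * b = 0 := by rw [sub_mul, ← h1, sub_self]
    have hgs : MDifferentiable 𝓘(ℂ) 𝓘(ℂ) (g ∣[w] γ) := by
      rw [SL_slash]
      exact hgd.slash w _
    rcases (UpperHalfPlane.mul_eq_zero_iff (hgs.sub hgd) hb).mp h2 with h | h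
    · exact sub_eq_zero.mp h
    · exact absurd h hbne
  refine ⟨{ toFun := g
            slash_action_eq' := ?_
            holo' := hgd
            zero_at_cusps' := ?_ }, hgb, hgm⟩
  · intro γ hγ
    obtain ⟨γ', hγ', rfl⟩ := Subgroup.mem_map.mp hγ
    exact hinv γ' hγ'
  · intro c' hc'
    rw [Subgroup.IsArithmetic.isCusp_iff_isCusp_SL2Z] at hc'
    rw [OnePoint.isZeroAt_iff_forall_SL2Z hc']
    intro γ _
    exact isZeroAtImInfty_of_monic_eq hc_zero (monic_eq_slash w hc_inv hgm γ)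


/-- **R6.** Let `Γ` be a finite index subgroup of `SL(2, ℤ)`, `a`, `b` modular forms on `Γ` of
weights `ka = kb + w` and `kb`, `b ≠ 0`, and assume that `a / b` satisfies a monic equation
(written with denominators cleared) whose `i`-th coefficient is a level one cusp form of weight
`w * (i + 1)`. Then `a / b` is a cusp form of weight `w` on `Γ`. -/
theorem exists_cuspForm_mul_eq (Γ : Subgroup SL(2, ℤ)) [Γ.FiniteIndex] {w ka kb : ℤ}
    (hk : ka = kb + w) {μ : ℕ} (a : ModularForm Γ ka) (b : ModularForm Γ kb) (hb : b ≠ 0)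
    (c : Fin μ → ℍ → ℂ)
    (hc : ∀ i : Fin μ, ∃ (wi : ℤ) (F : CuspForm 𝒮ℒ wi), wi = w * ((i : ℕ) + 1) ∧ ⇑F = c i)
    (heq : ∀ z : ℍ, a z ^ μ +
      ∑ i : Fin μ, c i z * a z ^ (μ - 1 - (i : ℕ)) * b z ^ ((i : ℕ) + 1) = 0) :
    ∃ g : CuspForm Γ w, (∀ z : ℍ, g z * b z = a z) ∧
      ∀ z : ℍ, g z ^ μ + ∑ i : Fin μ, c i z * g z ^ (μ - 1 - (i : ℕ)) = 0 := by
  subst hk
  have hb0 : ∃ z, b z ≠ 0 := by
    by_contra hcon
    simp only [not_exists, not_not] at hcon
    exact hb (ModularForm.ext hcon)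
  refine exists_cuspForm_mul_eq_of_fun Γ w kb (ModularFormClass.holo a) (ModularFormClass.holo b)
    hb0 ?_ ?_ ?_ ?_ ?_ heq
  · intro γ hγ
    rw [SL_slash]
    exact SlashInvariantFormClass.slash_action_eq a _ (Subgroup.mem_map_of_mem _ hγ)
  · intro γ hγ
    rw [SL_slash]
    exact SlashInvariantFormClass.slash_action_eq b _ (Subgroup.mem_map_of_mem _ hγ)
  · intro i
    obtain ⟨wi, F, -, hF⟩ := hc i
    rw [← hF]
    exact (ModularFormClass.holo F).continuous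
  · intro i γ
    obtain ⟨wi, F, rfl, hF⟩ := hc i
    rw [← hF, SL_slash]
    exact SlashInvariantFormClass.slash_action_eq F _ ⟨γ, rfl⟩
  · intro i
    obtain ⟨wi, F, -, hF⟩ := hc i
    rw [← hF]
    exact CuspFormClass.zero_at_infty F

/-- **R6 for `Γ₀(N)`**, with the `q`-expansion identity. -/
theorem exists_cuspForm_gamma0_mul_eq (N : ℕ) [NeZero N] {w ka kb : ℤ}
    (hk : ka = kb + w) {μ : ℕ} (a : ModularForm (CongruenceSubgroup.Gamma0 N) ka)
    (b : ModularForm (CongruenceSubgroup.Gamma0 N) kb) (hb : b ≠ 0)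
    (c : Fin μ → ℍ → ℂ)
    (hc : ∀ i : Fin μ, ∃ (wi : ℤ) (F : CuspForm 𝒮ℒ wi), wi = w * ((i : ℕ) + 1) ∧ ⇑F = c i)
    (heq : ∀ z : ℍ, a z ^ μ +
      ∑ i : Fin μ, c i z * a z ^ (μ - 1 - (i : ℕ)) * b z ^ ((i : ℕ) + 1) = 0) :
    ∃ g : CuspForm (CongruenceSubgroup.Gamma0 N) w, (∀ z : ℍ, g z * b z = a z) ∧
      (∀ z : ℍ, g z ^ μ + ∑ i : Fin μ, c i z * g z ^ (μ - 1 - (i : ℕ)) = 0) ∧
      qExpansion 1 g * qExpansion 1 b =
        qExpansion 1 a := by
  obtain ⟨g, hgb, hgm⟩ := exists_cuspForm_mul_eq (CongruenceSubgroup.Gamma0 N) hk a b hb c hc heq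
  refine ⟨g, hgb, hgm, ?_⟩
  have h1 : (1 : ℝ) ∈ ((CongruenceSubgroup.Gamma0 N : Subgroup SL(2, ℤ)) :
      Subgroup (GL (Fin 2) ℝ)).strictPeriods := by simp
  rw [← ModularForm.qExpansion_mul_coe one_pos h1 g b]
  congr 1
  exact funext hgb

end Fermat.Agent.S23.R6
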