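import Fermat.Agent.S23.H1_Conj
import Fermat.Agent.S23.R2_Esymm
import Fermat.Agent.S23.H14_LevelOne
import Fermat.Agent.S23.H17_Integral

/-!
# S23, step R5 (part 2): assembly of STEP R (owner: helper1)

From a representation `f * F = G` of a weight-2 cusp form `f` on `Γ₀(N)` as a quotient of two
modular forms `F ≠ 0`, `G` on `Γ₀(N)` which have all their `Aut(ℂ)`-conjugates, we construct
the conjugates of `f`.  Inputs: R1 (conjugation at level one, helper14), R2 (integrality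
equation, helper4), R6 (holomorphy and cuspidality by integrality, helper17).
-/

set_option autoImplicit false

namespace Fermat.Agent.S23.R5

open UpperHalfPlane ModularFormClass CongruenceSubgroup
open scoped MatrixGroups ModularForm Manifold

variable {N : ℕ} [NeZero N]

/-- The number of cosets of `Γ₀(N)` in `SL(2, ℤ)` (as in Mathlib's `NormTrace`). -/
noncomputable abbrev cosetCard (N : ℕ) : ℕ :=
  Nat.card (𝒮ℒ ⧸ (Subgroup.map (Matrix.SpecialLinearGroup.mapGL ℝ) (Gamma0 N)).subgroupOf 𝒮ℒ)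

/-- The coefficients of the monic equation of `f`, as level-one cusp forms. -/
noncomputable def monicCoeff (f : CuspForm (Gamma0 N) 2) (i : ℕ) :
    CuspForm 𝒮ℒ (2 * ((i + 1 : ℕ) : ℤ)) :=
  ((-1 : ℂ) ^ (i + 1)) • esymmCF f (Nat.succ_pos i)

theorem monicCoeff_apply (f : CuspForm (Gamma0 N) 2) (i : ℕ) (z : ℍ) :
    monicCoeff f i z = (-1 : ℂ) ^ (i + 1) * esymmFun f (i + 1) z := by
  show (-1 : ℂ) ^ (i + 1) • (esymmCF f (Nat.succ_pos i)) z = _
  rw [smul_eq_mul]
  rfl

/-- R2 in the shape needed here. -/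
theorem monic_equation (f : CuspForm (Gamma0 N) 2) (z : ℍ) :
    f z ^ cosetCard N
      + ∑ i : Fin (cosetCard N), monicCoeff f i z * f z ^ (cosetCard N - 1 - (i : ℕ)) = 0 := by
  have h := esymm_integrality f z
  rw [Finset.sum_range_succ'] at h
  simp only [pow_zero, one_mul, esymmFun_zero, Pi.one_apply, Nat.sub_zero] at h
  rw [add_comm] at h
  rw [← h]
  congr 1
  rw [Finset.sum_range]
  refine Finset.sum_congr rfl fun i _ => ?_
  rw [monicCoeff_apply]
  congr 2
  change cosetCard N - 1 - (i : ℕ) = cosetCard N - ((i : ℕ) + 1)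
  omega

/-- **STEP R from a fraction representation.** If `f * F = G` with `F ≠ 0` and `F`, `G`
modular forms on `Γ₀(N)` of weights `k`, `k + 2` having all their conjugates, then `f` has all
its conjugates (as cusp forms of weight 2 on `Γ₀(N)`). -/
theorem exists_conj_of_fraction (f : CuspForm (Gamma0 N) 2) {k : ℤ} {F G : ℍ → ℂ}
    (hF : HasConj N k F) (hG : HasConj N (k + 2) G) (hF0 : F ≠ 0)
    (hfFG : ∀ z, f z * F z = G z) (σ : ℂ ≃+* ℂ) :
    ∃ g : CuspForm (Gamma0 N) 2, ∀ n : ℕ, qCoeff g n = σ (qCoeff f n) := by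
  set μ := cosetCard N with hμ
  obtain ⟨F', hF'⟩ := hF σ
  obtain ⟨G', hG'⟩ := hG σ
  -- conjugates of the coefficients of the monic equation
  have hc : ∀ i : ℕ, ∃ c' : CuspForm 𝒮ℒ (2 * ((i + 1 : ℕ) : ℤ)),
      qExpansion 1 c' = (qExpansion 1 (monicCoeff f i)).map (σ : ℂ →+* ℂ) :=
    fun i => R1.exists_conj_cuspForm (σ : ℂ →+* ℂ) _ (monicCoeff f i)
  choose c' hc' using hc
  have hpair : ∀ i, ConjPair N σ (2 * ((i + 1 : ℕ) : ℤ)) (monicCoeff f i) (c' i) :=
    fun i => ConjPair.mk' (isMF_levelOne_cusp N _) (isMF_levelOne_cusp N _) (hc' i)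
  -- the cleared relation for `G`, `F`
  have hR0 : G ^ μ + ∑ i : Fin μ,
      (⇑(monicCoeff f i) : ℍ → ℂ) * G ^ (μ - 1 - (i : ℕ)) * F ^ ((i : ℕ) + 1) = 0 := by
    funext z
    simp only [Pi.add_apply, Pi.pow_apply, Finset.sum_apply, Pi.mul_apply, Pi.zero_apply]
    have hm := monic_equation f z
    have key : G z ^ μ + ∑ i : Fin μ,
        monicCoeff f i z * G z ^ (μ - 1 - (i : ℕ)) * F z ^ ((i : ℕ) + 1)
        = F z ^ μ * (f z ^ μ + ∑ i : Fin μ, monicCoeff f i z * f z ^ (μ - 1 - (i : ℕ))) := by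
      rw [mul_add, Finset.mul_sum, ← hfFG z, mul_pow]
      congr 1
      · ring
      · refine Finset.sum_congr rfl fun i _ => ?_
        have hi : F z ^ μ = F z ^ (μ - 1 - (i : ℕ)) * F z ^ ((i : ℕ) + 1) := by
          rw [← pow_add]
          congr 1
          have := i.2
          omega
        rw [hi, mul_pow]
        ring
    rw [key, hm, mul_zero]
  -- the same relation for the conjugates
  have hRpair : ConjPair N σ (μ * (k + 2))
      (G ^ μ + ∑ i : Fin μ,
        (⇑(monicCoeff f i) : ℍ → ℂ) * G ^ (μ - 1 - (i : ℕ)) * F ^ ((i : ℕ) + 1))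
      (G' ^ μ + ∑ i : Fin μ,
        (⇑(c' i) : ℍ → ℂ) * G' ^ (μ - 1 - (i : ℕ)) * F' ^ ((i : ℕ) + 1)) := by
    refine (hG'.pow μ _ rfl).add (ConjPair.sum _ fun i _ => ?_)
    refine ((hpair i).mul (hG'.pow (μ - 1 - (i : ℕ)) _ rfl) rfl).mul
      (hF'.pow ((i : ℕ) + 1) _ rfl) ?_
    have hi : (((μ - 1 - (i : ℕ) : ℕ)) : ℤ) = (μ : ℤ) - 1 - (i : ℕ) := by
      have := i.2
      omega
    rw [hi]
    push_cast
    ring
  have hR := hRpair.eq_zero hR0
  obtain ⟨A, hA⟩ := hG'.right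
  obtain ⟨B, hB⟩ := hF'.right
  have hB0 : B ≠ 0 := by
    intro h
    apply hF'.ne_zero hF0
    rw [← hB, h]
    rfl
  obtain ⟨g, -, -, hg⟩ := R6.exists_cuspForm_gamma0_mul_eq N (w := 2) (ka := k + 2) (kb := k)
    rfl A B hB0 (fun i => ⇑(c' i))
    (fun i => ⟨_, c' i, by push_cast; ring, rfl⟩)
    (by
      intro z
      have := congrFun hR z
      simp only [Pi.add_apply, Pi.pow_apply, Finset.sum_apply, Pi.mul_apply,
        Pi.zero_apply] at this
      rw [hA, hB]
      exact this)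
  refine ⟨g, ?_⟩
  -- compare q-expansions
  have hfmf : IsMF N 2 f := isMF_coe_cusp f
  have hG_eq : G = ⇑f * F := funext fun z => (hfFG z).symm
  have h1 : qExpansion 1 (⇑A) = (qExpansion 1 ⇑f).map (σ : ℂ →+* ℂ) * qExpansion 1 ⇑B := by
    rw [hA, hB, hG'.qExpansion_eq, hF'.qExpansion_eq, hG_eq,
      qExpansion_mul hfmf.analyticAt hF'.left.analyticAt, map_mul]
  have h2 : (qExpansion 1 ⇑g - (qExpansion 1 ⇑f).map (σ : ℂ →+* ℂ)) * qExpansion 1 ⇑B = 0 := by
    rw [sub_mul, hg, h1, sub_self]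
  have hB1 : qExpansion 1 ⇑B ≠ 0 := fun h => hB0 (qExpansion_eq_zero h)
  have h3 := (mul_eq_zero.mp h2).resolve_right hB1
  exact (qConj_iff σ f g).mpr (sub_eq_zero.mp h3)

/-- The shape of the input `R3`: every weight-2 cusp form on `Γ₀(N)` is a quotient `G / F` of
two modular forms on `Γ₀(N)` which have all their conjugates. -/
def FractionRep (N : ℕ) : Prop :=
  ∀ f : CuspForm (Gamma0 N) 2, ∃ (k : ℤ) (F G : ℍ → ℂ),
    HasConj N k F ∧ HasConj N (k + 2) G ∧ F ≠ 0 ∧ ∀ z, f z * F z = G z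

/-- **STEP R**: `Aut(ℂ)` acts on `S₂(Γ₀(N))` through the q-coefficients, given `R3`. -/
theorem exists_conj (h3 : FractionRep N) (f : CuspForm (Gamma0 N) 2) (σ : ℂ ≃+* ℂ) :
    ∃ g : CuspForm (Gamma0 N) 2, ∀ n : ℕ, qCoeff g n = σ (qCoeff f n) := by
  obtain ⟨k, F, G, hF, hG, hF0, hfFG⟩ := h3 f
  exact exists_conj_of_fraction f hF hG hF0 hfFG σ

end Fermat.Agent.S23.R5
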