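import Fermat.Agent.S23.Defs
import Fermat.Agent.S23.H1_Assembly

/-!
# S23, step R5: STEP R from a rational quotient representation (owner: helper22)

Input `A3` (shape fixed by the S23 coordinator): every weight-2 cusp form `f` on `Γ₀(N)`
satisfies `f * b = a` with `b ≠ 0` and `a`, `b` modular forms on `Γ₀(N)` lying in the
`ℂ`-span of the forms with rational `q`-expansion.  Output: `Aut(ℂ)` acts on `S₂(Γ₀(N))`
through the `q`-coefficients (the hypothesis `hR` of STEP D).

The transport of the monic relation is `R5.exists_conj_of_fraction` (helper1); this file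
only converts span membership into `HasConj`.
-/

set_option autoImplicit false

namespace Fermat.Agent.S23.R5

open UpperHalfPlane ModularFormClass CongruenceSubgroup
open scoped MatrixGroups ModularForm Manifold

variable {N : ℕ} [NeZero N]

/-- A form in the `ℂ`-span of the forms with rational `q`-expansion has all its conjugates. -/
theorem hasConj_of_mem_span_ratForms {k : ℤ} {a : ModularForm (Gamma0 N) k}
    (ha : a ∈ Submodule.span ℂ (ratForms N k)) : HasConj N k (⇑a) := by
  induction ha using Submodule.span_induction with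
  | mem x hx => exact hasConj_of_rat x hx
  | zero => exact hasConj_zero k
  | add x y _ _ hx hy => exact hx.add hy
  | smul c x _ hx => exact hx.smul c

/-- The shape of the input `A3`. -/
def RationalQuotient (N : ℕ) : Prop :=
  ∀ f : CuspForm (Gamma0 N) 2, ∃ (k : ℤ) (a : ModularForm (Gamma0 N) (k + 2))
    (b : ModularForm (Gamma0 N) k), b ≠ 0 ∧ (∀ z : ℍ, f z * b z = a z) ∧
      a ∈ Submodule.span ℂ (ratForms N (k + 2)) ∧ b ∈ Submodule.span ℂ (ratForms N k)

theorem fractionRep_of_rationalQuotient (h : RationalQuotient N) : FractionRep N := by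
  intro f
  obtain ⟨k, a, b, hb0, hfab, ha, hb⟩ := h f
  refine ⟨k, ⇑b, ⇑a, hasConj_of_mem_span_ratForms hb, hasConj_of_mem_span_ratForms ha, ?_, hfab⟩
  intro h0
  exact hb0 (DFunLike.coe_injective (by rw [h0]; rfl))

/-- **STEP R** from `A3`: for every `σ ∈ Aut(ℂ)` and every weight-2 cusp form `f` on `Γ₀(N)`
there is a cusp form with the `σ`-conjugate `q`-expansion. -/
theorem stepR_of_rationalQuotient (h : RationalQuotient N) (f : CuspForm (Gamma0 N) 2)
    (σ : ℂ ≃+* ℂ) : ∃ g : CuspForm (Gamma0 N) 2, ∀ n : ℕ, qCoeff g n = σ (qCoeff f n) :=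
  exists_conj (fractionRep_of_rationalQuotient h) f σ

end Fermat.Agent.S23.R5
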