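import Fermat.Agent.S23.Defs
import Fermat.Agent.S23.H23_JFun

/-!
# S23, package A2: the slash translates of `Δ(N z)` are distinct

For `γ ∈ SL(2, ℤ)`, `γ ∉ Γ₀(N)`, the weight `12` translate of `Δ_N : z ↦ Δ(N z)` by `γ` is
different from `Δ_N`: by the Hermite normal form `N (γ z) = δ ((A z + B) / D)` one has
`(Δ_N ∣[12] γ) z = D⁻¹² Δ((A z + B) / D)` which decays like `exp (-2 π (A / D) y)`, while
`Δ_N` decays like `exp (-2 π N y)`, and `A / D < N`.
-/

set_option autoImplicit false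

open UpperHalfPlane Complex ModularForm EisensteinSeries CongruenceSubgroup Filter Topology

open scoped MatrixGroups ModularForm Real Manifold

namespace Fermat.Agent.S23

namespace R4

/-- The two models of the point `N z` agree. -/
lemma scaleN_eq_scaleH (N : ℕ) [NeZero N] (z : ℍ) : scaleN N z = scaleH N z := by
  apply UpperHalfPlane.ext
  rw [coe_scaleN, coe_scaleH]

/-- Hermite normal form on the upper half plane, together with the relation between the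
automorphy factors. -/
theorem exists_scaleH_smul_eq_denom (N : ℕ) [NeZero N] (γ : SL(2, ℤ)) :
    ∃ (δ : SL(2, ℤ)) (A D : ℕ) (hA : 0 < A) (hD : 0 < D) (B : ℤ), A * D = N ∧
      (A = N → (N : ℤ) ∣ γ 1 0) ∧
      ∀ z : ℍ, scaleH N (γ • z) = δ • affH A D hA hD B z ∧
        (((δ 1 0 : ℤ) : ℂ) * (affH A D hA hD B z : ℂ) + ((δ 1 1 : ℤ) : ℂ)) * (D : ℂ) =
          ((γ 1 0 : ℤ) : ℂ) * z + ((γ 1 1 : ℤ) : ℂ) := by
  have hdet : γ 0 0 * γ 1 1 - γ 0 1 * γ 1 0 = 1 := by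
    have := γ.det_coe
    rw [Matrix.det_fin_two] at this
    exact this
  obtain ⟨u, v, x, y, B, A, D, hA, hD, hAD, hone, h1, h2, h3, h4⟩ :=
    exists_hermite N (γ 0 0) (γ 0 1) (γ 1 0) (γ 1 1) hdet
  let δ : SL(2, ℤ) := ⟨!![u, -y; v, x], by rw [Matrix.det_fin_two_of]; linarith⟩
  have hδ00 : δ 0 0 = u := rfl
  have hδ01 : δ 0 1 = -y := rfl
  have hδ10 : δ 1 0 = v := rfl
  have hδ11 : δ 1 1 = x := rfl
  have hD0 : (D : ℂ) ≠ 0 := by exact_mod_cast hD.ne'
  have e1 : (u : ℂ) * A = N * (γ 0 0 : ℤ) := by exact_mod_cast h1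
  have e2 : (v : ℂ) * A = (γ 1 0 : ℤ) := by exact_mod_cast h2
  have e3 : (u : ℂ) * B - y * D = N * (γ 0 1 : ℤ) := by exact_mod_cast h3
  have e4 : (v : ℂ) * B + x * D = (γ 1 1 : ℤ) := by exact_mod_cast h4
  refine ⟨δ, A, D, hA, hD, B, hAD, ?_, fun z => ⟨?_, ?_⟩⟩
  · intro hAN
    refine ⟨v, ?_⟩
    rw [← h2, hAN]; ring
  · apply UpperHalfPlane.ext
    rw [coe_scaleH, coe_smul_SL, coe_smul_SL, coe_affH]
    rw [hδ00, hδ01, hδ10, hδ11]
    have hden : ((γ 1 0 : ℤ) : ℂ) * z + ((γ 1 1 : ℤ) : ℂ) ≠ 0 := cz_add_d_ne_zero γ z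
    have hnum : (u : ℂ) * (((A : ℂ) * z + B) / D) + ((-y : ℤ) : ℂ) =
        ((N : ℂ) * (((γ 0 0 : ℤ) : ℂ) * z + ((γ 0 1 : ℤ) : ℂ))) / D := by
      field_simp
      push_cast
      linear_combination (z : ℂ) * e1 + e3
    have hden' : (v : ℂ) * (((A : ℂ) * z + B) / D) + (x : ℂ) =
        (((γ 1 0 : ℤ) : ℂ) * z + ((γ 1 1 : ℤ) : ℂ)) / D := by
      field_simp
      linear_combination (z : ℂ) * e2 + e4
    rw [hnum, hden']
    field_simp
  · rw [coe_affH, hδ10, hδ11]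
    field_simp
    linear_combination (z : ℂ) * e2 + e4

/-- The function `Δ_N : z ↦ Δ(N z)`. -/
noncomputable def discN (N : ℕ) (z : ℍ) : ℂ := ModularForm.discriminant (scaleN N z)

lemma discN_def (N : ℕ) : discN N = fun w : ℍ => ModularForm.discriminant (scaleN N w) := rfl

/-- Explicit form of the weight `12` translates of `Δ_N`. -/
theorem exists_discN_slash_eq (N : ℕ) [NeZero N] (γ : SL(2, ℤ)) :
    ∃ (A D : ℕ) (hA : 0 < A) (hD : 0 < D) (B : ℤ), A * D = N ∧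
      (A = N → (N : ℤ) ∣ γ 1 0) ∧
      ∀ z : ℍ, ((fun w : ℍ => ModularForm.discriminant (scaleN N w)) ∣[(12 : ℤ)] γ) z =
        ((D : ℂ) ^ 12)⁻¹ * ModularForm.discriminant (affH A D hA hD B z) := by
  obtain ⟨δ, A, D, hA, hD, B, hAD, hAN, hz⟩ := exists_scaleH_smul_eq_denom N γ
  refine ⟨A, D, hA, hD, B, hAD, hAN, fun z => ?_⟩
  obtain ⟨hsm, hden⟩ := hz z
  have hD0 : (D : ℂ) ≠ 0 := by exact_mod_cast hD.ne'
  have hcz : ((γ 1 0 : ℤ) : ℂ) * z + ((γ 1 1 : ℤ) : ℂ) ≠ 0 := cz_add_d_ne_zero γ z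
  rw [ModularForm.SL_slash_apply]
  have hdenom : denom (γ : GL (Fin 2) ℝ) z = ((γ 1 0 : ℤ) : ℂ) * z + ((γ 1 1 : ℤ) : ℂ) := by
    simp [denom]
  rw [hdenom]
  show ModularForm.discriminant (scaleN N (γ • z)) * _ = _
  rw [scaleN_eq_scaleH, hsm, discriminant_smul δ]
  set w : ℂ := (affH A D hA hD B z : ℂ) with hw
  set c : ℂ := ((γ 1 0 : ℤ) : ℂ) * z + ((γ 1 1 : ℤ) : ℂ) with hc
  have e : ((δ 1 0 : ℤ) : ℂ) * w + ((δ 1 1 : ℤ) : ℂ) = c / D := by
    rw [eq_div_iff hD0]; exact hden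
  rw [e]
  have e12 : (c / (D : ℂ)) ^ (12 : ℤ) = (c / D) ^ 12 := by norm_cast
  have en12 : c ^ (-(12 : ℤ)) = (c ^ 12)⁻¹ := by
    rw [zpow_neg]; norm_cast
  rw [e12, en12]
  field_simp

end R4

open R4

/-- **Distinctness for `Δ_N`.** If `γ ∉ Γ₀(N)` then the weight `12` translate of
`z ↦ Δ(N z)` by `γ` is different from `z ↦ Δ(N z)`. -/
theorem discN_slash_ne (N : ℕ) [NeZero N] (gam : SL(2, ℤ)) (h : gam ∉ Gamma0 N) :
    ∃ z : ℍ, ((fun w : ℍ => ModularForm.discriminant (scaleN N w)) ∣[(12 : ℤ)] gam) z ≠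
      ModularForm.discriminant (scaleN N z) := by
  have hN : 0 < N := Nat.pos_of_ne_zero (NeZero.ne N)
  obtain ⟨A, D, hA, hD, B, hAD, hAN, hz⟩ := exists_discN_slash_eq N gam
  obtain ⟨A₀, hA₀, hbd⟩ := norm_discriminant_bounds
  have hne : A ≠ N := by
    intro h'
    apply h
    rw [Gamma0_mem]
    exact (ZMod.intCast_zmod_eq_zero_iff_dvd _ N).mpr (hAN h')
  have hAle : A ≤ N := by
    rw [← hAD]
    exact Nat.le_mul_of_pos_right A hD
  have hAlt : A + 1 ≤ N := Nat.succ_le_of_lt (lt_of_le_of_ne hAle hne)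
  have hD' : (1 : ℝ) ≤ D := by exact_mod_cast hD
  have hA' : (1 : ℝ) ≤ A := by exact_mod_cast hA
  have hN' : (A : ℝ) + 1 ≤ N := by exact_mod_cast hAlt
  have hDpos : (0 : ℝ) < D := by linarith
  -- the test point
  set y : ℝ := max (max 1 (A₀ * D)) (4 * (D : ℝ) ^ 12) with hy
  have hy1 : 1 ≤ y := (le_max_left _ _).trans (le_max_left _ _)
  have hy2 : A₀ * D ≤ y := (le_max_right _ _).trans (le_max_left _ _)
  have hy3 : 4 * (D : ℝ) ^ 12 ≤ y := le_max_right _ _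
  have hypos : 0 < y := lt_of_lt_of_le one_pos hy1
  let z : ℍ := ⟨y * Complex.I, by simpa using hypos⟩
  have hzim : z.im = y := by
    show (y * Complex.I).im = y
    simp
  refine ⟨z, fun hcon => ?_⟩
  rw [hz z] at hcon
  -- lower bound for the left-hand side
  have him : (affH A D hA hD B z).im = A * y / D := by rw [im_affH, hzim]
  have hge : A₀ ≤ (affH A D hA hD B z).im := by
    rw [him, le_div_iff₀ hDpos]
    calc A₀ * D ≤ y := hy2
      _ ≤ A * y := by nlinarith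
  have h1 := (hbd _ hge).1
  rw [him] at h1
  -- upper bound for the right-hand side
  have him2 : (scaleN N z).im = N * y := by rw [im_scaleN, hzim]
  have hge2 : A₀ ≤ (scaleN N z).im := by
    rw [him2]
    calc A₀ ≤ A₀ * D := by nlinarith
      _ ≤ y := hy2
      _ ≤ N * y := by nlinarith
  have h2 := (hbd _ hge2).2
  rw [him2] at h2
  -- combine
  have hnorm : ‖((D : ℂ) ^ 12)⁻¹ * ModularForm.discriminant (affH A D hA hD B z)‖ =
      ((D : ℝ) ^ 12)⁻¹ * ‖ModularForm.discriminant (affH A D hA hD B z)‖ := by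
    rw [norm_mul, norm_inv, norm_pow]
    simp
  have h3 : ((D : ℝ) ^ 12)⁻¹ * (Real.exp (-(2 * π * (A * y / D))) / 2) ≤
      2 * Real.exp (-(2 * π * (N * y))) := by
    calc ((D : ℝ) ^ 12)⁻¹ * (Real.exp (-(2 * π * (A * y / D))) / 2)
        ≤ ((D : ℝ) ^ 12)⁻¹ * ‖ModularForm.discriminant (affH A D hA hD B z)‖ :=
          mul_le_mul_of_nonneg_left h1 (by positivity)
      _ = ‖ModularForm.discriminant (scaleN N z)‖ := by rw [← hnorm, hcon]
      _ ≤ 2 * Real.exp (-(2 * π * (N * y))) := h2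
  -- exponent comparison
  have h4 : A * y / D ≤ A * y := by
    rw [div_le_iff₀ hDpos]
    nlinarith [mul_nonneg (by linarith : (0:ℝ) ≤ A) hypos.le]
  have hpi : 3 < π := Real.pi_gt_three
  have h5 : -(2 * π * (N * y)) + y ≤ -(2 * π * (A * y / D)) := by
    have : A * y / D + y ≤ N * y := by nlinarith
    nlinarith
  have h6 : Real.exp (-(2 * π * (N * y))) * Real.exp y ≤ Real.exp (-(2 * π * (A * y / D))) := by
    rw [← Real.exp_add]
    exact Real.exp_le_exp.mpr h5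
  have h7 : y < Real.exp y := by
    have := Real.add_one_le_exp y
    linarith
  have hE : 0 < Real.exp (-(2 * π * (N * y))) := Real.exp_pos _
  have hD12 : (0 : ℝ) < (D : ℝ) ^ 12 := by positivity
  -- from h3: exp(-(A/D)) ≤ 4 D^12 exp(-N)
  have h8 : Real.exp (-(2 * π * (A * y / D))) ≤
      4 * (D : ℝ) ^ 12 * Real.exp (-(2 * π * (N * y))) := by
    have := mul_le_mul_of_nonneg_left h3 hD12.le
    rw [← mul_assoc, mul_inv_cancel₀ hD12.ne', one_mul] at this
    linarith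
  have h9 : Real.exp (-(2 * π * (N * y))) * Real.exp y ≤
      4 * (D : ℝ) ^ 12 * Real.exp (-(2 * π * (N * y))) := h6.trans h8
  have h10 : Real.exp y ≤ 4 * (D : ℝ) ^ 12 := by
    have := le_of_mul_le_mul_left (by linarith : Real.exp (-(2 * π * (N * y))) * Real.exp y ≤
      Real.exp (-(2 * π * (N * y))) * (4 * (D : ℝ) ^ 12)) hE
    exact this
  linarith

/-- Function-level version: the translate is not the same function. -/
theorem discN_slash_ne' (N : ℕ) [NeZero N] (gam : SL(2, ℤ)) (h : gam ∉ Gamma0 N) :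
    ((fun w : ℍ => ModularForm.discriminant (scaleN N w)) ∣[(12 : ℤ)] gam) ≠
      fun w : ℍ => ModularForm.discriminant (scaleN N w) := by
  obtain ⟨z, hz⟩ := discN_slash_ne N gam h
  intro hcon
  exact hz (congrFun hcon z)

end Fermat.Agent.S23
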