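import Fermat.Agent.S23.H1_Quotient
import Fermat.Agent.S23.H14_SpanRat
import Fermat.Agent.S23.H22_StepR
import Fermat.Agent.S23.H23_DistinctDelta
import Fermat.Agent.S23.R5_Scale

/-!
# S23, package A3 (final): every weight-2 cusp form on `Γ₀(N)` is a quotient of rational forms

We instantiate the generic Lagrange argument (`A3.exists_rational_quotient_of`) with
`D = Δ(N z)`, a modular form of weight `12` on `Γ₀(N)` with rational `q`-expansion whose
translates by the nontrivial cosets of `Γ₀(N)` in `SL(2, ℤ)` are all different from `D`.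
-/

set_option autoImplicit false

namespace Fermat.Agent.S23

open UpperHalfPlane CongruenceSubgroup ModularFormClass SlashInvariantForm

open scoped MatrixGroups ModularForm Manifold

/-- The discriminant as a level one modular form. -/
noncomputable def discMF : ModularForm 𝒮ℒ 12 := CuspForm.toModularFormₗ CuspForm.discriminant

lemma discMF_apply (z : ℍ) : discMF z = ModularForm.discriminant z := rfl

lemma coe_discMF : (⇑discMF : ℍ → ℂ) = ModularForm.discriminant := rfl

lemma isRat_discMF : IsRat (⇑discMF) := by
  intro n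
  rw [coe_discMF]
  exact R1.discriminant_qExpansion_coeff_rat n

/-- The modular form `Δ(N z)` of weight `12` on `Γ₀(N)`. -/
noncomputable def discNMF (N : ℕ) [NeZero N] : ModularForm (Gamma0 N) 12 := scaleMF N discMF

lemma discNMF_apply (N : ℕ) [NeZero N] (z : ℍ) :
    discNMF N z = ModularForm.discriminant (scaleN N z) := by
  rw [discNMF, scaleMF_apply, discMF_apply]

lemma coe_discNMF (N : ℕ) [NeZero N] :
    (⇑(discNMF N) : ℍ → ℂ) = fun w : ℍ => ModularForm.discriminant (scaleN N w) :=
  funext (discNMF_apply N)

lemma discNMF_mem_span (N : ℕ) [NeZero N] :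
    discNMF N ∈ Submodule.span ℂ (ratForms N 12) :=
  Submodule.subset_span (isRat_scaleMF N isRat_discMF)

/-- A translate of `Δ(N z)` by a nontrivial coset is different from `Δ(N z)`. -/
theorem quotientFunc_discNMF_ne (N : ℕ) [NeZero N]
    (q : 𝒮ℒ ⧸ (Subgroup.map (Matrix.SpecialLinearGroup.mapGL ℝ) (Gamma0 N)).subgroupOf 𝒮ℒ)
    (hq : q ≠ ⟦1⟧) : quotientFunc (discNMF N) q ≠ ⇑(discNMF N) := by
  induction q using Quotient.inductionOn with
  | h r =>
    obtain ⟨r, ⟨γ, rfl⟩⟩ := r
    have hγ : γ ∉ Gamma0 N := by
      intro hmem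
      apply hq
      apply Quotient.sound
      apply QuotientGroup.leftRel_apply.mpr
      rw [Subgroup.mem_subgroupOf]
      simp only [mul_one, Subgroup.coe_inv]
      exact Subgroup.inv_mem _ (Subgroup.mem_map_of_mem _ hmem)
    have hγ' : γ⁻¹ ∉ Gamma0 N := fun h => hγ (by simpa using Subgroup.inv_mem _ h)
    have key := discN_slash_ne' N γ⁻¹ hγ'
    intro hcon
    apply key
    rw [quotientFunc_mk] at hcon
    rw [← coe_discNMF, ModularForm.SL_slash, map_inv]
    exact hcon

/-- **A3**: every weight-2 cusp form on `Γ₀(N)` is a quotient of two modular forms in the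
span of the rational forms. -/
theorem rationalQuotient (N : ℕ) [NeZero N] : R5.RationalQuotient N := fun f =>
  A3.exists_rational_quotient_of (fun _ c => R1.levelOne_mem_span_rat c) f (discNMF N)
    (discNMF_mem_span N) (quotientFunc_discNMF_ne N)

/-- **A3**, fraction form. -/
theorem fractionRep (N : ℕ) [NeZero N] : R5.FractionRep N :=
  R5.fractionRep_of_rationalQuotient (rationalQuotient N)

end Fermat.Agent.S23
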