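import Mathlib

/-!
# S23, STEP D (helper19): descent along `Aut(ℂ)`

* `exists_ringEquiv_apply_ne` : an element of an algebraically closed field of characteristic
  zero which is not rational is moved by some field automorphism.
* `stable_le_span_rat` : a subspace of `ι → L` stable under all coordinatewise automorphisms is
  spanned by its rational vectors.
-/

namespace Fermat.Agent.S23.D

open MvPolynomial

section Aut

variable {L : Type*} [Field L] [IsAlgClosed L]

/-- A ring automorphism of the polynomial ring on a transcendence basis extends to the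
algebraically closed field. -/
theorem exists_ringEquiv_of_transcendenceBasis {R : Type*} [Field R] [Algebra R L] {ι : Type*}
    (v : ι → L) (hv : IsTranscendenceBasis R v)
    (e : MvPolynomial ι R ≃+* MvPolynomial ι R) :
    ∃ σ : L ≃+* L, ∀ p : MvPolynomial ι R, σ (aeval v p) = aeval v (e p) := by
  let _ := IsAlgClosed.isAlgClosure_of_transcendence_basis v hv
  let e' : Algebra.adjoin R (Set.range v) ≃+* Algebra.adjoin R (Set.range v) :=
    hv.1.aevalEquiv.symm.toRingEquiv.trans (e.trans hv.1.aevalEquiv.toRingEquiv)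
  refine ⟨IsAlgClosure.equivOfEquiv L L e', fun p => ?_⟩
  have h1 : aeval v p = algebraMap (Algebra.adjoin R (Set.range v)) L (hv.1.aevalEquiv p) :=
    (hv.1.algebraMap_aevalEquiv p).symm
  rw [h1, IsAlgClosure.equivOfEquiv_algebraMap, ← hv.1.algebraMap_aevalEquiv]
  congr 1
  simp [e']

/-- The translation automorphism `X i₀ ↦ X i₀ + 1` of a polynomial ring. -/
noncomputable def shiftEquiv (R : Type*) [CommRing R] {ι : Type*} [DecidableEq ι] (i₀ : ι) :
    MvPolynomial ι R ≃ₐ[R] MvPolynomial ι R :=
  AlgEquiv.ofAlgHom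
    (aeval fun i => if i = i₀ then X i + 1 else X i)
    (aeval fun i => if i = i₀ then X i - 1 else X i)
    (by
      ext i
      by_cases h : i = i₀ <;> simp [h])
    (by
      ext i
      by_cases h : i = i₀ <;> simp [h])

lemma shiftEquiv_X (R : Type*) [CommRing R] {ι : Type*} [DecidableEq ι] (i₀ : ι) :
    shiftEquiv R i₀ (X i₀) = X i₀ + 1 := by
  simp [shiftEquiv]

variable [CharZero L]

/-- A transcendental element is moved by some automorphism. -/
theorem exists_ringEquiv_apply_ne_of_transcendental {x : L} (hx : Transcendental ℚ x) :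
    ∃ σ : L ≃+* L, σ x ≠ x := by
  classical
  have hs : AlgebraicIndepOn ℚ id ({x} : Set L) :=
    (algebraicIndependent_singleton_iff (⟨x, rfl⟩ : ({x} : Set L))).mpr hx
  obtain ⟨t, hst, ht⟩ := exists_isTranscendenceBasis_superset hs
  have hxt : x ∈ t := hst (Set.mem_singleton x)
  obtain ⟨σ, hσ⟩ := exists_ringEquiv_of_transcendenceBasis (R := ℚ) ((↑) : t → L) ht
    (shiftEquiv ℚ (⟨x, hxt⟩ : t)).toRingEquiv
  refine ⟨σ, ?_⟩
  have h := hσ (X ⟨x, hxt⟩)
  have h2 : (shiftEquiv ℚ (⟨x, hxt⟩ : t)).toRingEquiv (X ⟨x, hxt⟩) = X ⟨x, hxt⟩ + 1 :=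
    shiftEquiv_X ℚ _
  rw [h2] at h
  simp only [aeval_X, map_add, map_one] at h
  rw [h]
  simp

/-- An algebraic, non-rational element is moved by some automorphism. -/
theorem exists_ringEquiv_apply_ne_of_isAlgebraic {x : L} (hx : IsAlgebraic ℚ x)
    (hx' : x ∉ Set.range (algebraMap ℚ L)) : ∃ σ : L ≃+* L, σ x ≠ x := by
  classical
  let K : IntermediateField ℚ L := algebraicClosure ℚ L
  have hxK : x ∈ K := (mem_algebraicClosure_iff).mpr hx
  have : IsAlgClosure ℚ K := algebraicClosure.isAlgClosure ℚ L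
  have : IsGalois ℚ K := IsAlgClosure.isGalois ℚ K
  have hmove : ∃ τ : K ≃ₐ[ℚ] K, τ ⟨x, hxK⟩ ≠ ⟨x, hxK⟩ := by
    by_contra hcon
    push Not at hcon
    have := (InfiniteGalois.mem_range_algebraMap_iff_fixed (k := ℚ) (K := K) ⟨x, hxK⟩).mpr hcon
    obtain ⟨r, hr⟩ := this
    apply hx'
    refine ⟨r, ?_⟩
    have := congrArg (fun y : K => (y : L)) hr
    simpa using this
  obtain ⟨τ, hτ⟩ := hmove
  obtain ⟨s, hs⟩ := exists_isTranscendenceBasis K L
  obtain ⟨σ, hσ⟩ := exists_ringEquiv_of_transcendenceBasis (R := K) ((↑) : s → L) hs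
    (MvPolynomial.mapEquiv s τ.toRingEquiv)
  refine ⟨σ, ?_⟩
  have h := hσ (C ⟨x, hxK⟩)
  simp only [aeval_C, mapEquiv_apply, map_C] at h
  have e1 : algebraMap K L ⟨x, hxK⟩ = x := rfl
  rw [e1] at h
  rw [h]
  intro hc
  apply hτ
  apply Subtype.ext
  exact hc

/-- **Fixed field of `Aut(L)`**: a non-rational element of an algebraically closed field of
characteristic zero is moved by some field automorphism. -/
theorem exists_ringEquiv_apply_ne (x : L) (hx : x ∉ Set.range (algebraMap ℚ L)) :
    ∃ σ : L ≃+* L, σ x ≠ x := by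
  by_cases h : IsAlgebraic ℚ x
  · exact exists_ringEquiv_apply_ne_of_isAlgebraic h hx
  · exact exists_ringEquiv_apply_ne_of_transcendental h

/-- An element fixed by all automorphisms is rational. -/
theorem exists_rat_of_forall_ringEquiv (x : L) (hx : ∀ σ : L ≃+* L, σ x = x) :
    ∃ r : ℚ, x = (r : L) := by
  by_contra hcon
  obtain ⟨σ, hσ⟩ := exists_ringEquiv_apply_ne x (by
    rintro ⟨r, hr⟩
    exact hcon ⟨r, by rw [← hr]; simp⟩)
  exact hσ (hx σ)

end Aut

section Span

variable {L : Type*} [Field L] [IsAlgClosed L] [CharZero L] {ι : Type*} [Fintype ι]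

/-- **Descent of subspaces**: a subspace of `ι → L` which is stable under all coordinatewise
field automorphisms is spanned by its vectors with rational coordinates. -/
theorem stable_le_span_rat (W : Submodule L (ι → L))
    (hW : ∀ (σ : L ≃+* L) (w : ι → L), w ∈ W → (fun i => σ (w i)) ∈ W) :
    W ≤ Submodule.span L {w | w ∈ W ∧ ∀ i, ∃ r : ℚ, w i = (r : L)} := by
  classical
  suffices H : ∀ n : ℕ, ∀ w ∈ W, (Finset.univ.filter fun i => w i ≠ 0).card ≤ n →
      w ∈ Submodule.span L {w | w ∈ W ∧ ∀ i, ∃ r : ℚ, w i = (r : L)} from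
    fun w hw => H _ w hw le_rfl
  intro n
  induction n with
  | zero =>
    intro w hw hcard
    have : w = 0 := by
      funext i
      by_contra hi
      have hmem : i ∈ Finset.univ.filter fun i => w i ≠ 0 := by simpa using hi
      have := Finset.card_pos.mpr ⟨i, hmem⟩
      omega
    rw [this]; exact Submodule.zero_mem _
  | succ n ih =>
    intro w hw hcard
    by_cases hw0 : w = 0
    · rw [hw0]; exact Submodule.zero_mem _
    set S := Finset.univ.filter fun i => w i ≠ 0 with hS
    let P : ℕ → Prop := fun k => ∃ u ∈ W, u ≠ 0 ∧ (∀ i, u i ≠ 0 → w i ≠ 0) ∧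
      (Finset.univ.filter fun i => u i ≠ 0).card = k
    have hP : ∃ k, P k := ⟨_, w, hw, hw0, fun i h => h, rfl⟩
    obtain ⟨u, huW, hu0, husub, hucard⟩ := Nat.find_spec hP
    have hmin : ∀ u' ∈ W, u' ≠ 0 → (∀ i, u' i ≠ 0 → w i ≠ 0) →
        Nat.find hP ≤ (Finset.univ.filter fun i => u' i ≠ 0).card :=
      fun u' h1 h2 h3 => Nat.find_min' hP ⟨u', h1, h2, h3, rfl⟩
    obtain ⟨i₀, hi₀⟩ : ∃ i₀, u i₀ ≠ 0 := by
      by_contra h
      push Not at h
      exact hu0 (funext h)
    set u' : ι → L := (u i₀)⁻¹ • u with hu'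
    have hu'W : u' ∈ W := W.smul_mem _ huW
    have hu'i₀ : u' i₀ = 1 := by simp [hu', hi₀]
    have hu'supp : ∀ i, u' i ≠ 0 ↔ u i ≠ 0 := by
      intro i
      simp [hu', hi₀]
    have hfix : ∀ σ : L ≃+* L, ∀ i, σ (u' i) = u' i := by
      intro σ
      by_contra hne
      push Not at hne
      set d : ι → L := (fun i => σ (u' i)) - u' with hd
      have hdW : d ∈ W := W.sub_mem (hW σ u' hu'W) hu'W
      have hd0 : d ≠ 0 := by
        obtain ⟨i, hi⟩ := hne
        intro h
        apply hi
        have := congrFun h i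
        simp only [hd, Pi.sub_apply, Pi.zero_apply] at this
        exact sub_eq_zero.mp this
      have hdsupp : ∀ i, d i ≠ 0 → u i ≠ 0 := by
        intro i hi hui
        apply hi
        have : u' i = 0 := by
          by_contra h
          exact (hu'supp i).mp h hui
        simp [hd, this]
      have hdi₀ : d i₀ = 0 := by simp [hd, hu'i₀]
      have hlt : (Finset.univ.filter fun i => d i ≠ 0).card <
          (Finset.univ.filter fun i => u i ≠ 0).card := by
        apply Finset.card_lt_card
        rw [Finset.ssubset_iff_of_subset]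
        · exact ⟨i₀, by simpa using hi₀, by simp [hdi₀]⟩
        · intro i hi
          simp only [Finset.mem_filter, Finset.mem_univ, true_and] at hi ⊢
          exact hdsupp i hi
      have := hmin d hdW hd0 (fun i hi => husub i (hdsupp i hi))
      omega
    have hrat : ∀ i, ∃ r : ℚ, u' i = (r : L) := fun i =>
      exists_rat_of_forall_ringEquiv (u' i) (fun σ => hfix σ i)
    set w' : ι → L := w - (w i₀) • u' with hw'
    have hw'W : w' ∈ W := W.sub_mem hw (W.smul_mem _ hu'W)
    have hw'i₀ : w' i₀ = 0 := by simp [hw', hu'i₀]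
    have hw'supp : ∀ i, w' i ≠ 0 → w i ≠ 0 := by
      intro i hi hwi
      apply hi
      have : u' i = 0 := by
        by_contra h
        exact husub i ((hu'supp i).mp h) hwi
      simp [hw', hwi, this]
    have hwi₀ : w i₀ ≠ 0 := husub i₀ hi₀
    have hcard' : (Finset.univ.filter fun i => w' i ≠ 0).card ≤ n := by
      have hlt : (Finset.univ.filter fun i => w' i ≠ 0).card < S.card := by
        apply Finset.card_lt_card
        rw [Finset.ssubset_iff_of_subset]
        · exact ⟨i₀, by simpa [hS] using hwi₀, by simp [hw'i₀]⟩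
        · intro i hi
          simp only [hS, Finset.mem_filter, Finset.mem_univ, true_and] at hi ⊢
          exact hw'supp i hi
      omega
    have h1 := ih w' hw'W hcard'
    have h2 : u' ∈ Submodule.span L {w | w ∈ W ∧ ∀ i, ∃ r : ℚ, w i = (r : L)} :=
      Submodule.subset_span ⟨hu'W, hrat⟩
    have hsum : w = w' + (w i₀) • u' := by simp [hw']
    rw [hsum]
    exact Submodule.add_mem _ h1 (Submodule.smul_mem _ _ h2)

end Span

end Fermat.Agent.S23.D
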