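import Mathlib
import Fermat.Prelude.Def_FLTPrelim_Modularity
import Fermat.Prelude.Def_CuspForm_IntegralStructure
import Fermat.Prelude.Thm_CongruenceSubgroup_one_mem_strictPeriods_Gamma0
import Fermat.Prelude.Thm_ModularForm_sturm_bound_Gamma0
import Fermat.Agent.S23.H19_Descent

/-!
# S23, STEP D part 2 (helper19): rational cusp forms span

If `Aut(ℂ)` acts on `S_k(Γ₀(N))` through `q`-coefficients, then the cusp forms with rational
`q`-coefficients span `S_k(Γ₀(N))` over `ℂ`.
-/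

set_option autoImplicit false

namespace Fermat.Agent.S23.D

open CuspForm ModularFormClass CongruenceSubgroup UpperHalfPlane

variable {N : ℕ} {k : ℤ}

theorem d_one_mem_strictPeriods (N : ℕ) :
    (1 : ℝ) ∈ (Subgroup.map (Matrix.SpecialLinearGroup.mapGL ℝ) (Gamma0 N)).strictPeriods :=
  CongruenceSubgroup.one_mem_strictPeriods_Gamma0 N

theorem d_qCoeff_add (f g : CuspForm (Gamma0 N) k) (n : ℕ) :
    qCoeff ⇑(f + g) n = qCoeff ⇑f n + qCoeff ⇑g n := by
  simp only [qCoeff, FunLike.coe_add]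
  rw [ModularForm.qExpansion_add one_pos (d_one_mem_strictPeriods N) f g, map_add]

theorem d_qCoeff_smul (c : ℂ) (f : CuspForm (Gamma0 N) k) (n : ℕ) :
    qCoeff ⇑(c • f) n = c * qCoeff ⇑f n := by
  have h1 : ⇑(c • f) = c • ⇑f := by
    ext z
    simp
  simp only [qCoeff, h1]
  rw [ModularForm.qExpansion_smul one_pos (d_one_mem_strictPeriods N) c f]
  simp

/-- The Sturm bound for `Γ₀(N)` in weight `k`. -/
noncomputable def sturmB (N : ℕ) (k : ℤ) : ℕ := (k * (Gamma0 N).index).toNat / 12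

/-- The truncated `q`-expansion, as a `ℂ`-linear map. -/
noncomputable def truncQ (N : ℕ) (k : ℤ) :
    CuspForm (Gamma0 N) k →ₗ[ℂ] (Fin (sturmB N k + 1) → ℂ) where
  toFun f i := qCoeff ⇑f i
  map_add' f g := by
    funext i
    exact d_qCoeff_add f g i
  map_smul' c f := by
    funext i
    simp only [Pi.smul_apply, RingHom.id_apply, smul_eq_mul]
    exact d_qCoeff_smul c f i

theorem truncQ_apply (f : CuspForm (Gamma0 N) k) (i : Fin (sturmB N k + 1)) :
    truncQ N k f i = qCoeff ⇑f i := rfl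

theorem truncQ_injective (N : ℕ) [NeZero N] (k : ℤ) : Function.Injective (truncQ N k) := by
  refine (injective_iff_map_eq_zero _).mpr fun f hf ↦ ?_
  have hmf : (ModularFormClass.modularForm f : ModularForm (Gamma0 N) k) = 0 := by
    refine ModularForm.sturm_bound_Gamma0 N _ fun n hn ↦ ?_
    have := congrFun hf ⟨n, Nat.lt_succ_of_le hn⟩
    simpa [truncQ, qCoeff] using this
  have hcoe : (⇑f : ℍ → ℂ) = 0 := by
    have := congrArg (fun F : ModularForm (Gamma0 N) k ↦ (⇑F : ℍ → ℂ)) hmf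
    simpa using this
  exact DFunLike.coe_injective (hcoe.trans (FunLike.coe_zero (F := CuspForm (Gamma0 N) k)).symm)

/-- **STEP D**: if `Aut(ℂ)` acts on `S_k(Γ₀(N))` through the `q`-coefficients, then the forms
with rational `q`-coefficients span `S_k(Γ₀(N))`. -/
theorem rational_forms_span (N : ℕ) [NeZero N] (k : ℤ)
    (hR : ∀ (f : CuspForm (Gamma0 N) k) (σ : ℂ ≃+* ℂ),
      ∃ g : CuspForm (Gamma0 N) k, ∀ n : ℕ, qCoeff ⇑g n = σ (qCoeff ⇑f n))
    (f : CuspForm (Gamma0 N) k) :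
    f ∈ Submodule.span ℂ
      {g : CuspForm (Gamma0 N) k | ∀ n : ℕ, ∃ r : ℚ, qCoeff ⇑g n = (r : ℂ)} := by
  set T := truncQ N k with hT
  have hinj := truncQ_injective N k
  set W : Submodule ℂ (Fin (sturmB N k + 1) → ℂ) := LinearMap.range T with hW
  have hstable : ∀ (σ : ℂ ≃+* ℂ) (w : Fin (sturmB N k + 1) → ℂ), w ∈ W →
      (fun i => σ (w i)) ∈ W := by
    rintro σ w ⟨g, rfl⟩
    obtain ⟨g', hg'⟩ := hR g σ
    refine ⟨g', ?_⟩
    funext i
    exact hg' i
  have hspan := stable_le_span_rat W hstable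
  have hle : Submodule.span ℂ {w | w ∈ W ∧ ∀ i, ∃ r : ℚ, w i = (r : ℂ)} ≤
      (Submodule.span ℂ
        {g : CuspForm (Gamma0 N) k | ∀ n : ℕ, ∃ r : ℚ, qCoeff ⇑g n = (r : ℂ)}).map T := by
    rw [Submodule.span_le]
    rintro w ⟨⟨g, rfl⟩, hrat⟩
    refine ⟨g, Submodule.subset_span ?_, rfl⟩
    -- all coefficients of `g` are fixed by every automorphism
    intro n
    apply exists_rat_of_forall_ringEquiv
    intro σ
    obtain ⟨g', hg'⟩ := hR g σ
    have hTg : T g' = T g := by
      funext i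
      rw [truncQ_apply, hg' i]
      obtain ⟨r, hr⟩ := hrat i
      rw [truncQ_apply] at hr
      rw [truncQ_apply, hr]
      exact map_ratCast σ r
    have : g' = g := hinj hTg
    rw [← hg' n, this]
  have hf : T f ∈ W := ⟨f, rfl⟩
  obtain ⟨h, hh, hhf⟩ := hle (hspan hf)
  have : h = f := hinj hhf
  rwa [this] at hh

/-- **Assembly of STEP D with STEP I**: `HasIntegralStructure N k` follows from the `Aut(ℂ)`
action (STEP R) and "rational forms are in the span of the integral lattice" (STEP I). -/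
theorem hasIntegralStructure_of_steps (N : ℕ) [NeZero N] (k : ℤ)
    (hR : ∀ (f : CuspForm (Gamma0 N) k) (σ : ℂ ≃+* ℂ),
      ∃ g : CuspForm (Gamma0 N) k, ∀ n : ℕ, qCoeff ⇑g n = σ (qCoeff ⇑f n))
    (hI : ∀ f : CuspForm (Gamma0 N) k, (∀ n : ℕ, ∃ r : ℚ, qCoeff ⇑f n = (r : ℂ)) →
      f ∈ Submodule.span ℂ
        ((CuspForm.intLattice N k : Submodule ℤ (CuspForm (Gamma0 N) k)) :
          Set (CuspForm (Gamma0 N) k))) :
    CuspForm.HasIntegralStructure N k := by
  unfold CuspForm.HasIntegralStructure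
  rw [eq_top_iff]
  intro f _
  have h1 := rational_forms_span N k hR f
  have h2 : Submodule.span ℂ
      {g : CuspForm (Gamma0 N) k | ∀ n : ℕ, ∃ r : ℚ, qCoeff ⇑g n = (r : ℂ)} ≤
      Submodule.span ℂ
        ((CuspForm.intLattice N k : Submodule ℤ (CuspForm (Gamma0 N) k)) :
          Set (CuspForm (Gamma0 N) k)) := by
    rw [Submodule.span_le]
    intro g hg
    exact hI g hg
  exact h2 h1

end Fermat.Agent.S23.D
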