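import Fermat.Agent.S22
import Fermat.Prelude.Def_CuspForm_IntegralStructure
import Fermat.Prelude.Thm_ModularFormClass_qCoeff_heckeT
import Fermat.Prelude.Thm_ModularFormClass_qCoeff_heckeU
import Fermat.Prelude.Thm_CongruenceSubgroup_one_mem_strictPeriods_Gamma0

/-!
# S23, Step I (helper2): rational q-coefficients have bounded denominators

Uses `Fermat.Agent.S22.result` (the Hecke algebra is a finitely generated `ℤ`-module).

Main results (weight `2`, level `Γ₀(N)`):

* `exists_hecke_coeff`: for `n ≥ 1` there is `T` in the Hecke algebra with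
  `qCoeff g n = qCoeff (T g) 1` for all cusp forms `g`;
* `rational_of_mem_heckeAlgebra`: Hecke operators preserve rationality of q-coefficients;
* `exists_int_smul_integral`: a cusp form with rational q-coefficients has a nonzero integer
  multiple with integer q-coefficients;
* `hasIntegralStructure_of_rational_span`: if the cusp forms with rational q-coefficients
  span, then `CuspForm.HasIntegralStructure N 2`.
-/

set_option autoImplicit false
set_option linter.unusedSectionVars false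
set_option linter.deprecated false

namespace Fermat.Agent.S23.StepI

open CuspForm ModularFormClass ModularForm

variable {N : ℕ} [NeZero N]

local notation "Γ₀(" N ")" => CongruenceSubgroup.Gamma0 N

theorem hGam (N : ℕ) :
    (1 : ℝ) ∈ (Subgroup.map (Matrix.SpecialLinearGroup.mapGL ℝ) Γ₀(N)).strictPeriods :=
  CongruenceSubgroup.one_mem_strictPeriods_Gamma0 N

theorem qCoeff_add (f g : CuspForm Γ₀(N) 2) (n : ℕ) :
    qCoeff ⇑(f + g) n = qCoeff ⇑f n + qCoeff ⇑g n := by
  simp only [qCoeff, CuspForm.coe_add]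
  rw [ModularForm.qExpansion_add one_pos (hGam N) f g, map_add]

theorem qCoeff_zero_form (n : ℕ) : qCoeff ⇑(0 : CuspForm Γ₀(N) 2) n = 0 := by
  simp only [qCoeff, CuspForm.coe_zero]
  rw [UpperHalfPlane.qExpansion_zero, map_zero]

theorem qCoeff_smul (c : ℂ) (f : CuspForm Γ₀(N) 2) (n : ℕ) :
    qCoeff ⇑(c • f) n = c * qCoeff ⇑f n := by
  have h1 : ⇑(c • f) = c • ⇑f := by
    ext z
    simp
  simp only [qCoeff, h1]
  rw [ModularForm.qExpansion_smul one_pos (hGam N) c f]
  simp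

theorem qCoeff_zsmul (c : ℤ) (f : CuspForm Γ₀(N) 2) (n : ℕ) :
    qCoeff ⇑(c • f) n = c * qCoeff ⇑f n := by
  have h1 : ⇑(c • f) = (c : ℂ) • ⇑f := by
    ext z
    simp
  simp only [qCoeff, h1]
  rw [ModularForm.qExpansion_smul one_pos (hGam N) (c : ℂ) f]
  simp

theorem qCoeff_T {ℓ : ℕ} (hℓ : ℓ.Prime) (hℓN : ¬ ℓ ∣ N) (f : CuspForm Γ₀(N) 2) (n : ℕ) :
    qCoeff ⇑(CuspForm.heckeTLin 2 hℓ hℓN f) n =
      qCoeff ⇑f (n * ℓ) + if ℓ ∣ n then (ℓ : ℂ) * qCoeff ⇑f (n / ℓ) else 0 := by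
  rw [CuspForm.coe_heckeTLin_apply, ModularFormClass.qCoeff_heckeT f (hGam N) hℓ.ne_zero,
    coeffHeckeT_apply]
  norm_num

theorem qCoeff_U {q : ℕ} (hqN : q ∣ N) (hq : q ≠ 0) (f : CuspForm Γ₀(N) 2) (n : ℕ) :
    qCoeff ⇑(CuspForm.heckeULin 2 hqN f) n = qCoeff ⇑f (n * q) := by
  rw [CuspForm.coe_heckeULin_apply, ModularFormClass.qCoeff_heckeU f (hGam N) hq,
    coeffHeckeU_apply]

theorem qCoeff_zero_index (f : CuspForm Γ₀(N) 2) : qCoeff ⇑f 0 = 0 :=
  CuspFormClass.qExpansion_coeff_zero f one_pos (hGam N)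

/-- (a) The `n`-th q-coefficient is the first q-coefficient of a Hecke translate. -/
theorem exists_hecke_coeff (n : ℕ) (hn : 0 < n) :
    ∃ T ∈ CuspForm.heckeAlgebra N 2 ∅,
      ∀ g : CuspForm Γ₀(N) 2, qCoeff ⇑g n = qCoeff ⇑(T g) 1 := by
  induction n using Nat.strong_induction_on with
  | _ n ih =>
    rcases Nat.lt_or_ge 1 n with h1 | h1
    · obtain ⟨p, hp, hpn⟩ := Nat.exists_prime_and_dvd (by omega : n ≠ 1)
      obtain ⟨m, rfl⟩ := hpn
      have hm : 0 < m := Nat.pos_of_ne_zero (by rintro rfl; simp at hn)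
      have hmlt : m < p * m := by
        have := hp.two_le
        nlinarith
      obtain ⟨Tm, hTm, hTm'⟩ := ih m hmlt hm
      by_cases hpN : p ∣ N
      · refine ⟨Tm * CuspForm.heckeULin 2 hpN,
          mul_mem hTm (CuspForm.heckeULin_mem_heckeAlgebra hp hpN (by simp)), fun g => ?_⟩
        rw [Module.End.mul_apply, ← hTm', qCoeff_U hpN hp.ne_zero, mul_comm]
      · by_cases hpm : p ∣ m
        · obtain ⟨m', rfl⟩ := hpm
          have hm' : 0 < m' := Nat.pos_of_ne_zero (by rintro rfl; simp at hm)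
          have hm'lt : m' < p * (p * m') := by
            have := hp.two_le
            nlinarith
          obtain ⟨Tm', hTm'1, hTm'2⟩ := ih m' hm'lt hm'
          refine ⟨Tm * CuspForm.heckeTLin 2 hp hpN - (p : ℤ) • Tm',
            sub_mem (mul_mem hTm (CuspForm.heckeTLin_mem_heckeAlgebra hp hpN (by simp)))
              (Subalgebra.zsmul_mem _ hTm'1 _), fun g => ?_⟩
          have e1 := hTm' (CuspForm.heckeTLin 2 hp hpN g)
          rw [qCoeff_T, if_pos (dvd_mul_right p m'), Nat.mul_div_cancel_left _ hp.pos] at e1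
          have e2 := hTm'2 g
          have e3 : (Tm * CuspForm.heckeTLin 2 hp hpN - (p : ℤ) • Tm') g =
              Tm (CuspForm.heckeTLin 2 hp hpN g) + (-(p : ℤ)) • (Tm' g) := by
            simp [sub_eq_add_neg]
          rw [e3, qCoeff_add, qCoeff_zsmul, ← e1, ← e2, mul_comm p (p * m')]
          push_cast
          ring
        · refine ⟨Tm * CuspForm.heckeTLin 2 hp hpN,
            mul_mem hTm (CuspForm.heckeTLin_mem_heckeAlgebra hp hpN (by simp)), fun g => ?_⟩
          rw [Module.End.mul_apply, ← hTm', qCoeff_T, if_neg hpm, add_zero, mul_comm]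
    · have h : n = 1 := by omega
      subst h
      exact ⟨1, one_mem _, fun g => rfl⟩

/-- The cusp forms with rational q-coefficients. -/
def IsRat (f : CuspForm Γ₀(N) 2) : Prop := ∀ n : ℕ, ∃ r : ℚ, qCoeff ⇑f n = (r : ℂ)

theorem IsRat.add {f g : CuspForm Γ₀(N) 2} (hf : IsRat f) (hg : IsRat g) : IsRat (f + g) := by
  intro n
  obtain ⟨a, ha⟩ := hf n
  obtain ⟨b, hb⟩ := hg n
  exact ⟨a + b, by rw [qCoeff_add, ha, hb]; push_cast; ring⟩

theorem IsRat.zsmul {f : CuspForm Γ₀(N) 2} (hf : IsRat f) (c : ℤ) : IsRat (c • f) := by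
  intro n
  obtain ⟨a, ha⟩ := hf n
  exact ⟨c * a, by rw [qCoeff_zsmul, ha]; push_cast; ring⟩

theorem IsRat.heckeT {f : CuspForm Γ₀(N) 2} (hf : IsRat f) {ℓ : ℕ} (hℓ : ℓ.Prime)
    (hℓN : ¬ ℓ ∣ N) : IsRat (CuspForm.heckeTLin 2 hℓ hℓN f) := by
  intro n
  rw [qCoeff_T]
  obtain ⟨a, ha⟩ := hf (n * ℓ)
  obtain ⟨b, hb⟩ := hf (n / ℓ)
  by_cases h : ℓ ∣ n
  · exact ⟨a + ℓ * b, by rw [if_pos h, ha, hb]; push_cast; ring⟩
  · exact ⟨a, by rw [if_neg h, ha, add_zero]⟩

theorem IsRat.heckeU {f : CuspForm Γ₀(N) 2} (hf : IsRat f) {q : ℕ} (hq : q.Prime)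
    (hqN : q ∣ N) : IsRat (CuspForm.heckeULin 2 hqN f) := by
  intro n
  rw [qCoeff_U hqN hq.ne_zero]
  exact hf _

/-- The endomorphisms preserving rationality of the q-coefficients. -/
def ratStab (N : ℕ) [NeZero N] : Subalgebra ℤ (Module.End ℂ (CuspForm Γ₀(N) 2)) where
  carrier := {t | ∀ f, IsRat f → IsRat (t f)}
  mul_mem' := fun {x y} hx hy f hf => by
    rw [Module.End.mul_apply]
    exact hx _ (hy _ hf)
  one_mem' := fun f hf => hf
  add_mem' := fun {x y} hx hy f hf => by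
    rw [LinearMap.add_apply]
    exact (hx _ hf).add (hy _ hf)
  zero_mem' := fun f hf n => ⟨0, by
    rw [LinearMap.zero_apply, qCoeff_zero_form]; simp⟩
  algebraMap_mem' := fun r f hf => by
    rw [Algebra.algebraMap_eq_smul_one, LinearMap.smul_apply, Module.End.one_apply]
    exact hf.zsmul r

/-- (c) The Hecke algebra preserves rationality of the q-coefficients. -/
theorem rational_of_mem_heckeAlgebra {S : Set ℕ}
    {t : Module.End ℂ (CuspForm Γ₀(N) 2)} (ht : t ∈ CuspForm.heckeAlgebra N 2 S)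
    {f : CuspForm Γ₀(N) 2} (hf : IsRat f) : IsRat (t f) := by
  have hle : CuspForm.heckeAlgebra N 2 S ≤ ratStab N := by
    refine Algebra.adjoin_le ?_
    rintro x (⟨ℓ, hℓ, hℓN, -, rfl⟩ | ⟨q, hqN, hq, -, rfl⟩) f hf
    · exact hf.heckeT hℓ hℓN
    · exact hf.heckeU hq hqN
  exact hle ht f hf

/-- (b) A cusp form with rational q-coefficients has a nonzero integer multiple with integer
q-coefficients (bounded denominators). -/
theorem exists_int_smul_integral (f : CuspForm Γ₀(N) 2) (hf : IsRat f) :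
    ∃ D : ℤ, D ≠ 0 ∧ ∀ n : ℕ, ∃ m : ℤ, qCoeff ⇑(D • f) n = (m : ℂ) := by
  classical
  have hfin : Module.Finite ℤ (CuspForm.heckeAlgebra N 2 ∅) := Fermat.Agent.S22.result N 2 ∅
  obtain ⟨s, hs⟩ := (Module.Finite.fg_top : (⊤ : Submodule ℤ (CuspForm.heckeAlgebra N 2 ∅)).FG)
  have hr : ∀ t : CuspForm.heckeAlgebra N 2 ∅, ∃ r : ℚ,
      qCoeff ⇑((t : Module.End ℂ (CuspForm Γ₀(N) 2)) f) 1 = (r : ℂ) :=
    fun t => rational_of_mem_heckeAlgebra t.2 hf 1
  choose r hr using hr
  let D : ℤ := ∏ t ∈ s, ((r t).den : ℤ)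
  have hD : D ≠ 0 :=
    Finset.prod_ne_zero_iff.2 fun t _ => by exact_mod_cast (r t).den_nz
  have key : ∀ T : CuspForm.heckeAlgebra N 2 ∅, ∃ m : ℤ,
      (D : ℂ) * qCoeff ⇑((T : Module.End ℂ (CuspForm Γ₀(N) 2)) f) 1 = (m : ℂ) := by
    intro T
    have hT : T ∈ Submodule.span ℤ (s : Set (CuspForm.heckeAlgebra N 2 ∅)) := by
      rw [hs]; exact Submodule.mem_top
    induction hT using Submodule.span_induction with
    | mem t ht =>
      obtain ⟨c, hc⟩ := Finset.dvd_prod_of_mem (fun t => ((r t).den : ℤ)) ht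
      refine ⟨c * (r t).num, ?_⟩
      rw [hr t]
      have hDc : (D : ℂ) = ((r t).den : ℂ) * (c : ℂ) := by
        have : D = ((r t).den : ℤ) * c := hc
        rw [this]; push_cast; ring
      have hden : ((r t).den : ℂ) ≠ 0 := by exact_mod_cast (r t).den_nz
      have hrt : ((r t : ℚ) : ℂ) = ((r t).num : ℂ) / ((r t).den : ℂ) := by
        conv_lhs => rw [← Rat.num_div_den (r t)]
        push_cast
        rfl
      rw [hDc, hrt]
      push_cast
      field_simp
    | zero =>
      refine ⟨0, ?_⟩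
      have : ((0 : CuspForm.heckeAlgebra N 2 ∅) : Module.End ℂ (CuspForm Γ₀(N) 2)) f = 0 := by
        simp
      rw [this, qCoeff_zero_form]
      simp
    | add x y _ _ hx hy =>
      obtain ⟨a, ha⟩ := hx
      obtain ⟨b, hb⟩ := hy
      refine ⟨a + b, ?_⟩
      have : ((x + y : CuspForm.heckeAlgebra N 2 ∅) : Module.End ℂ (CuspForm Γ₀(N) 2)) f =
          (x : Module.End ℂ (CuspForm Γ₀(N) 2)) f + (y : Module.End ℂ (CuspForm Γ₀(N) 2)) f := by
        simp
      rw [this, qCoeff_add, mul_add, ha, hb]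
      push_cast
      ring
    | smul a x _ hx =>
      obtain ⟨b, hb⟩ := hx
      refine ⟨a * b, ?_⟩
      have : ((a • x : CuspForm.heckeAlgebra N 2 ∅) : Module.End ℂ (CuspForm Γ₀(N) 2)) f =
          a • ((x : Module.End ℂ (CuspForm Γ₀(N) 2)) f) := by
        simp
      rw [this, qCoeff_zsmul, mul_left_comm, hb]
      push_cast
      ring
  refine ⟨D, hD, fun n => ?_⟩
  rcases Nat.eq_zero_or_pos n with rfl | hn
  · exact ⟨0, by rw [qCoeff_zero_index]; simp⟩
  · obtain ⟨T, hT, hT'⟩ := exists_hecke_coeff (N := N) n hn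
    obtain ⟨m, hm⟩ := key ⟨T, hT⟩
    exact ⟨m, by rw [qCoeff_zsmul, hT' f]; exact hm⟩

/-- A cusp form with rational q-coefficients lies in the `ℂ`-span of the integral lattice. -/
theorem mem_span_intLattice_of_rational (f : CuspForm Γ₀(N) 2) (hf : IsRat f) :
    f ∈ Submodule.span ℂ ((CuspForm.intLattice N 2 : Submodule ℤ (CuspForm Γ₀(N) 2)) :
      Set (CuspForm Γ₀(N) 2)) := by
  obtain ⟨D, hD, hDf⟩ := exists_int_smul_integral f hf
  have h1 : D • f ∈ CuspForm.intLattice N 2 := Submodule.subset_span hDf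
  have h2 : f = ((D : ℂ)⁻¹) • (D • f) := by
    rw [← Int.cast_smul_eq_zsmul ℂ D f, smul_smul, inv_mul_cancel₀ (by exact_mod_cast hD),
      one_smul]
  rw [h2]
  exact Submodule.smul_mem _ _ (Submodule.subset_span h1)

/-- Final reduction: if the cusp forms with rational q-coefficients span `S₂(Γ₀(N))` over `ℂ`,
then `S₂(Γ₀(N))` has an integral structure. -/
theorem hasIntegralStructure_of_rational_span
    (h : Submodule.span ℂ {f : CuspForm Γ₀(N) 2 | IsRat f} = ⊤) :
    CuspForm.HasIntegralStructure N 2 := by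
  rw [CuspForm.HasIntegralStructure, eq_top_iff, ← h]
  exact Submodule.span_le.2 fun f hf => mem_span_intLattice_of_rational f hf

end Fermat.Agent.S23.StepI
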