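import Mathlib
import Fermat.Prelude.Def_CuspForm_HeckeAlgebra
import Fermat.Prelude.Def_CuspForm_IntegralStructure
import Fermat.Prelude.Thm_ModularFormClass_qCoeff_heckeT
import Fermat.Prelude.Thm_ModularFormClass_qCoeff_heckeU
import Fermat.Agent.S49.Basic

/-!
# S23, STEP I: rational `q`-coefficients imply bounded denominators

Let `f` be a weight-2 cusp form on `Γ₀(N)` all of whose `q`-coefficients are rational.
If the full Hecke algebra `heckeAlgebra N 2 ∅` is a finitely generated `ℤ`-module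
(this is S22), then some nonzero integer multiple of `f` has integral `q`-coefficients.
In particular `f` lies in the `ℂ`-span of the integral lattice.

The proof: for every `n ≥ 1` there is `T⁽ⁿ⁾` in the Hecke algebra with
`a₁(T⁽ⁿ⁾ g) = aₙ(g)` for all `g`; writing `T⁽ⁿ⁾` as an integral combination of finitely many
generators `tᵢ`, the finitely many rational numbers `a₁(tᵢ f)` control all `aₙ(f)`.
-/

set_option autoImplicit false

namespace Fermat.Agent.S23.H9

open CuspForm ModularFormClass CongruenceSubgroup UpperHalfPlane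

variable {N : ℕ}

/-- A cusp form has rational `q`-coefficients. -/
def IsRatForm (g : CuspForm (Gamma0 N) 2) : Prop :=
  ∀ n : ℕ, ∃ r : ℚ, qCoeff ⇑g n = (r : ℂ)

theorem qCoeff_heckeTLin {p : ℕ} (hp : p.Prime) (hpN : ¬ p ∣ N) (g : CuspForm (Gamma0 N) 2)
    (n : ℕ) :
    qCoeff ⇑(CuspForm.heckeTLin 2 hp hpN g) n =
      qCoeff ⇑g (n * p) + if p ∣ n then (p : ℂ) * qCoeff ⇑g (n / p) else 0 := by
  rw [CuspForm.coe_heckeTLin_apply,
    ModularFormClass.qCoeff_heckeT g (Fermat.Agent.S49.one_mem_strictPeriods N) hp.ne_zero n,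
    ModularForm.coeffHeckeT_apply]
  norm_num

theorem qCoeff_heckeULin [NeZero N] {p : ℕ} (hp : p.Prime) (hpN : p ∣ N)
    (g : CuspForm (Gamma0 N) 2) (n : ℕ) :
    qCoeff ⇑(CuspForm.heckeULin 2 hpN g) n = qCoeff ⇑g (n * p) := by
  rw [CuspForm.coe_heckeULin_apply,
    ModularFormClass.qCoeff_heckeU g (Fermat.Agent.S49.one_mem_strictPeriods N) hp.ne_zero n,
    ModularForm.coeffHeckeU_apply]


section Coefficient

variable [NeZero N]

/-- For every `n ≥ 1` there is a Hecke operator `T⁽ⁿ⁾` in the full Hecke algebra with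
`a₁(T⁽ⁿ⁾ g) = aₙ(g)` for every cusp form `g`. -/
theorem exists_hecke_coeff_one (n : ℕ) (hn : 0 < n) :
    ∃ T ∈ heckeAlgebra N 2 ∅, ∀ g : CuspForm (Gamma0 N) 2,
      qCoeff ⇑(T g) 1 = qCoeff ⇑g n := by
  induction n using Nat.strong_induction_on with
  | _ n ih =>
    rcases Nat.eq_or_lt_of_le (Nat.succ_le_of_lt hn) with h1 | h1
    · refine ⟨1, Subalgebra.one_mem _, fun g => ?_⟩
      rw [← h1]
      rfl
    · have hn1 : n ≠ 1 := by omega
      have hp : (n.minFac).Prime := Nat.minFac_prime hn1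
      set p := n.minFac with hpdef
      have hpn : p ∣ n := Nat.minFac_dvd n
      obtain ⟨m, hm⟩ := hpn
      have hm0 : 0 < m := by
        rcases Nat.eq_zero_or_pos m with h | h
        · rw [h, mul_zero] at hm; omega
        · exact h
      have hmn : m < n := by
        rw [hm]
        exact lt_mul_of_one_lt_left hm0 hp.one_lt
      obtain ⟨Tm, hTm, hTmc⟩ := ih m hmn hm0
      have hnm : n = m * p := by rw [hm, mul_comm]
      by_cases hpN : p ∣ N
      · refine ⟨Tm * CuspForm.heckeULin 2 hpN,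
          Subalgebra.mul_mem _ hTm (heckeULin_mem_heckeAlgebra hp hpN (by simp)), fun g => ?_⟩
        rw [Module.End.mul_apply, hTmc, qCoeff_heckeULin hp hpN, hnm]
      · by_cases hpm : p ∣ m
        · obtain ⟨m', hm'⟩ := hpm
          have hm'0 : 0 < m' := by
            rcases Nat.eq_zero_or_pos m' with h | h
            · rw [h, mul_zero] at hm'; omega
            · exact h
          have hm'n : m' < n := by
            have : m' < m := by
              rw [hm']
              exact lt_mul_of_one_lt_left hm'0 hp.one_lt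
            omega
          obtain ⟨Tm', hTm', hTm'c⟩ := ih m' hm'n hm'0
          refine ⟨Tm * CuspForm.heckeTLin 2 hp hpN - (p : ℤ) • Tm',
            Subalgebra.sub_mem _
              (Subalgebra.mul_mem _ hTm (heckeTLin_mem_heckeAlgebra hp hpN (by simp)))
              (Subalgebra.zsmul_mem _ hTm' _), fun g => ?_⟩
          have hdiv : m / p = m' := by
            rw [hm']
            exact Nat.mul_div_cancel_left m' hp.pos
          have hsm : ((p : ℤ) • Tm') g = (p : ℂ) • (Tm' g) := by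
            rw [LinearMap.smul_apply]
            rw [← Int.cast_smul_eq_zsmul ℂ]
            simp
          rw [LinearMap.sub_apply, Module.End.mul_apply, Fermat.Agent.S49.qCoeff_sub, hTmc,
            qCoeff_heckeTLin hp hpN, if_pos ⟨m', hm'⟩, hsm, Fermat.Agent.S49.qCoeff_smul, hTm'c,
            hdiv, hnm]
          ring
        · refine ⟨Tm * CuspForm.heckeTLin 2 hp hpN,
            Subalgebra.mul_mem _ hTm (heckeTLin_mem_heckeAlgebra hp hpN (by simp)), fun g => ?_⟩
          rw [Module.End.mul_apply, hTmc, qCoeff_heckeTLin hp hpN, if_neg hpm, add_zero, hnm]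

/-- Operators of the Hecke algebra preserve rationality of `q`-coefficients. -/
theorem isRatForm_hecke {T : Module.End ℂ (CuspForm (Gamma0 N) 2)}
    (hT : T ∈ heckeAlgebra N 2 ∅) : ∀ g : CuspForm (Gamma0 N) 2, IsRatForm g → IsRatForm (T g) := by
  induction hT using Algebra.adjoin_induction with
  | mem T hT =>
    intro g hg n
    rcases hT with ⟨ℓ, hℓ, hℓN, -, rfl⟩ | ⟨q, hqN, hq, -, rfl⟩
    · rw [qCoeff_heckeTLin hℓ hℓN]
      obtain ⟨r1, hr1⟩ := hg (n * ℓ)
      obtain ⟨r2, hr2⟩ := hg (n / ℓ)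
      split_ifs
      · exact ⟨r1 + ℓ * r2, by rw [hr1, hr2]; push_cast; ring⟩
      · exact ⟨r1, by rw [hr1, add_zero]⟩
    · rw [qCoeff_heckeULin hq hqN]
      exact hg (n * q)
  | algebraMap z =>
    intro g hg n
    obtain ⟨r, hr⟩ := hg n
    refine ⟨z * r, ?_⟩
    have : (algebraMap ℤ (Module.End ℂ (CuspForm (Gamma0 N) 2)) z) g = (z : ℂ) • g := by
      rw [Algebra.algebraMap_eq_smul_one, LinearMap.smul_apply, Module.End.one_apply,
        ← Int.cast_smul_eq_zsmul ℂ]
    rw [this, Fermat.Agent.S49.qCoeff_smul, hr]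
    push_cast
    ring
  | add T₁ T₂ _ _ h₁ h₂ =>
    intro g hg n
    obtain ⟨r1, hr1⟩ := h₁ g hg n
    obtain ⟨r2, hr2⟩ := h₂ g hg n
    refine ⟨r1 + r2, ?_⟩
    rw [LinearMap.add_apply, Fermat.Agent.S49.qCoeff_add, hr1, hr2]
    push_cast
    ring
  | mul T₁ T₂ _ _ h₁ h₂ =>
    intro g hg
    rw [Module.End.mul_apply]
    exact h₁ _ (h₂ g hg)


/-- A common denominator for finitely many rational numbers. -/
theorem exists_common_den {ι : Type*} (s : Finset ι) (r : ι → ℚ) :
    ∃ D : ℤ, D ≠ 0 ∧ ∀ i ∈ s, ∃ m : ℤ, (D : ℚ) * r i = (m : ℚ) := by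
  classical
  induction s using Finset.induction_on with
  | empty => exact ⟨1, one_ne_zero, by simp⟩
  | insert a s _ ih =>
    obtain ⟨D, hD0, hD⟩ := ih
    refine ⟨D * (r a).den, mul_ne_zero hD0 (by exact_mod_cast (r a).den_ne_zero), ?_⟩
    intro i hi
    rcases Finset.mem_insert.1 hi with rfl | hi
    · refine ⟨D * (r i).num, ?_⟩
      push_cast
      rw [mul_assoc, Rat.den_mul_eq_num]
    · obtain ⟨m, hm⟩ := hD i hi
      refine ⟨m * (r a).den, ?_⟩
      push_cast
      rw [← hm]
      ring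

omit [NeZero N] in
theorem qCoeff_zero_form (n : ℕ) : qCoeff ⇑(0 : CuspForm (Gamma0 N) 2) n = 0 := by
  have h := Fermat.Agent.S49.qCoeff_sub (0 : CuspForm (Gamma0 N) 2) 0 n
  rw [sub_self, sub_self] at h
  exact h

/-- STEP I, integral multiple form: a cusp form with rational `q`-coefficients has a nonzero
integer multiple with integral `q`-coefficients, provided the Hecke algebra is finitely
generated over `ℤ`. -/
theorem exists_int_multiple (hfin : Module.Finite ℤ (heckeAlgebra N 2 ∅))
    (f : CuspForm (Gamma0 N) 2) (hf : IsRatForm f) :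
    ∃ D : ℤ, D ≠ 0 ∧ ∀ n : ℕ, ∃ m : ℤ, qCoeff ⇑((D : ℂ) • f) n = (m : ℂ) := by
  classical
  obtain ⟨s, hs⟩ := hfin.fg_top
  have hrat : ∀ t : heckeAlgebra N 2 ∅, ∃ r : ℚ,
      qCoeff ⇑((t : Module.End ℂ (CuspForm (Gamma0 N) 2)) f) 1 = (r : ℂ) :=
    fun t => isRatForm_hecke t.2 f hf 1
  choose r hr using hrat
  obtain ⟨D, hD0, hD⟩ := exists_common_den s r
  refine ⟨D, hD0, ?_⟩
  -- the key property for every element of the Hecke algebra
  have key : ∀ t : heckeAlgebra N 2 ∅, ∃ m : ℤ,
      (D : ℂ) * qCoeff ⇑((t : Module.End ℂ (CuspForm (Gamma0 N) 2)) f) 1 = (m : ℂ) := by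
    intro t
    have ht : t ∈ Submodule.span ℤ (s : Set (heckeAlgebra N 2 ∅)) := by
      rw [hs]; exact Submodule.mem_top
    induction ht using Submodule.span_induction with
    | mem t ht =>
      obtain ⟨m, hm⟩ := hD t ht
      refine ⟨m, ?_⟩
      rw [hr t]
      have := congrArg (fun x : ℚ => (x : ℂ)) hm
      simpa using this
    | zero =>
      refine ⟨0, ?_⟩
      rw [ZeroMemClass.coe_zero, LinearMap.zero_apply, qCoeff_zero_form]
      simp
    | add t₁ t₂ _ _ h₁ h₂ =>
      obtain ⟨m₁, hm₁⟩ := h₁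
      obtain ⟨m₂, hm₂⟩ := h₂
      refine ⟨m₁ + m₂, ?_⟩
      rw [Subalgebra.coe_add, LinearMap.add_apply, Fermat.Agent.S49.qCoeff_add, mul_add,
        hm₁, hm₂]
      push_cast
      ring
    | smul z t _ h =>
      obtain ⟨m, hm⟩ := h
      refine ⟨z * m, ?_⟩
      have hz : ((z • t : heckeAlgebra N 2 ∅) : Module.End ℂ (CuspForm (Gamma0 N) 2)) f
          = (z : ℂ) • ((t : Module.End ℂ (CuspForm (Gamma0 N) 2)) f) := by
        rw [Subalgebra.coe_smul, LinearMap.smul_apply, ← Int.cast_smul_eq_zsmul ℂ]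
      rw [hz, Fermat.Agent.S49.qCoeff_smul]
      push_cast
      rw [← hm]
      ring
  intro n
  rw [Fermat.Agent.S49.qCoeff_smul]
  rcases Nat.eq_zero_or_pos n with rfl | hn
  · refine ⟨0, ?_⟩
    rw [Fermat.Agent.S49.qCoeff_coeff_zero]
    simp
  · obtain ⟨T, hT, hTc⟩ := exists_hecke_coeff_one (N := N) n hn
    obtain ⟨m, hm⟩ := key ⟨T, hT⟩
    exact ⟨m, by rw [← hTc f]; exact hm⟩

/-- STEP I: a cusp form with rational `q`-coefficients lies in the `ℂ`-span of the integral
lattice, provided the Hecke algebra is finitely generated over `ℤ`. -/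
theorem mem_span_intLattice_of_isRatForm (hfin : Module.Finite ℤ (heckeAlgebra N 2 ∅))
    (f : CuspForm (Gamma0 N) 2) (hf : IsRatForm f) :
    f ∈ Submodule.span ℂ ((CuspForm.intLattice N 2 :
      Submodule ℤ (CuspForm (Gamma0 N) 2)) : Set (CuspForm (Gamma0 N) 2)) := by
  obtain ⟨D, hD0, hD⟩ := exists_int_multiple hfin f hf
  have hg : (D : ℂ) • f ∈ CuspForm.intLattice N 2 :=
    (Fermat.Agent.S49.mem_intLattice_iff _).2 hD
  have hDC : (D : ℂ) ≠ 0 := by exact_mod_cast hD0
  have hfe : f = (D : ℂ)⁻¹ • ((D : ℂ) • f) := by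
    rw [smul_smul, inv_mul_cancel₀ hDC, one_smul]
  rw [hfe]
  exact Submodule.smul_mem _ _ (Submodule.subset_span hg)

/-- If the cusp forms with rational `q`-coefficients span, then `S₂(Γ₀(N))` has an integral
structure (given finite generation of the Hecke algebra). -/
theorem hasIntegralStructure_of_span_isRatForm
    (hfin : Module.Finite ℤ (heckeAlgebra N 2 ∅))
    (h : Submodule.span ℂ {f : CuspForm (Gamma0 N) 2 | IsRatForm f} = ⊤) :
    CuspForm.HasIntegralStructure N 2 := by
  unfold CuspForm.HasIntegralStructure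
  rw [eq_top_iff, ← h]
  exact Submodule.span_le.2 fun f hf => mem_span_intLattice_of_isRatForm hfin f hf

end Coefficient

end Fermat.Agent.S23.H9
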