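import Mathlib
import Fermat.Prelude.Def_FLTPrelim_Modularity

/-!
# Work package R5b of S23: conjugation of `q`-expansions

Two functions `x y : ℍ → ℂ`, both `1`-periodic, holomorphic and bounded at `i∞`, are
`σ`-related if the `q`-expansion of `y` is obtained from that of `x` by applying the ring
homomorphism `σ` to all coefficients.  This relation is compatible with sums and products.
-/

set_option autoImplicit false

namespace Fermat.Agent.S23.R5

open UpperHalfPlane Filter Topology

open scoped MatrixGroups ModularForm Manifold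

/-- Functions on `ℍ` with a good `q`-expansion at `i∞` (for the period `1`). -/
structure NiceAtInf (x : ℍ → ℂ) : Prop where
  periodic : Function.Periodic (x ∘ ofComplex) 1
  holo : MDiff x
  bdd : IsBoundedAtImInfty x

namespace NiceAtInf

variable {x y : ℍ → ℂ}

lemma analyticAt (hx : NiceAtInf x) : AnalyticAt ℂ (cuspFunction 1 x) 0 :=
  analyticAt_cuspFunction_zero one_pos hx.periodic hx.holo hx.bdd

lemma zero : NiceAtInf (0 : ℍ → ℂ) :=
  ⟨fun _ => rfl, mdifferentiable_const (c := (0 : ℂ)), Filter.const_boundedAtFilter _ (0 : ℂ)⟩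

lemma const (c : ℂ) : NiceAtInf (fun _ : ℍ => c) :=
  ⟨fun _ => rfl, mdifferentiable_const, Filter.const_boundedAtFilter _ c⟩

lemma one : NiceAtInf (1 : ℍ → ℂ) := const 1

lemma add (hx : NiceAtInf x) (hy : NiceAtInf y) : NiceAtInf (x + y) :=
  ⟨fun w => by
      have h1 := hx.periodic w
      have h2 := hy.periodic w
      simp only [Function.comp_apply, Pi.add_apply] at h1 h2 ⊢
      rw [h1, h2],
    hx.holo.add hy.holo, hx.bdd.add hy.bdd⟩

lemma mul (hx : NiceAtInf x) (hy : NiceAtInf y) : NiceAtInf (x * y) :=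
  ⟨fun w => by
      have h1 := hx.periodic w
      have h2 := hy.periodic w
      simp only [Function.comp_apply, Pi.mul_apply] at h1 h2 ⊢
      rw [h1, h2],
    hx.holo.mul hy.holo, hx.bdd.mul hy.bdd⟩

lemma smul (c : ℂ) (hx : NiceAtInf x) : NiceAtInf (c • x) := by
  have := (const c).mul hx
  exact this

lemma neg (hx : NiceAtInf x) : NiceAtInf (-x) := by
  have := hx.smul (-1)
  simpa using this

lemma sub (hx : NiceAtInf x) (hy : NiceAtInf y) : NiceAtInf (x - y) := by
  rw [sub_eq_add_neg]
  exact hx.add hy.neg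

lemma pow (hx : NiceAtInf x) (n : ℕ) : NiceAtInf (x ^ n) := by
  induction n with
  | zero => simpa using one
  | succ n ih => rw [pow_succ]; exact ih.mul hx

lemma sum {ι : Type*} (s : Finset ι) {x : ι → ℍ → ℂ} (h : ∀ i ∈ s, NiceAtInf (x i)) :
    NiceAtInf (∑ i ∈ s, x i) := by
  classical
  induction s using Finset.induction_on with
  | empty => simpa using zero
  | insert a s ha ih =>
    rw [Finset.sum_insert ha]
    exact (h a (Finset.mem_insert_self a s)).add
      (ih fun i hi => h i (Finset.mem_insert_of_mem hi))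

lemma prod {ι : Type*} (s : Finset ι) {x : ι → ℍ → ℂ} (h : ∀ i ∈ s, NiceAtInf (x i)) :
    NiceAtInf (∏ i ∈ s, x i) := by
  classical
  induction s using Finset.induction_on with
  | empty => simpa using one
  | insert a s ha ih =>
    rw [Finset.prod_insert ha]
    exact (h a (Finset.mem_insert_self a s)).mul
      (ih fun i hi => h i (Finset.mem_insert_of_mem hi))

/-- Modular forms on a group containing the translation by `1` are nice at `i∞`. -/
lemma of_modularForm {Γ : Subgroup (GL (Fin 2) ℝ)} {k : ℤ} {F : Type*} [FunLike F ℍ ℂ]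
    [ModularFormClass F Γ k] (f : F) (hΓ : (1 : ℝ) ∈ Γ.strictPeriods) :
    NiceAtInf (f : ℍ → ℂ) :=
  ⟨SlashInvariantFormClass.periodic_comp_ofComplex f hΓ, ModularFormClass.holo f,
    haveI : Fact (IsCusp OnePoint.infty Γ) := ⟨Γ.isCusp_of_mem_strictPeriods one_pos hΓ⟩
    ModularFormClass.bdd_at_infty f⟩

lemma eq_zero_of_qExpansion (hx : NiceAtInf x) (h : qExpansion 1 x = 0) : x = 0 :=
  (qExpansion_eq_zero_iff one_pos hx.periodic hx.holo hx.bdd).mp h

lemma eq_of_qExpansion (hx : NiceAtInf x) (hy : NiceAtInf y)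
    (h : qExpansion 1 x = qExpansion 1 y) : x = y := by
  have := (hx.sub hy).eq_zero_of_qExpansion
    (by rw [qExpansion_sub hx.analyticAt hy.analyticAt, h, sub_self])
  exact sub_eq_zero.mp this

end NiceAtInf

/-- `y` is the `σ`-conjugate of `x`: the `q`-expansion of `y` is `σ` applied to that of `x`. -/
structure QRel (σ : ℂ →+* ℂ) (x y : ℍ → ℂ) : Prop where
  left : NiceAtInf x
  right : NiceAtInf y
  qExp : qExpansion 1 y = (qExpansion 1 x).map σ

namespace QRel

variable {σ : ℂ →+* ℂ} {x y x' y' : ℍ → ℂ}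

lemma zero : QRel σ 0 0 := ⟨.zero, .zero, by simp [qExpansion_zero]⟩

lemma one : QRel σ 1 1 := ⟨.one, .one, by simp [qExpansion_one]⟩

lemma add (h : QRel σ x y) (h' : QRel σ x' y') : QRel σ (x + x') (y + y') :=
  ⟨h.left.add h'.left, h.right.add h'.right, by
    rw [qExpansion_add h.right.analyticAt h'.right.analyticAt,
      qExpansion_add h.left.analyticAt h'.left.analyticAt, h.qExp, h'.qExp, map_add]⟩

lemma mul (h : QRel σ x y) (h' : QRel σ x' y') : QRel σ (x * x') (y * y') :=
  ⟨h.left.mul h'.left, h.right.mul h'.right, by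
    rw [qExpansion_mul h.right.analyticAt h'.right.analyticAt,
      qExpansion_mul h.left.analyticAt h'.left.analyticAt, h.qExp, h'.qExp, map_mul]⟩

lemma smul (c : ℂ) (h : QRel σ x y) : QRel σ (c • x) (σ c • y) :=
  ⟨h.left.smul c, h.right.smul (σ c), by
    rw [qExpansion_smul h.right.analyticAt, qExpansion_smul h.left.analyticAt, h.qExp]
    ext n
    simp⟩

lemma neg (h : QRel σ x y) : QRel σ (-x) (-y) := by
  have := h.smul (-1)
  simpa using this

lemma sub (h : QRel σ x y) (h' : QRel σ x' y') : QRel σ (x - x') (y - y') := by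
  rw [sub_eq_add_neg, sub_eq_add_neg]
  exact h.add h'.neg

lemma pow (h : QRel σ x y) (n : ℕ) : QRel σ (x ^ n) (y ^ n) := by
  induction n with
  | zero => simpa using one
  | succ n ih => rw [pow_succ, pow_succ]; exact ih.mul h

lemma sum {ι : Type*} (s : Finset ι) {x y : ι → ℍ → ℂ} (h : ∀ i ∈ s, QRel σ (x i) (y i)) :
    QRel σ (∑ i ∈ s, x i) (∑ i ∈ s, y i) := by
  classical
  induction s using Finset.induction_on with
  | empty => simpa using zero
  | insert a s ha ih =>
    rw [Finset.sum_insert ha, Finset.sum_insert ha]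
    exact (h a (Finset.mem_insert_self a s)).add
      (ih fun i hi => h i (Finset.mem_insert_of_mem hi))

lemma prod {ι : Type*} (s : Finset ι) {x y : ι → ℍ → ℂ} (h : ∀ i ∈ s, QRel σ (x i) (y i)) :
    QRel σ (∏ i ∈ s, x i) (∏ i ∈ s, y i) := by
  classical
  induction s using Finset.induction_on with
  | empty => simpa using one
  | insert a s ha ih =>
    rw [Finset.prod_insert ha, Finset.prod_insert ha]
    exact (h a (Finset.mem_insert_self a s)).mul
      (ih fun i hi => h i (Finset.mem_insert_of_mem hi))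

/-- The coefficientwise form of the relation. -/
lemma qCoeff_eq (h : QRel σ x y) (n : ℕ) :
    ModularFormClass.qCoeff y n = σ (ModularFormClass.qCoeff x n) := by
  unfold ModularFormClass.qCoeff
  rw [h.qExp, PowerSeries.coeff_map]

lemma of_qCoeff (hx : NiceAtInf x) (hy : NiceAtInf y)
    (h : ∀ n, ModularFormClass.qCoeff y n = σ (ModularFormClass.qCoeff x n)) : QRel σ x y :=
  ⟨hx, hy, by
    ext n
    rw [PowerSeries.coeff_map]
    exact h n⟩

/-- A function whose `q`-expansion is fixed by `σ` is related to itself. -/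
lemma refl_of_fixed (hx : NiceAtInf x) (h : ∀ n, σ ((qExpansion 1 x).coeff n) =
    (qExpansion 1 x).coeff n) : QRel σ x x :=
  ⟨hx, hx, by
    ext n
    rw [PowerSeries.coeff_map, h n]⟩

/-- A function with rational `q`-expansion is related to itself. -/
lemma refl_of_rat (hx : NiceAtInf x) (h : ∀ n, ∃ r : ℚ, (qExpansion 1 x).coeff n = (r : ℂ)) :
    QRel σ x x :=
  refl_of_fixed hx fun n => by
    obtain ⟨r, hr⟩ := h n
    rw [hr, map_ratCast]

lemma eq_zero (h : QRel σ x y) (hx : x = 0) : y = 0 := by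
  apply h.right.eq_zero_of_qExpansion
  rw [h.qExp, hx, qExpansion_zero, map_zero]

lemma ne_zero (h : QRel σ x y) (hx : x ≠ 0) : y ≠ 0 := by
  intro hy
  apply hx
  apply h.left.eq_zero_of_qExpansion
  have := h.qExp
  rw [hy, qExpansion_zero] at this
  ext n
  have hn := congrArg (fun p => PowerSeries.coeff n p) this
  simp only [map_zero, PowerSeries.coeff_map] at hn
  rw [map_zero]
  exact (map_eq_zero σ).mp hn.symm

/-- The conjugate is unique. -/
lemma unique (h : QRel σ x y) (h' : QRel σ x y') : y = y' :=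
  h.right.eq_of_qExpansion h'.right (by rw [h.qExp, h'.qExp])

/-- Cancellation: if `g * b = a`, `b₀ ≠ 0`, `f * b₀ = a₀` with `a₀ ~ a`, `b₀ ~ b`, then
`f ~ g`. -/
lemma of_mul_eq {f g a a₀ b b₀ : ℍ → ℂ} (hf : NiceAtInf f) (hg : NiceAtInf g)
    (ha : QRel σ a₀ a) (hb : QRel σ b₀ b) (hb₀ : b₀ ≠ 0)
    (h₀ : f * b₀ = a₀) (h : g * b = a) : QRel σ f g := by
  refine ⟨hf, hg, ?_⟩
  have hbne : qExpansion 1 b ≠ 0 := by
    intro h0
    exact hb.ne_zero hb₀ (hb.right.eq_zero_of_qExpansion h0)
  have e1 : qExpansion 1 g * qExpansion 1 b = qExpansion 1 a := by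
    rw [← qExpansion_mul hg.analyticAt hb.right.analyticAt, h]
  have e2 : qExpansion 1 f * qExpansion 1 b₀ = qExpansion 1 a₀ := by
    rw [← qExpansion_mul hf.analyticAt hb.left.analyticAt, h₀]
  have e3 : (qExpansion 1 f).map σ * qExpansion 1 b = qExpansion 1 a := by
    rw [ha.qExp, ← e2, map_mul, hb.qExp]
  exact mul_right_cancel₀ hbne (e1.trans e3.symm)

end QRel

end Fermat.Agent.S23.R5
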