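import Mathlib
import Fermat.Prelude.Def_FLTPrelim_Modularity
import Fermat.Prelude.Thm_CongruenceSubgroup_one_mem_strictPeriods_Gamma0

/-!
# S23, step R5 (part 1): conjugation calculus on q-expansions (owner: helper1)

* `QConj σ x y` : the q-expansion of `y` is the `σ`-conjugate of the q-expansion of `x`.
* `IsMF N k x` : the function `x : ℍ → ℂ` is a modular form of weight `k` on `Γ₀(N)`.
* `ConjPair N σ k x y` : `x`, `y` are modular forms of weight `k` on `Γ₀(N)` and `QConj σ x y`.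
* `HasConj N k x` : `x` is a modular form of weight `k` on `Γ₀(N)` and for every automorphism
  `σ` of `ℂ` there is a modular form `y` of the same weight and level with `QConj σ x y`.

Everything is stated for functions `ℍ → ℂ`, so that no casts between weights occur in
statements; weights are bookkept by side conditions such as `k₁ + k₂ = k`.
-/

set_option autoImplicit false

namespace Fermat.Agent.S23.R5

open UpperHalfPlane ModularFormClass CongruenceSubgroup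
open scoped MatrixGroups ModularForm Manifold

/-- The q-expansion of `y` is the `σ`-conjugate of the q-expansion of `x`. -/
def QConj (σ : ℂ ≃+* ℂ) (x y : ℍ → ℂ) : Prop :=
  ∀ n : ℕ, qCoeff y n = σ (qCoeff x n)

theorem qConj_iff (σ : ℂ ≃+* ℂ) (x y : ℍ → ℂ) :
    QConj σ x y ↔ qExpansion 1 y = (qExpansion 1 x).map (σ : ℂ →+* ℂ) := by
  constructor
  · intro h
    ext n
    simpa [qCoeff] using h n
  · intro h n
    simp [qCoeff, h]

theorem map_sigma_injective (σ : ℂ ≃+* ℂ) :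
    Function.Injective (PowerSeries.map (σ : ℂ →+* ℂ)) := by
  intro p q h
  ext n
  have := congrArg (fun t => PowerSeries.coeff n t) h
  simpa using this

variable {N : ℕ}

/-- analyticity of the cusp function of a modular form on `Γ₀(N)` (period `1`). -/
theorem analyticAt_cusp {k : ℤ} (X : ModularForm (Gamma0 N) k) :
    AnalyticAt ℂ (cuspFunction 1 X) 0 :=
  ModularFormClass.analyticAt_cuspFunction_zero X one_pos
    (CongruenceSubgroup.one_mem_strictPeriods_Gamma0 N)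

theorem qExpansion_eq_zero {k : ℤ} {X : ModularForm (Gamma0 N) k}
    (h : qExpansion 1 X = 0) : X = 0 :=
  (ModularForm.qExpansion_eq_zero_iff one_pos
    (CongruenceSubgroup.one_mem_strictPeriods_Gamma0 N) X).mp h

theorem qExpansion_injective {k : ℤ} {X Y : ModularForm (Gamma0 N) k}
    (h : qExpansion 1 X = qExpansion 1 Y) : X = Y := by
  have h1 : qExpansion 1 (⇑(X - Y) : ℍ → ℂ) = 0 := by
    have := ModularForm.qExpansion_sub one_pos
      (CongruenceSubgroup.one_mem_strictPeriods_Gamma0 N) X Y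
    have hc : (⇑(X - Y) : ℍ → ℂ) = ⇑X - ⇑Y := rfl
    rw [hc, this, h, sub_self]
  exact sub_eq_zero.mp (qExpansion_eq_zero h1)

/-! ### `IsMF` -/

/-- `x` is (the function of) a modular form of weight `k` on `Γ₀(N)`. -/
def IsMF (N : ℕ) (k : ℤ) (x : ℍ → ℂ) : Prop :=
  ∃ X : ModularForm (Gamma0 N) k, ⇑X = x

theorem isMF_coe {k : ℤ} (X : ModularForm (Gamma0 N) k) : IsMF N k X := ⟨X, rfl⟩

theorem isMF_coe_cusp {k : ℤ} (X : CuspForm (Gamma0 N) k) : IsMF N k X :=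
  ⟨⟨X.toSlashInvariantForm, X.holo', fun hc γ hγ =>
    (X.zero_at_cusps' hc γ hγ).boundedAtFilter⟩, rfl⟩

theorem IsMF.analyticAt {k : ℤ} {x : ℍ → ℂ} (hx : IsMF N k x) :
    AnalyticAt ℂ (cuspFunction 1 x) 0 := by
  obtain ⟨X, rfl⟩ := hx
  exact analyticAt_cusp X

theorem IsMF.eq_zero_of_qExpansion {k : ℤ} {x : ℍ → ℂ} (hx : IsMF N k x)
    (h : qExpansion 1 x = 0) : x = 0 := by
  obtain ⟨X, rfl⟩ := hx
  rw [qExpansion_eq_zero h]
  rfl

theorem IsMF.cast {k k' : ℤ} {x : ℍ → ℂ} (hx : IsMF N k x) (hk : k = k') : IsMF N k' x := by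
  subst hk; exact hx

theorem IsMF.add {k : ℤ} {x y : ℍ → ℂ} (hx : IsMF N k x) (hy : IsMF N k y) :
    IsMF N k (x + y) := by
  obtain ⟨X, rfl⟩ := hx
  obtain ⟨Y, rfl⟩ := hy
  exact ⟨X + Y, rfl⟩

theorem IsMF.smul {k : ℤ} {x : ℍ → ℂ} (hx : IsMF N k x) (c : ℂ) :
    IsMF N k (c • x) := by
  obtain ⟨X, rfl⟩ := hx
  exact ⟨c • X, rfl⟩

theorem IsMF.neg {k : ℤ} {x : ℍ → ℂ} (hx : IsMF N k x) : IsMF N k (-x) := by
  obtain ⟨X, rfl⟩ := hx
  exact ⟨-X, rfl⟩

theorem IsMF.sub {k : ℤ} {x y : ℍ → ℂ} (hx : IsMF N k x) (hy : IsMF N k y) :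
    IsMF N k (x - y) := by
  rw [sub_eq_add_neg]; exact hx.add hy.neg

theorem IsMF.mul {k₁ k₂ k : ℤ} {x y : ℍ → ℂ} (hx : IsMF N k₁ x) (hy : IsMF N k₂ y)
    (hk : k₁ + k₂ = k) : IsMF N k (x * y) := by
  obtain ⟨X, rfl⟩ := hx
  obtain ⟨Y, rfl⟩ := hy
  exact ⟨ModularForm.mcast hk (X.mul Y) rfl, rfl⟩

theorem isMF_zero (k : ℤ) : IsMF N k 0 := ⟨0, rfl⟩

theorem isMF_one : IsMF N 0 1 := ⟨1, rfl⟩

theorem IsMF.pow {k : ℤ} {x : ℍ → ℂ} (hx : IsMF N k x) (n : ℕ) (m : ℤ)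
    (hm : n * k = m) : IsMF N m (x ^ n) := by
  induction n generalizing m with
  | zero =>
    have : m = 0 := by simpa using hm.symm
    subst this
    simpa using (isMF_one (N := N))
  | succ n ih =>
    rw [pow_succ]
    refine (ih (n * k) rfl).mul hx ?_
    rw [← hm]; push_cast; ring

theorem IsMF.sum {ι : Type*} (s : Finset ι) {k : ℤ} {x : ι → ℍ → ℂ}
    (hx : ∀ i ∈ s, IsMF N k (x i)) : IsMF N k (∑ i ∈ s, x i) := by
  classical
  induction s using Finset.induction_on with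
  | empty => simpa using isMF_zero (N := N) k
  | insert a s ha ih =>
    rw [Finset.sum_insert ha]
    exact (hx a (Finset.mem_insert_self a s)).add
      (ih fun i hi => hx i (Finset.mem_insert_of_mem hi))

/-! ### `ConjPair` -/

/-- `x`, `y` are modular forms of weight `k` on `Γ₀(N)` with `σ`-conjugate q-expansions. -/
structure ConjPair (N : ℕ) (σ : ℂ ≃+* ℂ) (k : ℤ) (x y : ℍ → ℂ) : Prop where
  left : IsMF N k x
  right : IsMF N k y
  conj : QConj σ x y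

theorem ConjPair.qExpansion_eq {σ : ℂ ≃+* ℂ} {k : ℤ} {x y : ℍ → ℂ}
    (h : ConjPair N σ k x y) : qExpansion 1 y = (qExpansion 1 x).map (σ : ℂ →+* ℂ) :=
  (qConj_iff σ x y).mp h.conj

theorem ConjPair.mk' {σ : ℂ ≃+* ℂ} {k : ℤ} {x y : ℍ → ℂ} (hx : IsMF N k x)
    (hy : IsMF N k y) (h : qExpansion 1 y = (qExpansion 1 x).map (σ : ℂ →+* ℂ)) :
    ConjPair N σ k x y :=
  ⟨hx, hy, (qConj_iff σ x y).mpr h⟩

theorem ConjPair.cast {σ : ℂ ≃+* ℂ} {k k' : ℤ} {x y : ℍ → ℂ}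
    (h : ConjPair N σ k x y) (hk : k = k') : ConjPair N σ k' x y := by
  subst hk; exact h

theorem ConjPair.add {σ : ℂ ≃+* ℂ} {k : ℤ} {x y x' y' : ℍ → ℂ}
    (hx : ConjPair N σ k x x') (hy : ConjPair N σ k y y') :
    ConjPair N σ k (x + y) (x' + y') := by
  refine ConjPair.mk' (hx.left.add hy.left) (hx.right.add hy.right) ?_
  rw [qExpansion_add hx.right.analyticAt hy.right.analyticAt,
    qExpansion_add hx.left.analyticAt hy.left.analyticAt, hx.qExpansion_eq,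
    hy.qExpansion_eq, map_add]

theorem ConjPair.smul {σ : ℂ ≃+* ℂ} {k : ℤ} {x x' : ℍ → ℂ}
    (hx : ConjPair N σ k x x') (c : ℂ) : ConjPair N σ k (c • x) (σ c • x') := by
  refine ConjPair.mk' (hx.left.smul c) (hx.right.smul _) ?_
  rw [qExpansion_smul hx.right.analyticAt, qExpansion_smul hx.left.analyticAt,
    hx.qExpansion_eq]
  ext n
  simp

theorem ConjPair.neg {σ : ℂ ≃+* ℂ} {k : ℤ} {x x' : ℍ → ℂ}
    (hx : ConjPair N σ k x x') : ConjPair N σ k (-x) (-x') := by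
  have := hx.smul (-1)
  simpa using this

theorem ConjPair.sub {σ : ℂ ≃+* ℂ} {k : ℤ} {x y x' y' : ℍ → ℂ}
    (hx : ConjPair N σ k x x') (hy : ConjPair N σ k y y') :
    ConjPair N σ k (x - y) (x' - y') := by
  rw [sub_eq_add_neg, sub_eq_add_neg]
  exact hx.add hy.neg

theorem ConjPair.mul {σ : ℂ ≃+* ℂ} {k₁ k₂ k : ℤ} {x y x' y' : ℍ → ℂ}
    (hx : ConjPair N σ k₁ x x') (hy : ConjPair N σ k₂ y y') (hk : k₁ + k₂ = k) :
    ConjPair N σ k (x * y) (x' * y') := by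
  refine ConjPair.mk' (hx.left.mul hy.left hk) (hx.right.mul hy.right hk) ?_
  rw [qExpansion_mul hx.right.analyticAt hy.right.analyticAt,
    qExpansion_mul hx.left.analyticAt hy.left.analyticAt, hx.qExpansion_eq,
    hy.qExpansion_eq, map_mul]

theorem conjPair_zero (σ : ℂ ≃+* ℂ) (k : ℤ) : ConjPair N σ k 0 0 := by
  refine ConjPair.mk' (isMF_zero k) (isMF_zero k) ?_
  rw [qExpansion_zero, map_zero]

theorem conjPair_one (σ : ℂ ≃+* ℂ) : ConjPair N σ 0 1 1 := by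
  refine ConjPair.mk' isMF_one isMF_one ?_
  rw [qExpansion_one, map_one]

theorem ConjPair.pow {σ : ℂ ≃+* ℂ} {k : ℤ} {x x' : ℍ → ℂ}
    (hx : ConjPair N σ k x x') (n : ℕ) (m : ℤ) (hm : n * k = m) :
    ConjPair N σ m (x ^ n) (x' ^ n) := by
  induction n generalizing m with
  | zero =>
    have : m = 0 := by simpa using hm.symm
    subst this
    simpa using (conjPair_one (N := N) σ)
  | succ n ih =>
    rw [pow_succ, pow_succ]
    refine (ih (n * k) rfl).mul hx ?_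
    rw [← hm]; push_cast; ring

theorem ConjPair.sum {σ : ℂ ≃+* ℂ} {ι : Type*} (s : Finset ι) {k : ℤ}
    {x x' : ι → ℍ → ℂ} (hx : ∀ i ∈ s, ConjPair N σ k (x i) (x' i)) :
    ConjPair N σ k (∑ i ∈ s, x i) (∑ i ∈ s, x' i) := by
  classical
  induction s using Finset.induction_on with
  | empty => simpa using conjPair_zero (N := N) σ k
  | insert a s ha ih =>
    rw [Finset.sum_insert ha, Finset.sum_insert ha]
    exact (hx a (Finset.mem_insert_self a s)).add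
      (ih fun i hi => hx i (Finset.mem_insert_of_mem hi))

/-- if `x = 0` then its conjugate vanishes. -/
theorem ConjPair.eq_zero {σ : ℂ ≃+* ℂ} {k : ℤ} {x x' : ℍ → ℂ}
    (hx : ConjPair N σ k x x') (h0 : x = 0) : x' = 0 := by
  apply hx.right.eq_zero_of_qExpansion
  rw [hx.qExpansion_eq, h0, qExpansion_zero, map_zero]

/-- if `x ≠ 0` then its conjugate does not vanish. -/
theorem ConjPair.ne_zero {σ : ℂ ≃+* ℂ} {k : ℤ} {x x' : ℍ → ℂ}
    (hx : ConjPair N σ k x x') (h0 : x ≠ 0) : x' ≠ 0 := by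
  intro h
  apply h0
  apply hx.left.eq_zero_of_qExpansion
  apply map_sigma_injective σ
  rw [← hx.qExpansion_eq, h, qExpansion_zero, map_zero]

/-! ### `HasConj` -/

/-- `x` is a modular form of weight `k` on `Γ₀(N)` all of whose `Aut(ℂ)`-conjugates exist. -/
def HasConj (N : ℕ) (k : ℤ) (x : ℍ → ℂ) : Prop :=
  ∀ σ : ℂ ≃+* ℂ, ∃ y : ℍ → ℂ, ConjPair N σ k x y

theorem HasConj.isMF {k : ℤ} {x : ℍ → ℂ} (hx : HasConj N k x) : IsMF N k x :=
  (hx (RingEquiv.refl ℂ)).choose_spec.left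

theorem HasConj.exists_modularForm {k : ℤ} {x : ℍ → ℂ} (hx : HasConj N k x)
    (σ : ℂ ≃+* ℂ) : ∃ Y : ModularForm (Gamma0 N) k, ∀ n, qCoeff Y n = σ (qCoeff x n) := by
  obtain ⟨y, hy⟩ := hx σ
  obtain ⟨Y, rfl⟩ := hy.right
  exact ⟨Y, hy.conj⟩

theorem hasConj_iff {k : ℤ} {x : ℍ → ℂ} :
    HasConj N k x ↔ IsMF N k x ∧
      ∀ σ : ℂ ≃+* ℂ, ∃ Y : ModularForm (Gamma0 N) k, ∀ n, qCoeff Y n = σ (qCoeff x n) := by
  constructor
  · intro h
    exact ⟨h.isMF, h.exists_modularForm⟩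
  · rintro ⟨h1, h2⟩ σ
    obtain ⟨Y, hY⟩ := h2 σ
    exact ⟨Y, h1, isMF_coe Y, hY⟩

theorem HasConj.cast {k k' : ℤ} {x : ℍ → ℂ} (hx : HasConj N k x) (hk : k = k') :
    HasConj N k' x := by
  subst hk; exact hx

theorem HasConj.add {k : ℤ} {x y : ℍ → ℂ} (hx : HasConj N k x) (hy : HasConj N k y) :
    HasConj N k (x + y) := fun σ => by
  obtain ⟨x', hx'⟩ := hx σ
  obtain ⟨y', hy'⟩ := hy σ
  exact ⟨_, hx'.add hy'⟩

theorem HasConj.smul {k : ℤ} {x : ℍ → ℂ} (hx : HasConj N k x) (c : ℂ) :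
    HasConj N k (c • x) := fun σ => by
  obtain ⟨x', hx'⟩ := hx σ
  exact ⟨_, hx'.smul c⟩

theorem HasConj.neg {k : ℤ} {x : ℍ → ℂ} (hx : HasConj N k x) : HasConj N k (-x) :=
  fun σ => by
  obtain ⟨x', hx'⟩ := hx σ
  exact ⟨_, hx'.neg⟩

theorem HasConj.sub {k : ℤ} {x y : ℍ → ℂ} (hx : HasConj N k x) (hy : HasConj N k y) :
    HasConj N k (x - y) := fun σ => by
  obtain ⟨x', hx'⟩ := hx σ
  obtain ⟨y', hy'⟩ := hy σ
  exact ⟨_, hx'.sub hy'⟩

theorem HasConj.mul {k₁ k₂ k : ℤ} {x y : ℍ → ℂ} (hx : HasConj N k₁ x)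
    (hy : HasConj N k₂ y) (hk : k₁ + k₂ = k) : HasConj N k (x * y) := fun σ => by
  obtain ⟨x', hx'⟩ := hx σ
  obtain ⟨y', hy'⟩ := hy σ
  exact ⟨_, hx'.mul hy' hk⟩

theorem hasConj_zero (k : ℤ) : HasConj N k 0 := fun σ => ⟨0, conjPair_zero σ k⟩

theorem hasConj_one : HasConj N 0 1 := fun σ => ⟨1, conjPair_one σ⟩

theorem HasConj.pow {k : ℤ} {x : ℍ → ℂ} (hx : HasConj N k x) (n : ℕ) (m : ℤ)
    (hm : n * k = m) : HasConj N m (x ^ n) := fun σ => by
  obtain ⟨x', hx'⟩ := hx σ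
  exact ⟨_, hx'.pow n m hm⟩

theorem HasConj.sum {ι : Type*} (s : Finset ι) {k : ℤ} {x : ι → ℍ → ℂ}
    (hx : ∀ i ∈ s, HasConj N k (x i)) : HasConj N k (∑ i ∈ s, x i) := by
  classical
  induction s using Finset.induction_on with
  | empty => simpa using hasConj_zero (N := N) k
  | insert a s ha ih =>
    rw [Finset.sum_insert ha]
    exact (hx a (Finset.mem_insert_self a s)).add
      (ih fun i hi => hx i (Finset.mem_insert_of_mem hi))

/-- A modular form with rational q-coefficients has all conjugates (itself). -/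
theorem hasConj_of_rat {k : ℤ} (X : ModularForm (Gamma0 N) k)
    (hX : ∀ n : ℕ, ∃ r : ℚ, qCoeff X n = (r : ℂ)) : HasConj N k X := fun σ => by
  refine ⟨X, isMF_coe X, isMF_coe X, fun n => ?_⟩
  obtain ⟨r, hr⟩ := hX n
  rw [hr, map_ratCast]

/-! ### Level-one forms as forms on `Γ₀(N)` -/

theorem gamma0_le_levelOne (N : ℕ) :
    (Subgroup.map (Matrix.SpecialLinearGroup.mapGL ℝ) (Gamma0 N)) ≤ 𝒮ℒ := by
  rintro _ ⟨γ, -, rfl⟩
  exact ⟨γ, rfl⟩

/-- A level-one modular form, viewed as a modular form on `Γ₀(N)`. -/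
def restrictMF (N : ℕ) {k : ℤ} (c : ModularForm 𝒮ℒ k) : ModularForm (Gamma0 N) k where
  toFun := c
  slash_action_eq' γ hγ := c.slash_action_eq' γ (gamma0_le_levelOne N hγ)
  holo' := c.holo'
  bdd_at_cusps' hc := c.bdd_at_cusps' (hc.mono (gamma0_le_levelOne N))

@[simp] theorem coe_restrictMF (N : ℕ) {k : ℤ} (c : ModularForm 𝒮ℒ k) :
    (⇑(restrictMF N c) : ℍ → ℂ) = ⇑c := rfl

/-- A level-one cusp form, viewed as a cusp form on `Γ₀(N)`. -/
def restrictCF (N : ℕ) {k : ℤ} (c : CuspForm 𝒮ℒ k) : CuspForm (Gamma0 N) k where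
  toFun := c
  slash_action_eq' γ hγ := c.slash_action_eq' γ (gamma0_le_levelOne N hγ)
  holo' := c.holo'
  zero_at_cusps' hc := c.zero_at_cusps' (hc.mono (gamma0_le_levelOne N))

@[simp] theorem coe_restrictCF (N : ℕ) {k : ℤ} (c : CuspForm 𝒮ℒ k) :
    (⇑(restrictCF N c) : ℍ → ℂ) = ⇑c := rfl

theorem isMF_levelOne (N : ℕ) {k : ℤ} (c : ModularForm 𝒮ℒ k) : IsMF N k c :=
  ⟨restrictMF N c, rfl⟩

theorem isMF_levelOne_cusp (N : ℕ) {k : ℤ} (c : CuspForm 𝒮ℒ k) : IsMF N k c :=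
  isMF_coe_cusp (restrictCF N c)

/-- The shape of the level-one input `R1(c)`: every level-one modular form has all its
`Aut(ℂ)`-conjugates. -/
def LevelOneConj : Prop :=
  ∀ (k : ℤ) (c : ModularForm 𝒮ℒ k) (σ : ℂ ≃+* ℂ),
    ∃ c' : ModularForm 𝒮ℒ k, ∀ n : ℕ, qCoeff c' n = σ (qCoeff c n)

/-- The shape of the level-one input `R1(c)` for cusp forms. -/
def LevelOneCuspConj : Prop :=
  ∀ (k : ℤ) (c : CuspForm 𝒮ℒ k) (σ : ℂ ≃+* ℂ),
    ∃ c' : CuspForm 𝒮ℒ k, ∀ n : ℕ, qCoeff c' n = σ (qCoeff c n)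

theorem hasConj_of_levelOne (h1 : LevelOneConj) (N : ℕ) {k : ℤ} (c : ModularForm 𝒮ℒ k) :
    HasConj N k c := fun σ => by
  obtain ⟨c', hc'⟩ := h1 k c σ
  exact ⟨c', isMF_levelOne N c, isMF_levelOne N c', hc'⟩

theorem hasConj_of_levelOne_cusp (h1 : LevelOneCuspConj) (N : ℕ) {k : ℤ}
    (c : CuspForm 𝒮ℒ k) : HasConj N k c := fun σ => by
  obtain ⟨c', hc'⟩ := h1 k c σ
  exact ⟨c', isMF_levelOne_cusp N c, isMF_levelOne_cusp N c', hc'⟩

end Fermat.Agent.S23.R5
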