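import Fermat.Agent.S23.H1_Quotient
import Fermat.Agent.S23.R5_Scale
import Fermat.Agent.S23.H14_SpanRat
import Fermat.Agent.S23.H23_DistinctDelta

/-!
# S23, A3: every weight-2 cusp form on `Γ₀(N)` is a quotient of two modular forms in the span
of the rational forms (owner: helper1)

Instantiation of `A3.exists_rational_quotient_of` with `D := Δ(N z)`:
* `A1` (helper4): `scaleMF N Δ` is a modular form on `Γ₀(N)` with rational q-expansion;
* `A2` (helper23): the translates of `Δ(N z)` by `γ ∉ Γ₀(N)` are different from `Δ(N z)`;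
* `L1` (helper14): level-one forms are in the span of the rational level-one forms.
-/

set_option autoImplicit false

namespace Fermat.Agent.S23.A3

open UpperHalfPlane ModularFormClass CongruenceSubgroup SlashInvariantForm
open scoped MatrixGroups ModularForm Manifold

variable (N : ℕ) [NeZero N]

/-- `Δ` as a level-one modular form. -/
noncomputable def deltaMF : ModularForm 𝒮ℒ 12 :=
  CuspForm.toModularFormₗ CuspForm.discriminant

theorem coe_deltaMF : (⇑deltaMF : ℍ → ℂ) = ModularForm.discriminant := rfl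

theorem isRat_deltaMF : IsRat deltaMF := fun n => by
  simpa [qCoeff, coe_deltaMF] using R1.discriminant_qExpansion_coeff_rat n

/-- `Δ(N z)` as a modular form on `Γ₀(N)`. -/
noncomputable def deltaN : ModularForm (Gamma0 N) 12 := scaleMF N deltaMF

theorem coe_deltaN :
    (⇑(deltaN N) : ℍ → ℂ) = fun w : ℍ => ModularForm.discriminant (scaleN N w) := by
  rw [deltaN, coe_scaleMF]
  rfl

theorem isRat_deltaN : IsRat (deltaN N) := isRat_scaleMF N isRat_deltaMF

theorem quotientFunc_deltaN_ne
    (q : 𝒮ℒ ⧸ (Subgroup.map (Matrix.SpecialLinearGroup.mapGL ℝ) (Gamma0 N)).subgroupOf 𝒮ℒ)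
    (hq : q ≠ ⟦1⟧) : quotientFunc (deltaN N) q ≠ ⇑(deltaN N) := by
  induction q using Quotient.inductionOn with
  | h r =>
    obtain ⟨r, ⟨γ, rfl⟩⟩ := r
    have hγ : γ⁻¹ ∉ Gamma0 N := by
      intro hmem
      apply hq
      have hmem' : γ ∈ Gamma0 N := by simpa using (Gamma0 N).inv_mem hmem
      rw [Quotient.eq, QuotientGroup.leftRel_apply]
      rw [Subgroup.mem_subgroupOf]
      simp only [mul_one, Subgroup.coe_inv]
      exact Subgroup.inv_mem _ (Subgroup.mem_map_of_mem _ hmem')
    have h := discN_slash_ne' N γ⁻¹ hγ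
    rw [quotientFunc_mk, coe_deltaN]
    simp only [← map_inv]
    exact h

/-- **A3.** -/
theorem exists_rational_quotient (f : CuspForm (Gamma0 N) 2) :
    ∃ (k : ℤ) (a : ModularForm (Gamma0 N) (k + 2)) (b : ModularForm (Gamma0 N) k),
      b ≠ 0 ∧ (∀ z : ℍ, f z * b z = a z) ∧
      a ∈ Submodule.span ℂ (ratForms N (k + 2)) ∧ b ∈ Submodule.span ℂ (ratForms N k) :=
  exists_rational_quotient_of (fun _ c => R1.levelOne_mem_span_rat c) f (deltaN N)
    (Submodule.subset_span (isRat_deltaN N)) (quotientFunc_deltaN_ne N)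

end Fermat.Agent.S23.A3
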