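import Mathlib

/-!
# S23, A3 (part 1): the Lagrange / synthetic-division identity (owner: helper1)

Pure algebra over a field.  For a finite family `Y : ι → K` put
`e j := ∑ s ∈ powersetCard j univ, ∏ q ∈ s, Y q` (elementary symmetric functions) and
`μ := card ι`.  Then for every `q : ι` and `x : K`

  `∏ q' ∈ univ.erase q, (x - Y q') = ∑ j ≤ μ, ∑ i < μ - j, (-1)^j * e j * x^i * (Y q)^(μ-j-1-i)`.

Consequently, for a second family `Φ : ι → K` and a distinguished index `i₀`,

  `Φ i₀ * ∏ q' ∈ univ.erase i₀, (Y i₀ - Y q')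
     = ∑ j ≤ μ, ∑ i < μ - j, (-1)^j * e j * (Y i₀)^i * (∑ q, Φ q * (Y q)^(μ-j-1-i))`.
-/

set_option autoImplicit false
set_option linter.unusedSectionVars false

namespace Fermat.Agent.S23.A3

open Polynomial Finset

variable {K : Type*} [Field K] {ι : Type*} [Fintype ι] [DecidableEq ι]

/-- elementary symmetric function of a finite family. -/
def esym (Y : ι → K) (j : ℕ) : K :=
  ∑ s ∈ powersetCard j (univ : Finset ι), ∏ q ∈ s, Y q

theorem prod_X_sub_C_eq (Y : ι → K) :
    ∏ q : ι, (X - C (Y q)) =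
      ∑ j ∈ range (Fintype.card ι + 1),
        (-1 : K[X]) ^ j * (C (esym Y j) * X ^ (Fintype.card ι - j)) := by
  have h := Multiset.prod_X_sub_X_eq_sum_esymm ((univ : Finset ι).val.map Y)
  rw [Multiset.map_map] at h
  simp only [Multiset.card_map, card_val, card_univ] at h
  have h2 : ∀ j, ((univ : Finset ι).val.map Y).esymm j = esym Y j := fun j =>
    Finset.esymm_map_val Y univ j
  simp only [h2] at h
  rw [← h]
  rfl

/-- the explicit quotient of `∏ (X - Y q')` by `X - r`. -/
noncomputable def quot (Y : ι → K) (r : K) : K[X] :=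
  ∑ j ∈ range (Fintype.card ι + 1), ∑ i ∈ range (Fintype.card ι - j),
    (-1 : K[X]) ^ j * (C (esym Y j) * (X ^ i * C r ^ (Fintype.card ι - j - 1 - i)))

theorem quot_mul (Y : ι → K) (r : K) :
    quot Y r * (X - C r) =
      ∏ q : ι, (X - C (Y q)) - C ((∏ q : ι, (X - C (Y q))).eval r) := by
  rw [prod_X_sub_C_eq, quot, Finset.sum_mul]
  rw [eval_finsetSum, map_sum, ← Finset.sum_sub_distrib]
  refine Finset.sum_congr rfl fun j _ => ?_
  rw [Finset.sum_mul]
  have hg := geom_sum₂_mul (X : K[X]) (C r) (Fintype.card ι - j)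
  calc ∑ i ∈ range (Fintype.card ι - j),
        (-1 : K[X]) ^ j * (C (esym Y j) * (X ^ i * C r ^ (Fintype.card ι - j - 1 - i)))
          * (X - C r)
      = (-1 : K[X]) ^ j * (C (esym Y j) *
          ((∑ i ∈ range (Fintype.card ι - j), X ^ i * C r ^ (Fintype.card ι - j - 1 - i))
            * (X - C r))) := by
        rw [Finset.sum_mul, Finset.mul_sum, Finset.mul_sum]
        refine Finset.sum_congr rfl fun i _ => ?_
        ring
    _ = (-1 : K[X]) ^ j * (C (esym Y j) * X ^ (Fintype.card ι - j))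
          - C (eval r ((-1 : K[X]) ^ j * (C (esym Y j) * X ^ (Fintype.card ι - j)))) := by
        rw [hg]
        simp only [eval_mul, eval_pow, eval_neg, eval_one, eval_C, eval_X, map_mul, map_pow,
          map_neg, map_one]
        ring

theorem prod_erase_X_sub_C (Y : ι → K) (q : ι) :
    ∏ q' ∈ univ.erase q, (X - C (Y q')) = quot Y (Y q) := by
  have h1 : (∏ q' ∈ univ.erase q, (X - C (Y q'))) * (X - C (Y q))
      = ∏ q' : ι, (X - C (Y q')) := by
    rw [mul_comm]
    exact Finset.mul_prod_erase univ (fun q' => X - C (Y q')) (mem_univ q)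
  have h0 : (∏ q' : ι, (X - C (Y q'))).eval (Y q) = 0 := by
    rw [eval_prod]
    exact Finset.prod_eq_zero (mem_univ q) (by simp)
  have h2 := quot_mul Y (Y q)
  rw [h0, map_zero, sub_zero, ← h1] at h2
  exact (mul_right_cancel₀ (X_sub_C_ne_zero (Y q)) h2).symm

/-- **Synthetic division.** -/
theorem prod_erase_sub (Y : ι → K) (q : ι) (x : K) :
    ∏ q' ∈ univ.erase q, (x - Y q') =
      ∑ j ∈ range (Fintype.card ι + 1), ∑ i ∈ range (Fintype.card ι - j),
        (-1 : K) ^ j * esym Y j * x ^ i * (Y q) ^ (Fintype.card ι - j - 1 - i) := by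
  have h := congrArg (Polynomial.eval x) (prod_erase_X_sub_C Y q)
  rw [eval_prod] at h
  simp only [eval_sub, eval_X, eval_C] at h
  rw [h, quot, eval_finsetSum]
  refine Finset.sum_congr rfl fun j _ => ?_
  rw [eval_finsetSum]
  refine Finset.sum_congr rfl fun i _ => ?_
  simp only [eval_mul, eval_pow, eval_neg, eval_one, eval_C, eval_X]
  ring

/-- **Lagrange identity.** -/
theorem lagrange (Y Φ : ι → K) (i₀ : ι) :
    Φ i₀ * ∏ q' ∈ univ.erase i₀, (Y i₀ - Y q') =
      ∑ j ∈ range (Fintype.card ι + 1), ∑ i ∈ range (Fintype.card ι - j),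
        (-1 : K) ^ j * esym Y j * (Y i₀) ^ i *
          (∑ q : ι, Φ q * (Y q) ^ (Fintype.card ι - j - 1 - i)) := by
  have h1 : Φ i₀ * ∏ q' ∈ univ.erase i₀, (Y i₀ - Y q')
      = ∑ q : ι, Φ q * ∏ q' ∈ univ.erase q, (Y i₀ - Y q') := by
    rw [Finset.sum_eq_single i₀]
    · intro q _ hq
      have : ∏ q' ∈ univ.erase q, (Y i₀ - Y q') = 0 :=
        Finset.prod_eq_zero (Finset.mem_erase.mpr ⟨hq.symm, mem_univ _⟩) (sub_self _)
      rw [this, mul_zero]
    · intro h; exact absurd (mem_univ _) h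
  rw [h1]
  simp_rw [prod_erase_sub Y _ (Y i₀), Finset.mul_sum]
  rw [Finset.sum_comm]
  refine Finset.sum_congr rfl fun j _ => ?_
  rw [Finset.sum_comm]
  refine Finset.sum_congr rfl fun i _ => ?_
  refine Finset.sum_congr rfl fun q _ => ?_
  ring

end Fermat.Agent.S23.A3
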