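import Fermat.Agent.S23.Defs
import Fermat.Agent.S23.H1_Conj

/-!
# S23, A3 (part 2): the span of the rational modular forms, at the function level
(owner: helper1)

`RatSpan N k x` : the function `x : ℍ → ℂ` is the function of a modular form of weight `k` on
`Γ₀(N)` lying in the `ℂ`-span of the forms with rational q-expansion.  Closed under sums,
scalar multiples, products (weights add), powers; contains the level-one forms (given the
level-one input `L1`).
-/

set_option autoImplicit false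

namespace Fermat.Agent.S23.A3

open UpperHalfPlane ModularFormClass CongruenceSubgroup
open scoped MatrixGroups ModularForm Manifold

variable {N : ℕ}

/-- The q-expansion coefficients of a product of two modular forms on `Γ₀(N)`. -/
theorem qExpansion_mul_fun {k₁ k₂ : ℤ} (X : ModularForm (Gamma0 N) k₁)
    (Y : ModularForm (Gamma0 N) k₂) :
    qExpansion 1 ((⇑X : ℍ → ℂ) * ⇑Y) = qExpansion 1 X * qExpansion 1 Y :=
  qExpansion_mul (R5.analyticAt_cusp X) (R5.analyticAt_cusp Y)

theorem isRat_mul_fun {k₁ k₂ : ℤ} (X : ModularForm (Gamma0 N) k₁)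
    (Y : ModularForm (Gamma0 N) k₂) (hX : IsRat X) (hY : IsRat Y) :
    IsRat ((⇑X : ℍ → ℂ) * ⇑Y) := by
  intro n
  simp only [qCoeff, qExpansion_mul_fun, PowerSeries.coeff_mul]
  choose rX hrX using hX
  choose rY hrY using hY
  refine ⟨∑ p ∈ Finset.HasAntidiagonal.antidiagonal n, rX p.1 * rY p.2, ?_⟩
  push_cast
  refine Finset.sum_congr rfl fun p _ => ?_
  rw [← hrX, ← hrY]
  rfl

/-- product of two modular forms on `Γ₀(N)`, with the weight given by a side condition. -/
noncomputable def mulMF {k₁ k₂ k : ℤ} (hk : k₁ + k₂ = k) (X : ModularForm (Gamma0 N) k₁)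
    (Y : ModularForm (Gamma0 N) k₂) : ModularForm (Gamma0 N) k :=
  ModularForm.mcast hk (X.mul Y) rfl

@[simp] theorem coe_mulMF {k₁ k₂ k : ℤ} (hk : k₁ + k₂ = k) (X : ModularForm (Gamma0 N) k₁)
    (Y : ModularForm (Gamma0 N) k₂) : (⇑(mulMF hk X Y) : ℍ → ℂ) = ⇑X * ⇑Y := rfl

theorem mulMF_mem_span {k₁ k₂ k : ℤ} (hk : k₁ + k₂ = k) {X : ModularForm (Gamma0 N) k₁}
    {Y : ModularForm (Gamma0 N) k₂} (hX : X ∈ Submodule.span ℂ (ratForms N k₁))
    (hY : Y ∈ Submodule.span ℂ (ratForms N k₂)) :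
    mulMF hk X Y ∈ Submodule.span ℂ (ratForms N k) := by
  induction hX using Submodule.span_induction with
  | mem X hX =>
    induction hY using Submodule.span_induction with
    | mem Y hY =>
      exact Submodule.subset_span (isRat_mul_fun X Y hX hY)
    | zero =>
      have : mulMF hk X (0 : ModularForm (Gamma0 N) k₂) = 0 := by
        ext z; simp [mulMF]
      rw [this]; exact Submodule.zero_mem _
    | add Y₁ Y₂ _ _ h₁ h₂ =>
      have : mulMF hk X (Y₁ + Y₂) = mulMF hk X Y₁ + mulMF hk X Y₂ := by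
        ext z; simp [mulMF, mul_add]
      rw [this]; exact Submodule.add_mem _ h₁ h₂
    | smul c Y _ h =>
      have : mulMF hk X (c • Y) = c • mulMF hk X Y := by
        ext z; simp [mulMF, mul_left_comm]
      rw [this]; exact Submodule.smul_mem _ c h
  | zero =>
    have : mulMF hk (0 : ModularForm (Gamma0 N) k₁) Y = 0 := by
      ext z; simp [mulMF]
    rw [this]; exact Submodule.zero_mem _
  | add X₁ X₂ _ _ h₁ h₂ =>
    have : mulMF hk (X₁ + X₂) Y = mulMF hk X₁ Y + mulMF hk X₂ Y := by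
      ext z; simp [mulMF, add_mul]
    rw [this]; exact Submodule.add_mem _ h₁ h₂
  | smul c X _ h =>
    have : mulMF hk (c • X) Y = c • mulMF hk X Y := by
      ext z; simp [mulMF, mul_assoc]
    rw [this]; exact Submodule.smul_mem _ c h

/-- `x` is the function of a modular form of weight `k` on `Γ₀(N)` in the span of the
rational forms. -/
def RatSpan (N : ℕ) (k : ℤ) (x : ℍ → ℂ) : Prop :=
  ∃ X : ModularForm (Gamma0 N) k, X ∈ Submodule.span ℂ (ratForms N k) ∧ ⇑X = x

theorem ratSpan_coe {k : ℤ} {X : ModularForm (Gamma0 N) k}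
    (hX : X ∈ Submodule.span ℂ (ratForms N k)) : RatSpan N k X := ⟨X, hX, rfl⟩

theorem ratSpan_of_isRat {k : ℤ} (X : ModularForm (Gamma0 N) k) (hX : IsRat X) :
    RatSpan N k X := ⟨X, Submodule.subset_span hX, rfl⟩

theorem RatSpan.cast {k k' : ℤ} {x : ℍ → ℂ} (hx : RatSpan N k x) (hk : k = k') :
    RatSpan N k' x := by
  subst hk; exact hx

theorem ratSpan_zero (k : ℤ) : RatSpan N k 0 := ⟨0, Submodule.zero_mem _, rfl⟩

theorem RatSpan.add {k : ℤ} {x y : ℍ → ℂ} (hx : RatSpan N k x) (hy : RatSpan N k y) :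
    RatSpan N k (x + y) := by
  obtain ⟨X, hX, rfl⟩ := hx
  obtain ⟨Y, hY, rfl⟩ := hy
  exact ⟨X + Y, Submodule.add_mem _ hX hY, rfl⟩

theorem RatSpan.smul {k : ℤ} {x : ℍ → ℂ} (hx : RatSpan N k x) (c : ℂ) :
    RatSpan N k (c • x) := by
  obtain ⟨X, hX, rfl⟩ := hx
  exact ⟨c • X, Submodule.smul_mem _ c hX, rfl⟩

theorem RatSpan.const_mul {k : ℤ} {x : ℍ → ℂ} (hx : RatSpan N k x) (c : ℂ) :
    RatSpan N k (fun z => c * x z) := hx.smul c

theorem RatSpan.mul {k₁ k₂ k : ℤ} {x y : ℍ → ℂ} (hx : RatSpan N k₁ x)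
    (hy : RatSpan N k₂ y) (hk : k₁ + k₂ = k) : RatSpan N k (x * y) := by
  obtain ⟨X, hX, rfl⟩ := hx
  obtain ⟨Y, hY, rfl⟩ := hy
  exact ⟨mulMF hk X Y, mulMF_mem_span hk hX hY, rfl⟩

theorem isRat_one : IsRat (1 : ℍ → ℂ) := by
  intro n
  simp only [qCoeff, qExpansion_one, PowerSeries.coeff_one]
  split_ifs
  · exact ⟨1, by simp⟩
  · exact ⟨0, by simp⟩

theorem ratSpan_one : RatSpan N 0 1 :=
  ⟨1, Submodule.subset_span (by
    show IsRat (⇑(1 : ModularForm (Gamma0 N) 0))
    have : (⇑(1 : ModularForm (Gamma0 N) 0) : ℍ → ℂ) = 1 := rfl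
    rw [this]; exact isRat_one), rfl⟩

theorem RatSpan.pow {k : ℤ} {x : ℍ → ℂ} (hx : RatSpan N k x) (n : ℕ) (m : ℤ)
    (hm : n * k = m) : RatSpan N m (x ^ n) := by
  induction n generalizing m with
  | zero =>
    have : m = 0 := by simpa using hm.symm
    subst this
    simpa using (ratSpan_one (N := N))
  | succ n ih =>
    rw [pow_succ]
    refine (ih (n * k) rfl).mul hx ?_
    rw [← hm]; push_cast; ring

theorem RatSpan.sum {ι : Type*} (s : Finset ι) {k : ℤ} {x : ι → ℍ → ℂ}
    (hx : ∀ i ∈ s, RatSpan N k (x i)) : RatSpan N k (∑ i ∈ s, x i) := by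
  classical
  induction s using Finset.induction_on with
  | empty => simpa using ratSpan_zero (N := N) k
  | insert a s ha ih =>
    rw [Finset.sum_insert ha]
    exact (hx a (Finset.mem_insert_self a s)).add
      (ih fun i hi => hx i (Finset.mem_insert_of_mem hi))

/-- The shape of the level-one input `L1`: every level-one modular form is a `ℂ`-linear
combination of level-one forms with rational q-expansion. -/
def LevelOneRatSpan : Prop :=
  ∀ (k : ℤ) (c : ModularForm 𝒮ℒ k), c ∈ Submodule.span ℂ {m : ModularForm 𝒮ℒ k | IsRat m}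

theorem ratSpan_of_levelOne (h1 : LevelOneRatSpan) (N : ℕ) {k : ℤ} (c : ModularForm 𝒮ℒ k) :
    RatSpan N k c := by
  have hc := h1 k c
  induction hc using Submodule.span_induction with
  | mem c hc => exact ⟨R5.restrictMF N c, Submodule.subset_span hc, rfl⟩
  | zero => exact ratSpan_zero k
  | add c₁ c₂ _ _ h₁ h₂ => exact h₁.add h₂
  | smul a c _ h => exact h.smul a

end Fermat.Agent.S23.A3
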