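import Fermat.Agent.S23.H1_Lagrange
import Fermat.Agent.S23.H1_RatSpan
import Fermat.Agent.S23.R2_Esymm

/-!
# S23, A3 (part 3): every weight-2 cusp form on `Γ₀(N)` is a quotient of rational forms
(owner: helper1)
-/

set_option autoImplicit false
set_option linter.unusedSectionVars false

namespace Fermat.Agent.S23.A3

open UpperHalfPlane ModularFormClass CongruenceSubgroup SlashInvariantForm
open scoped MatrixGroups ModularForm Manifold

variable {N : ℕ} [NeZero N]

/-- translates of a product. -/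
theorem quotientFunc_mul {k₁ k₂ k : ℤ} (hk : k₁ + k₂ = k)
    (X : ModularForm (Gamma0 N) k₁) (Y : ModularForm (Gamma0 N) k₂)
    (Z : ModularForm (Gamma0 N) k) (hZ : (⇑Z : ℍ → ℂ) = ⇑X * ⇑Y)
    (q : 𝒮ℒ ⧸ (Subgroup.map (Matrix.SpecialLinearGroup.mapGL ℝ) (Gamma0 N)).subgroupOf 𝒮ℒ) :
    quotientFunc Z q = quotientFunc X q * quotientFunc Y q := by
  subst hk
  induction q using Quotient.inductionOn with
  | h r =>
    obtain ⟨r, ⟨γ, rfl⟩⟩ := r
    simp only [quotientFunc_mk]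
    rw [hZ, ModularForm.mul_slash]
    simp

/-- translates of a power. -/
theorem quotientFunc_pow {w : ℤ} (D : ModularForm (Gamma0 N) w) (m : ℕ)
    (q : 𝒮ℒ ⧸ (Subgroup.map (Matrix.SpecialLinearGroup.mapGL ℝ) (Gamma0 N)).subgroupOf 𝒮ℒ) :
    quotientFunc (D.pow m) q = (quotientFunc D q) ^ m := by
  induction m with
  | zero =>
    induction q using Quotient.inductionOn with
    | h r =>
      obtain ⟨r, ⟨γ, rfl⟩⟩ := r
      simp only [quotientFunc_mk, ModularForm.coe_pow, pow_zero]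
      have h0 : ((0 : ℕ) : ℤ) * w = 0 := by simp
      rw [h0, ← map_inv]
      exact ModularForm.is_invariant_one' γ⁻¹
  | succ m ih =>
    rw [quotientFunc_mul (k₁ := m * w) (k₂ := w) (by push_cast; ring) (D.pow m) D
      (D.pow (m + 1)) (by rw [ModularForm.coe_pow, ModularForm.coe_pow, pow_succ]) q, ih,
      pow_succ]

/-- the modular form `f * D ^ m`. -/
noncomputable def mulPow (f : CuspForm (Gamma0 N) 2) {w : ℤ} (D : ModularForm (Gamma0 N) w)
    (m : ℕ) : ModularForm (Gamma0 N) (2 + m * w) :=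
  (ModularFormClass.modularForm f).mul (D.pow m)

theorem coe_mulPow (f : CuspForm (Gamma0 N) 2) {w : ℤ} (D : ModularForm (Gamma0 N) w)
    (m : ℕ) : (⇑(mulPow f D m) : ℍ → ℂ) = ⇑f * (⇑D) ^ m := by
  ext z
  simp [mulPow]

theorem quotientFunc_mulPow (f : CuspForm (Gamma0 N) 2) {w : ℤ}
    (D : ModularForm (Gamma0 N) w) (m : ℕ)
    (q : 𝒮ℒ ⧸ (Subgroup.map (Matrix.SpecialLinearGroup.mapGL ℝ) (Gamma0 N)).subgroupOf 𝒮ℒ) :
    quotientFunc (mulPow f D m) q = quotientFunc f q * (quotientFunc D q) ^ m := by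
  have h1 := quotientFunc_mul (k₁ := 2) (k₂ := m * w) rfl (ModularFormClass.modularForm f)
    (D.pow m) (mulPow f D m) (by ext z; simp [mulPow]) q
  rw [h1, quotientFunc_pow]
  congr 1

/-- the level-one modular form `tr (f * D ^ m)`. -/
noncomputable def traceMulPow (f : CuspForm (Gamma0 N) 2) {w : ℤ}
    (D : ModularForm (Gamma0 N) w) (m : ℕ) : ModularForm 𝒮ℒ (2 + m * w) :=
  ModularForm.trace 𝒮ℒ (mulPow f D m)

theorem traceMulPow_apply
    [Fintype (𝒮ℒ ⧸ (Subgroup.map (Matrix.SpecialLinearGroup.mapGL ℝ) (Gamma0 N)).subgroupOf 𝒮ℒ)]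
    (f : CuspForm (Gamma0 N) 2) {w : ℤ} (D : ModularForm (Gamma0 N) w) (m : ℕ) (τ : ℍ) :
    traceMulPow f D m τ = ∑ q : 𝒮ℒ ⧸
      (Subgroup.map (Matrix.SpecialLinearGroup.mapGL ℝ) (Gamma0 N)).subgroupOf 𝒮ℒ,
        quotientFunc f q τ * (quotientFunc D q τ) ^ m := by
  have h : (⇑(traceMulPow f D m) : ℍ → ℂ) = ∑ q : 𝒮ℒ ⧸
      (Subgroup.map (Matrix.SpecialLinearGroup.mapGL ℝ) (Gamma0 N)).subgroupOf 𝒮ℒ,
        quotientFunc (mulPow f D m) q := by
    rw [traceMulPow, ModularForm.coe_trace]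
    have hinst : (Fintype.ofFinite (𝒮ℒ ⧸
      (Subgroup.map (Matrix.SpecialLinearGroup.mapGL ℝ) (Gamma0 N)).subgroupOf 𝒮ℒ)) = ‹_› :=
      Subsingleton.elim _ _
    rw [hinst]
  rw [h, Finset.sum_apply]
  refine Finset.sum_congr rfl fun q _ => ?_
  rw [quotientFunc_mulPow]
  rfl

/-- A finite product of nonzero holomorphic functions on `ℍ` is nonzero. -/
theorem prod_ne_zero_of_mdiff {ι : Type} (s : Finset ι) (g : ι → ℍ → ℂ)
    (hg : ∀ i ∈ s, MDiff (g i)) (h0 : ∀ i ∈ s, g i ≠ 0) : ∏ i ∈ s, g i ≠ 0 := by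
  classical
  induction s using Finset.induction_on with
  | empty =>
    rw [Finset.prod_empty]
    intro h
    have := congrFun h UpperHalfPlane.I
    simp at this
  | insert a s ha ih =>
    rw [Finset.prod_insert ha]
    intro h
    have hs : MDiff (∏ i ∈ s, g i) :=
      MDifferentiable.prod fun i hi => hg i (Finset.mem_insert_of_mem hi)
    rcases (UpperHalfPlane.mul_eq_zero_iff (hg a (Finset.mem_insert_self a s)) hs).mp h with
      h | h
    · exact h0 a (Finset.mem_insert_self a s) h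
    · exact ih (fun i hi => hg i (Finset.mem_insert_of_mem hi))
        (fun i hi => h0 i (Finset.mem_insert_of_mem hi)) h

/-- **A3, generic form.** Let `D` be a modular form on `Γ₀(N)` in the span of the rational
forms, whose translates by the nontrivial cosets of `Γ₀(N)` in `SL(2, ℤ)` are all different
from `D`.  Then every weight-2 cusp form `f` on `Γ₀(N)` is a quotient `a / b` of two modular
forms on `Γ₀(N)` in the span of the rational forms. -/
theorem exists_rational_quotient_of (hL1 : LevelOneRatSpan) (f : CuspForm (Gamma0 N) 2)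
    {w : ℤ} (D : ModularForm (Gamma0 N) w) (hD : D ∈ Submodule.span ℂ (ratForms N w))
    (hdist : ∀ q : 𝒮ℒ ⧸
      (Subgroup.map (Matrix.SpecialLinearGroup.mapGL ℝ) (Gamma0 N)).subgroupOf 𝒮ℒ,
        q ≠ ⟦1⟧ → quotientFunc D q ≠ ⇑D) :
    ∃ (k : ℤ) (a : ModularForm (Gamma0 N) (k + 2)) (b : ModularForm (Gamma0 N) k),
      b ≠ 0 ∧ (∀ z : ℍ, f z * b z = a z) ∧
      a ∈ Submodule.span ℂ (ratForms N (k + 2)) ∧ b ∈ Submodule.span ℂ (ratForms N k) := by
  classical
  let _ : Fintype (𝒮ℒ ⧸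
      (Subgroup.map (Matrix.SpecialLinearGroup.mapGL ℝ) (Gamma0 N)).subgroupOf 𝒮ℒ) :=
    Fintype.ofFinite _
  set μ := Fintype.card (𝒮ℒ ⧸
      (Subgroup.map (Matrix.SpecialLinearGroup.mapGL ℝ) (Gamma0 N)).subgroupOf 𝒮ℒ) with hμ
  have hμpos : 0 < μ := Fintype.card_pos
  set i₀ : 𝒮ℒ ⧸
      (Subgroup.map (Matrix.SpecialLinearGroup.mapGL ℝ) (Gamma0 N)).subgroupOf 𝒮ℒ := ⟦1⟧
    with hi₀
  -- the building blocks
  have hE : ∀ j : ℕ, RatSpan N (w * j) (esymmFun D j) := fun j => by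
    have := ratSpan_of_levelOne hL1 N (esymmMF D j)
    simpa using this
  have hT : ∀ m : ℕ, RatSpan N (2 + m * w) (⇑(traceMulPow f D m)) :=
    fun m => ratSpan_of_levelOne hL1 N (traceMulPow f D m)
  have hDr : RatSpan N w D := ratSpan_coe hD
  set bFun : ℍ → ℂ := ∑ j ∈ Finset.range (μ + 1), ∑ i ∈ Finset.range (μ - j),
    ((-1 : ℂ) ^ j) • (esymmFun D j * (⇑D) ^ i * (⇑D) ^ (μ - j - 1 - i)) with hbFun
  set aFun : ℍ → ℂ := ∑ j ∈ Finset.range (μ + 1), ∑ i ∈ Finset.range (μ - j),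
    ((-1 : ℂ) ^ j) • (esymmFun D j * (⇑D) ^ i * ⇑(traceMulPow f D (μ - j - 1 - i))) with haFun
  have hb : RatSpan N (w * (μ - 1)) bFun := by
    refine RatSpan.sum _ fun j hj => RatSpan.sum _ fun i hi => RatSpan.smul ?_ _
    refine ((hE j).mul (hDr.pow i _ rfl) rfl).mul (hDr.pow (μ - j - 1 - i) _ rfl) ?_
    have h1 : i < μ - j := Finset.mem_range.mp hi
    have h2 : ((μ - j - 1 - i : ℕ) : ℤ) = (μ : ℤ) - j - 1 - i := by omega
    rw [h2]; ring
  have ha : RatSpan N (w * (μ - 1) + 2) aFun := by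
    refine RatSpan.sum _ fun j hj => RatSpan.sum _ fun i hi => RatSpan.smul ?_ _
    refine ((hE j).mul (hDr.pow i _ rfl) rfl).mul (hT (μ - j - 1 - i)) ?_
    have h1 : i < μ - j := Finset.mem_range.mp hi
    have h2 : ((μ - j - 1 - i : ℕ) : ℤ) = (μ : ℤ) - j - 1 - i := by omega
    rw [h2]; ring
  -- pointwise values
  have hY1 : ∀ τ, quotientFunc D i₀ τ = D τ := by
    intro τ; simp [hi₀]
  have hΦ1 : ∀ τ, quotientFunc f i₀ τ = f τ := by
    intro τ; simp [hi₀]
  have hesym : ∀ (j : ℕ) (τ : ℍ), esym (fun q => quotientFunc D q τ) j = esymmFun D j τ :=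
    fun j τ => (esymmFun_apply D j τ).symm
  have hb_apply : ∀ τ, bFun τ = ∏ q' ∈ Finset.univ.erase i₀, (D τ - quotientFunc D q' τ) := by
    intro τ
    have h := prod_erase_sub (fun q => quotientFunc D q τ) i₀ (D τ)
    rw [h]
    simp only [hbFun, Finset.sum_apply, Pi.smul_apply, Pi.mul_apply, Pi.pow_apply, smul_eq_mul]
    refine Finset.sum_congr rfl fun j _ => Finset.sum_congr rfl fun i _ => ?_
    rw [hY1 τ, hesym]
    ring
  have ha_apply : ∀ τ, aFun τ = f τ * bFun τ := by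
    intro τ
    rw [hb_apply]
    have h := lagrange (fun q => quotientFunc D q τ) (fun q => quotientFunc f q τ) i₀
    simp only [hY1, hΦ1] at h
    rw [h]
    simp only [haFun, Finset.sum_apply, Pi.smul_apply, Pi.mul_apply, Pi.pow_apply, smul_eq_mul]
    refine Finset.sum_congr rfl fun j _ => Finset.sum_congr rfl fun i _ => ?_
    rw [hesym, traceMulPow_apply]
    ring
  -- `b ≠ 0`
  have hb0 : bFun ≠ 0 := by
    have hprod : bFun = ∏ q' ∈ Finset.univ.erase i₀, (⇑D - quotientFunc D q') := by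
      funext τ
      rw [hb_apply, Finset.prod_apply]
      rfl
    rw [hprod]
    refine prod_ne_zero_of_mdiff _ _ (fun q _ => ?_) (fun q hq => ?_)
    · exact (ModularFormClass.holo D).sub (mdifferentiable_quotientFunc D q)
    · intro h
      exact hdist q (Finset.ne_of_mem_erase hq) (sub_eq_zero.mp h).symm
  obtain ⟨B, hB, hBcoe⟩ := hb
  obtain ⟨A, hA, hAcoe⟩ := ha
  refine ⟨w * (μ - 1), A, B, ?_, ?_, hA, hB⟩
  · intro h
    apply hb0
    rw [← hBcoe, h]
    rfl
  · intro z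
    rw [hAcoe, hBcoe, ha_apply]

end Fermat.Agent.S23.A3
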