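import Mathlib

/-!
# S23, step A3a: the pure algebra behind the fraction representation (owner: helper22)

Let `y f : Q → R` be two finite families in a commutative ring, `Φ = ∏ q, (X - y q)`,
`φ l` the coefficient of `X ^ l` in `Φ`, `τ m = ∑ q, f q * y q ^ m` and `μ = card Q`.  Then

* `lagrange_main`: `f q₀ * ∏_{q ≠ q₀} (y q₀ - y q)
    = ∑_{j < μ} y q₀ ^ j * ∑_{j < l ≤ μ} φ l * τ (l - j - 1)`
  (Lagrange interpolation plus synthetic division);
* `lagrange_deriv`: `∏_{q ≠ q₀} (y q₀ - y q) = ∑_{l ≤ μ} l * φ l * y q₀ ^ (l - 1)`;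
* `lagrange_phi_eq_esymm`: `φ l = (-1) ^ (μ - l) * e_{μ - l}(y)`.
-/

set_option autoImplicit false

namespace Fermat.Agent.S23.H22

open Polynomial Finset

variable {R : Type*} [CommRing R] {Q : Type*} [Fintype Q] [DecidableEq Q]

/-- The product over the other indices is the quotient of the full product. -/
theorem lagrange_erase_eq_divByMonic (y : Q → R) (q : Q) :
    ∏ q' ∈ univ.erase q, (X - C (y q')) = (∏ q' : Q, (X - C (y q'))) /ₘ (X - C (y q)) := by
  rw [← Finset.mul_prod_erase univ (fun q' => X - C (y q')) (mem_univ q)]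
  exact (mul_divByMonic_cancel_left _ (monic_X_sub_C (y q))).symm

omit [DecidableEq Q] in
theorem lagrange_natDegree_le (y : Q → R) :
    (∏ q' : Q, (X - C (y q'))).natDegree ≤ Fintype.card Q := by
  refine (natDegree_prod_le _ _).trans ?_
  refine (Finset.sum_le_sum fun q _ => natDegree_X_sub_C_le (y q)).trans ?_
  simp

/-- Synthetic division: the coefficients of the product over the other indices. -/
theorem lagrange_coeff_erase (y : Q → R) (q : Q) (n : ℕ) :
    (∏ q' ∈ univ.erase q, (X - C (y q'))).coeff n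
      = ∑ l ∈ Ioc n (Fintype.card Q),
          (∏ q' : Q, (X - C (y q'))).coeff l * y q ^ (l - n - 1) := by
  rw [lagrange_erase_eq_divByMonic, coeff_divByMonic_X_sub_C]
  have hsub : Icc (n + 1) (∏ q' : Q, (X - C (y q'))).natDegree ⊆ Ioc n (Fintype.card Q) := by
    intro l hl
    rw [mem_Icc] at hl
    rw [mem_Ioc]
    exact ⟨hl.1, hl.2.trans (lagrange_natDegree_le y)⟩
  rw [← Finset.sum_subset hsub]
  · refine Finset.sum_congr rfl fun l _ => ?_
    rw [mul_comm, Nat.sub_sub]
  · intro l hl hl'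
    rw [mem_Ioc] at hl
    rw [mem_Icc, not_and, not_le] at hl'
    rw [coeff_eq_zero_of_natDegree_lt (hl' hl.1), zero_mul]

theorem lagrange_natDegree_erase_lt (y : Q → R) (q : Q) :
    (∏ q' ∈ univ.erase q, (X - C (y q'))).natDegree < Fintype.card Q := by
  refine lt_of_le_of_lt (natDegree_prod_le _ _) ?_
  refine lt_of_le_of_lt (Finset.sum_le_sum fun q _ => natDegree_X_sub_C_le (y q)) ?_
  simp only [sum_const, smul_eq_mul, mul_one]
  rw [Finset.card_erase_of_mem (mem_univ q), Finset.card_univ]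
  exact Nat.sub_lt (Fintype.card_pos_iff.mpr ⟨q⟩) one_pos

/-- Synthetic division, evaluated. -/
theorem lagrange_eval_erase (y : Q → R) (q : Q) (x : R) :
    ∏ q' ∈ univ.erase q, (x - y q')
      = ∑ j ∈ range (Fintype.card Q), x ^ j *
          ∑ l ∈ Ioc j (Fintype.card Q),
            (∏ q' : Q, (X - C (y q'))).coeff l * y q ^ (l - j - 1) := by
  have h1 : ∏ q' ∈ univ.erase q, (x - y q')
      = (∏ q' ∈ univ.erase q, (X - C (y q'))).eval x := by
    rw [eval_prod]
    simp
  rw [h1, eval_eq_sum_range' (lagrange_natDegree_erase_lt y q)]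
  refine Finset.sum_congr rfl fun j _ => ?_
  rw [lagrange_coeff_erase, mul_comm]

/-- **Lagrange interpolation with synthetic division.** -/
theorem lagrange_main (y f : Q → R) (q₀ : Q) :
    f q₀ * ∏ q ∈ univ.erase q₀, (y q₀ - y q)
      = ∑ j ∈ range (Fintype.card Q), y q₀ ^ j *
          ∑ l ∈ Ioc j (Fintype.card Q),
            (∏ q' : Q, (X - C (y q'))).coeff l * ∑ q : Q, f q * y q ^ (l - j - 1) := by
  have h1 : f q₀ * ∏ q ∈ univ.erase q₀, (y q₀ - y q)
      = ∑ q : Q, f q * ∏ q' ∈ univ.erase q, (y q₀ - y q') := by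
    rw [Finset.sum_eq_single q₀]
    · intro q _ hq
      rw [Finset.prod_eq_zero (i := q₀) (mem_erase.mpr ⟨fun h => hq h.symm, mem_univ _⟩)
        (sub_self _), mul_zero]
    · intro h
      exact absurd (mem_univ q₀) h
  rw [h1]
  simp_rw [lagrange_eval_erase y _ (y q₀), Finset.mul_sum]
  rw [Finset.sum_comm]
  refine Finset.sum_congr rfl fun j _ => ?_
  rw [Finset.sum_comm]
  refine Finset.sum_congr rfl fun l _ => ?_
  refine Finset.sum_congr rfl fun q _ => ?_
  ring

/-- The derivative of `∏ (X - y q)` at `y q₀`. -/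
theorem lagrange_deriv (y : Q → R) (q₀ : Q) :
    ∏ q ∈ univ.erase q₀, (y q₀ - y q)
      = ∑ l ∈ range (Fintype.card Q + 1),
          (l : R) * (∏ q' : Q, (X - C (y q'))).coeff l * y q₀ ^ (l - 1) := by
  rw [lagrange_eval_erase y q₀ (y q₀)]
  simp_rw [Finset.mul_sum]
  rw [Finset.sum_comm' (s' := fun l => range l) (t' := range (Fintype.card Q + 1))]
  · refine Finset.sum_congr rfl fun l _ => ?_
    have : ∀ j ∈ range l, y q₀ ^ j * ((∏ q' : Q, (X - C (y q'))).coeff l * y q₀ ^ (l - j - 1))
        = (∏ q' : Q, (X - C (y q'))).coeff l * y q₀ ^ (l - 1) := by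
      intro j hj
      rw [mem_range] at hj
      have e : l - 1 = j + (l - j - 1) := by omega
      rw [e, pow_add]
      ring
    rw [Finset.sum_congr rfl this, Finset.sum_const, card_range, nsmul_eq_mul, mul_assoc]
  · intro j l
    simp only [mem_range, mem_Ioc]
    omega

omit [DecidableEq Q] in
/-- The coefficients of `∏ (X - y q)` are the signed elementary symmetric functions. -/
theorem lagrange_phi_eq_esymm (y : Q → R) {l : ℕ} (hl : l ≤ Fintype.card Q) :
    (∏ q' : Q, (X - C (y q'))).coeff l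
      = (-1) ^ (Fintype.card Q - l) *
          ∑ s ∈ powersetCard (Fintype.card Q - l) (univ : Finset Q), ∏ q ∈ s, y q := by
  have hcard : Multiset.card ((univ : Finset Q).val.map y) = Fintype.card Q := by
    rw [Multiset.card_map, Finset.card_val, Finset.card_univ]
  have h := Multiset.prod_X_sub_C_coeff ((univ : Finset Q).val.map y) (k := l)
    (by rw [hcard]; exact hl)
  rw [hcard, Multiset.map_map, Finset.esymm_map_val] at h
  rw [← h]
  rfl

end Fermat.Agent.S23.H22
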