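import Fermat.Agent.S23.H22_LagrangeAlg
import Fermat.Agent.S23.H1_Assembly
import Fermat.Agent.S23.R5_Scale
import Fermat.Agent.S23.H23_DistinctDelta

/-!
# S23, step A3b: modular packaging of the Lagrange identity (owner: helper22)

`Y := Δ(N z)` is a modular form of weight 12 on `Γ₀(N)` with rational `q`-expansion.  The
coefficients of `∏ q, (X - Y_q)` (the product over the `SL(2, ℤ)`-translates of `Y`) and the
traces `∑ q, f_q * Y_q ^ m` are level-one modular forms, hence have all their conjugates.  With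
the pure algebra of `H22_LagrangeAlg` this shows that `b := ∏_{q ≠ 1} (Y - Y_q)` and `a := f * b`
have all their conjugates; so `f = a / b` is a fraction representation as soon as `b ≠ 0`.
-/

set_option autoImplicit false

namespace Fermat.Agent.S23.H22

open UpperHalfPlane CongruenceSubgroup ModularFormClass ModularForm SlashInvariantForm
open scoped MatrixGroups ModularForm Manifold Pointwise

/-- (b0) Level-one modular forms have all their conjugates (`R1`, helper14). -/
theorem levelOneConj : R5.LevelOneConj := by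
  intro k c σ
  obtain ⟨g, hg⟩ := R1.exists_conj (σ : ℂ →+* ℂ) k c
  refine ⟨g, fun n => ?_⟩
  show (qExpansion 1 g).coeff n = σ ((qExpansion 1 c).coeff n)
  rw [hg, PowerSeries.coeff_map]
  rfl

/-- The discriminant as a level-one modular form. -/
noncomputable def discMF : ModularForm 𝒮ℒ 12 := (CuspForm.discriminant : ModularForm 𝒮ℒ 12)

theorem coe_discMF : (⇑discMF : ℍ → ℂ) = ModularForm.discriminant := rfl

theorem isRat_discMF : IsRat discMF := fun n => R1.discriminant_qExpansion_coeff_rat n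

variable (N : ℕ) [NeZero N]

/-- `Y = Δ(N z)` as a modular form on `Γ₀(N)`. -/
noncomputable def discNMF : ModularForm (Gamma0 N) 12 := scaleMF N discMF

theorem discNMF_apply (z : ℍ) : discNMF N z = ModularForm.discriminant (scaleN N z) :=
  scaleMF_apply N discMF z

/-- (b1) -/
theorem hasConj_discNMF : R5.HasConj N 12 ⇑(discNMF N) :=
  R5.hasConj_of_rat _ (isRat_scaleMF N isRat_discMF)


/-- The image of `Γ₀(N)` in `GL(2, ℝ)`. -/
abbrev G0 (N : ℕ) : Subgroup (GL (Fin 2) ℝ) :=
  Subgroup.map (Matrix.SpecialLinearGroup.mapGL ℝ) (Gamma0 N)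

/-- The cosets of `Γ₀(N)` in `SL(2, ℤ)`, in the form used by Mathlib's `quotientFunc`. -/
abbrev Cosets (N : ℕ) : Type := 𝒮ℒ ⧸ (G0 N).subgroupOf 𝒮ℒ

omit [NeZero N] in
theorem card_cosets [Fintype (Cosets N)] : Fintype.card (Cosets N) = R5.cosetCard N :=
  (Nat.card_eq_fintype_card).symm

open Polynomial in
/-- (b2) The coefficients of `∏ q, (X - Y_q)` have all their conjugates. -/
theorem hasConj_phi [Fintype (Cosets N)] (l : ℕ) :
    R5.HasConj N (12 * ((R5.cosetCard N - l : ℕ) : ℤ))
      (fun z => (∏ q : Cosets N, (X - C (quotientFunc (discNMF N) q z))).coeff l) := by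
  rcases le_or_gt l (R5.cosetCard N) with hl | hl
  · have h1 : (fun z => (∏ q : Cosets N, (X - C (quotientFunc (discNMF N) q z))).coeff l)
        = ((-1 : ℂ) ^ (R5.cosetCard N - l)) • ⇑(esymmMF (discNMF N) (R5.cosetCard N - l)) := by
      funext z
      rw [lagrange_phi_eq_esymm _ (by rw [card_cosets]; exact hl), card_cosets]
      simp only [Pi.smul_apply, smul_eq_mul, coe_esymmMF]
      rw [esymmFun_apply]
    rw [h1]
    exact (R5.hasConj_of_levelOne levelOneConj N _).smul _
  · have h1 : (fun z => (∏ q : Cosets N, (X - C (quotientFunc (discNMF N) q z))).coeff l)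
        = 0 := by
      funext z
      refine coeff_eq_zero_of_natDegree_lt (lt_of_le_of_lt (lagrange_natDegree_le _) ?_)
      rw [card_cosets]
      exact hl
    rw [h1]
    exact R5.hasConj_zero _


/-- Slash of a power, for a matrix of determinant `±1`. -/
theorem pow_slash_of_abs_det (k : ℤ) {A : GL (Fin 2) ℝ} (hA : |A.det.val| = 1) (g : ℍ → ℂ)
    (m : ℕ) : (g ^ m) ∣[k * (m : ℤ)] A = (g ∣[k] A) ^ m := by
  have h := ModularForm.prod_slash (k := k) (g := A) (f := fun _ : ℕ => g) (s := Finset.range m)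
  simp only [Finset.prod_const, Finset.card_range] at h
  rw [h, hA, one_zpow, one_smul]

/-- Slash of `f * g ^ m`, for a matrix of determinant `±1`. -/
theorem mul_pow_slash_of_abs_det (k₁ k₂ : ℤ) {A : GL (Fin 2) ℝ} (hA : |A.det.val| = 1)
    (f g : ℍ → ℂ) (m : ℕ) :
    (f * g ^ m) ∣[k₁ + k₂ * (m : ℤ)] A = (f ∣[k₁] A) * (g ∣[k₂] A) ^ m := by
  rw [ModularForm.mul_slash, hA, one_smul, pow_slash_of_abs_det k₂ hA]

omit [NeZero N] in
/-- The translates of `f * Y ^ m`. -/
theorem quotientFunc_mul_pow {k₁ k₂ k : ℤ} (f : ModularForm (Gamma0 N) k₁)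
    (Y : ModularForm (Gamma0 N) k₂) (m : ℕ) (X : ModularForm (Gamma0 N) k)
    (hk : k = k₁ + k₂ * (m : ℤ)) (hX : (⇑X : ℍ → ℂ) = ⇑f * ⇑Y ^ m) (q : Cosets N) :
    quotientFunc X q = quotientFunc f q * quotientFunc Y q ^ m := by
  subst hk
  induction q using Quotient.inductionOn with
  | h r =>
    simp only [quotientFunc_mk]
    rw [hX]
    exact mul_pow_slash_of_abs_det k₁ k₂
      (Subgroup.HasDetPlusMinusOne.abs_det (inv_mem r.2)) _ _ m

theorem trace_apply [Fintype (Cosets N)] {k : ℤ} (X : ModularForm (Gamma0 N) k) (z : ℍ) :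
    ModularForm.trace 𝒮ℒ X z = ∑ q : Cosets N, quotientFunc X q z := by
  rw [ModularForm.coe_trace, Finset.sum_apply]
  have : (Fintype.ofFinite (Cosets N)) = ‹_› := Subsingleton.elim _ _
  subst this
  rfl

/-- (b3) The traces `∑ q, f_q * Y_q ^ m` have all their conjugates. -/
theorem hasConj_tau [Fintype (Cosets N)] {k₁ k₂ : ℤ} (f : ModularForm (Gamma0 N) k₁)
    (Y : ModularForm (Gamma0 N) k₂) (m : ℕ) :
    R5.HasConj N (k₁ + k₂ * (m : ℤ))
      (fun z => ∑ q : Cosets N, quotientFunc f q z * quotientFunc Y q z ^ m) := by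
  obtain ⟨X, hX⟩ : R5.IsMF N (k₁ + k₂ * (m : ℤ)) (⇑f * ⇑Y ^ m) :=
    (R5.isMF_coe f).mul ((R5.isMF_coe Y).pow m (k₂ * (m : ℤ)) (by ring)) rfl
  have h1 : (fun z => ∑ q : Cosets N, quotientFunc f q z * quotientFunc Y q z ^ m)
      = ⇑(ModularForm.trace 𝒮ℒ X) := by
    funext z
    rw [trace_apply]
    refine Finset.sum_congr rfl fun q _ => ?_
    rw [quotientFunc_mul_pow N f Y m X rfl hX q]
    rfl
  rw [h1]
  exact R5.hasConj_of_levelOne levelOneConj N _


/-- The distinguished coset (the class of `1`). -/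
abbrev q0 (N : ℕ) : Cosets N := ⟦(1 : 𝒮ℒ)⟧

omit [NeZero N] in
theorem quotientFunc_q0 {k : ℤ} (X : ModularForm (Gamma0 N) k) (z : ℍ) :
    quotientFunc X (q0 N) z = X z := by
  rw [quotientFunc_mk]
  simp

/-- The denominator `b = ∏_{q ≠ 1} (Y - Y_q)` of the fraction representation. -/
noncomputable def bFun (N : ℕ) [NeZero N] : ℍ → ℂ := by
  classical
  exact letI := Fintype.ofFinite (Cosets N)
    fun z => ∏ q ∈ Finset.univ.erase (q0 N),
      (discNMF N z - quotientFunc (discNMF N) q z)

theorem bFun_apply [Fintype (Cosets N)] [DecidableEq (Cosets N)] (z : ℍ) :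
    bFun N z = ∏ q ∈ Finset.univ.erase (q0 N),
      (discNMF N z - quotientFunc (discNMF N) q z) := by
  unfold bFun
  have h1 : (Fintype.ofFinite (Cosets N)) = ‹Fintype (Cosets N)› := Subsingleton.elim _ _
  subst h1
  refine Finset.prod_congr ?_ (fun _ _ => rfl)
  ext q
  simp only [Finset.mem_erase]


theorem cosetCard_pos : 0 < R5.cosetCard N := Nat.card_pos

open Polynomial in
/-- (b4) `b` has all its conjugates. -/
theorem hasConj_bFun : R5.HasConj N (12 * ((R5.cosetCard N : ℤ) - 1)) (bFun N) := by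
  classical
  let := Fintype.ofFinite (Cosets N)
  have hμ := cosetCard_pos N
  have h1 : bFun N = ∑ l ∈ Finset.range (R5.cosetCard N + 1),
      (l : ℂ) • ((fun z => (∏ q : Cosets N, (X - C (quotientFunc (discNMF N) q z))).coeff l)
        * ⇑(discNMF N) ^ (l - 1)) := by
    funext z
    rw [bFun_apply]
    have h := lagrange_deriv (fun q : Cosets N => quotientFunc (discNMF N) q z) (q0 N)
    simp only [quotientFunc_q0] at h
    rw [h, card_cosets, Finset.sum_apply]
    refine Finset.sum_congr rfl fun l _ => ?_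
    simp only [Pi.smul_apply, Pi.mul_apply, Pi.pow_apply, smul_eq_mul]
    ring
  rw [h1]
  refine R5.HasConj.sum _ fun l hl => ?_
  rw [Finset.mem_range] at hl
  rcases Nat.eq_zero_or_pos l with rfl | hl0
  · simpa using R5.hasConj_zero (N := N) (12 * ((R5.cosetCard N : ℤ) - 1))
  · refine R5.HasConj.smul ?_ _
    refine (hasConj_phi N l).mul ((hasConj_discNMF N).pow (l - 1) _ rfl) ?_
    have e1 : ((R5.cosetCard N - l : ℕ) : ℤ) = (R5.cosetCard N : ℤ) - l := by omega
    have e2 : ((l - 1 : ℕ) : ℤ) = (l : ℤ) - 1 := by omega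
    rw [e1, e2]
    ring

open Polynomial in
/-- (b4) `a = f * b` has all its conjugates. -/
theorem hasConj_mul_bFun (f : CuspForm (Gamma0 N) 2) :
    R5.HasConj N (12 * ((R5.cosetCard N : ℤ) - 1) + 2) (fun z => f z * bFun N z) := by
  classical
  let := Fintype.ofFinite (Cosets N)
  obtain ⟨fM, hfM⟩ := R5.isMF_coe_cusp f
  have h1 : (fun z => f z * bFun N z) = ∑ j ∈ Finset.range (R5.cosetCard N),
      ⇑(discNMF N) ^ j * ∑ l ∈ Finset.Ioc j (R5.cosetCard N),
        (fun z => (∏ q : Cosets N, (X - C (quotientFunc (discNMF N) q z))).coeff l)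
          * (fun z => ∑ q : Cosets N,
              quotientFunc fM q z * quotientFunc (discNMF N) q z ^ (l - j - 1)) := by
    funext z
    rw [bFun_apply]
    have h := lagrange_main (fun q : Cosets N => quotientFunc (discNMF N) q z)
      (fun q : Cosets N => quotientFunc fM q z) (q0 N)
    simp only [quotientFunc_q0] at h
    rw [hfM] at h
    rw [h, card_cosets, Finset.sum_apply]
    refine Finset.sum_congr rfl fun j _ => ?_
    simp only [Pi.mul_apply, Pi.pow_apply, Finset.sum_apply]
  rw [h1]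
  refine R5.HasConj.sum _ fun j hj => ?_
  rw [Finset.mem_range] at hj
  refine ((hasConj_discNMF N).pow j _ rfl).mul
    (R5.HasConj.sum (k := 12 * ((R5.cosetCard N : ℤ) - 1 - j) + 2) _ fun l hl => ?_) (by ring)
  rw [Finset.mem_Ioc] at hl
  refine (hasConj_phi N l).mul (hasConj_tau N fM (discNMF N) (l - j - 1)) ?_
  have e1 : ((R5.cosetCard N - l : ℕ) : ℤ) = (R5.cosetCard N : ℤ) - l := by omega
  have e2 : ((l - j - 1 : ℕ) : ℤ) = (l : ℤ) - j - 1 := by omega
  rw [e1, e2]
  ring

/-- **A3 modulo non-vanishing**: if `b ≠ 0`, every weight-2 cusp form on `Γ₀(N)` is a quotient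
of two modular forms having all their conjugates. -/
theorem fractionRep_of_bFun_ne_zero (hb : bFun N ≠ 0) : R5.FractionRep N := fun f =>
  ⟨_, bFun N, fun z => f z * bFun N z, hasConj_bFun N, hasConj_mul_bFun N f, hb, fun _ => rfl⟩


/-- (c1) The denominator `b` is not identically zero (uses `A2`, helper23). -/
theorem bFun_ne_zero : bFun N ≠ 0 := by
  classical
  let := Fintype.ofFinite (Cosets N)
  have h1 : bFun N = ∏ q ∈ Finset.univ.erase (q0 N),
      ((⇑(discNMF N) : ℍ → ℂ) - quotientFunc (discNMF N) q) := by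
    funext z
    rw [bFun_apply, Finset.prod_apply]
    rfl
  rw [h1]
  intro h0
  obtain ⟨q, hq, hq0⟩ := (UpperHalfPlane.prod_eq_zero_iff
    (f := fun q : Cosets N => (⇑(discNMF N) : ℍ → ℂ) - quotientFunc (discNMF N) q)
    (fun q _ => (ModularFormClass.holo (discNMF N)).sub
      (mdifferentiable_quotientFunc (discNMF N) q))).mp h0
  induction q using Quotient.inductionOn with
  | h r =>
    obtain ⟨r, γ, rfl⟩ := r
    rw [quotientFunc_mk] at hq0
    have hγ : γ⁻¹ ∉ Gamma0 N := by
      intro hmem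
      apply (Finset.mem_erase.mp hq).1
      refine (QuotientGroup.eq (s := (G0 N).subgroupOf 𝒮ℒ)).mpr ?_
      rw [Subgroup.mem_subgroupOf]
      simp only [mul_one, Subgroup.coe_inv]
      rw [← map_inv]
      exact Subgroup.mem_map_of_mem _ hmem
    apply discN_slash_ne' N γ⁻¹ hγ
    have e : (fun w : ℍ => ModularForm.discriminant (scaleN N w)) = ⇑(discNMF N) :=
      funext fun w => (discNMF_apply N w).symm
    rw [e, ModularForm.SL_slash, map_inv]
    exact (sub_eq_zero.mp hq0).symm

/-- **A3**: every weight-2 cusp form on `Γ₀(N)` is a quotient of two modular forms on `Γ₀(N)`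
having all their conjugates. -/
theorem fractionRep : R5.FractionRep N := fractionRep_of_bFun_ne_zero N (bFun_ne_zero N)

/-- **STEP R**: `Aut(ℂ)` acts on `S₂(Γ₀(N))` through the `q`-coefficients. -/
theorem stepR (f : CuspForm (Gamma0 N) 2) (σ : ℂ ≃+* ℂ) :
    ∃ g : CuspForm (Gamma0 N) 2, ∀ n : ℕ, qCoeff g n = σ (qCoeff f n) :=
  R5.exists_conj (fractionRep N) f σ

end Fermat.Agent.S23.H22
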