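import Mathlib.NumberTheory.ModularForms.NormTrace
import Mathlib.NumberTheory.ModularForms.LevelOne.GradedRing
import Mathlib.LinearAlgebra.Lagrange
import Mathlib.Tactic

/-
S23, work package R3 (helper26), part A: generic Lagrange interpolation over the cosets.

For a subgroup `𝒢` of finite relative index in `SL(2, ℤ)`, `F` slash-invariant of weight `w`
and `G` slash-invariant of weight `0` under `𝒢`, with coset translates `F_q`, `G_q`
(`SlashInvariantForm.quotientFunc`), the function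
  `S_x(z) = ∑_q F_q(z) ∏_{q' ≠ q} (x - G_{q'}(z))`      (`x` a complex parameter)
is `SL(2, ℤ)`-invariant of weight `w`, holomorphic if `F`, `G` are, of controlled growth at
`i∞`, polynomial in `x` of degree `< μ`, and `S_{G(z)}(z) = F(z) ∏_{q' ≠ 1} (G(z) - G_{q'}(z))`.
-/

set_option autoImplicit false

open UpperHalfPlane ModularForm SlashInvariantForm Polynomial
open scoped MatrixGroups ModularForm Manifold Topology

namespace Fermat.Agent.S23.R3H26

variable {𝒢 : Subgroup (GL (Fin 2) ℝ)}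

/-- The coset space `SL(2, ℤ) / (𝒢 ∩ SL(2, ℤ))`. -/
abbrev Q (𝒢 : Subgroup (GL (Fin 2) ℝ)) : Type := 𝒮ℒ ⧸ (𝒢.subgroupOf 𝒮ℒ)

/-- The element of `𝒮ℒ` attached to `γ : SL(2, ℤ)`. -/
def toSL (γ : SL(2, ℤ)) : 𝒮ℒ := ⟨Matrix.SpecialLinearGroup.mapGL ℝ γ, ⟨γ, rfl⟩⟩

/-- Pointwise transformation law of the coset translates. -/
lemma quotientFunc_smul_apply {F : Type*} [FunLike F ℍ ℂ] {k : ℤ}
    [SlashInvariantFormClass F 𝒢 k] (f : F) (γ : SL(2, ℤ)) (q : Q 𝒢) (z : ℍ) :
    quotientFunc f q (γ • z) = denom γ z ^ k * quotientFunc f ((toSL γ)⁻¹ • q) z := by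
  have h := congrFun (quotientFunc_smul (ℋ := 𝒮ℒ) f (toSL γ).2 q) z
  have h2 : (quotientFunc f q ∣[k] (toSL γ).1) z = (quotientFunc f q ∣[k] γ) z := rfl
  rw [h2, SL_slash_apply] at h
  have hd : denom γ z ^ k ≠ 0 := zpow_ne_zero _ (denom_ne_zero γ z)
  have h3 : quotientFunc f ((toSL γ)⁻¹ • q) z = quotientFunc f q (γ • z) * denom γ z ^ (-k) :=
    h.symm
  rw [h3, zpow_neg]
  field_simp

/-- The translates of a holomorphic slash-invariant function are holomorphic. -/
lemma mdifferentiable_quotientFunc {F : Type*} [FunLike F ℍ ℂ] {k : ℤ}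
    [SlashInvariantFormClass F 𝒢 k] (f : F) (hf : MDifferentiable 𝓘(ℂ) 𝓘(ℂ) (f : ℍ → ℂ))
    (q : Q 𝒢) : MDifferentiable 𝓘(ℂ) 𝓘(ℂ) (quotientFunc f q) := by
  induction q using Quotient.inductionOn with
  | h r => exact hf.slash k _

/-- The translate attached to the trivial coset is the function itself. -/
lemma quotientFunc_one {F : Type*} [FunLike F ℍ ℂ] {k : ℤ}
    [SlashInvariantFormClass F 𝒢 k] (f : F) :
    quotientFunc f ((1 : 𝒮ℒ) : Q 𝒢) = (f : ℍ → ℂ) := by
  show quotientFunc f ⟦(1 : 𝒮ℒ)⟧ = _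
  rw [quotientFunc_mk]
  simp


variable [𝒢.IsFiniteRelIndex 𝒮ℒ]

open scoped Classical in
/-- The Lagrange-type interpolation sum
`S_x(z) = ∑_q F_q(z) ∏_{q' ≠ q} (x - G_{q'}(z))` over the cosets `q` of `𝒢` in `SL(2, ℤ)`,
where `F_q`, `G_q` are the translates of `F` (weight `w`) and `G` (weight `0`). -/
noncomputable def interp {w : ℤ} (F : SlashInvariantForm 𝒢 w) (G : SlashInvariantForm 𝒢 0)
    (x : ℂ) (z : ℍ) : ℂ :=
  letI := Fintype.ofFinite (Q 𝒢)
  ∑ q : Q 𝒢, quotientFunc F q z * ∏ q' ∈ Finset.univ.erase q, (x - quotientFunc G q' z)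

open scoped Classical in
/-- `S_x` is `SL(2, ℤ)`-invariant of weight `w`. -/
lemma interp_smul {w : ℤ} (F : SlashInvariantForm 𝒢 w) (G : SlashInvariantForm 𝒢 0)
    (x : ℂ) (γ : SL(2, ℤ)) (z : ℍ) :
    interp F G x (γ • z) = denom γ z ^ w * interp F G x z := by
  let _ := Fintype.ofFinite (Q 𝒢)
  unfold interp
  rw [Finset.mul_sum]
  let e : Q 𝒢 ≃ Q 𝒢 := MulAction.toPerm ((toSL γ)⁻¹ : 𝒮ℒ)
  rw [← Equiv.sum_comp e (fun q => denom γ z ^ w * (quotientFunc F q z *
      ∏ q' ∈ Finset.univ.erase q, (x - quotientFunc G q' z)))]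
  refine Finset.sum_congr rfl fun q _ => ?_
  rw [quotientFunc_smul_apply F γ q z, mul_assoc]
  congr 2
  have : ∏ q' ∈ Finset.univ.erase (e q), (x - quotientFunc G q' z) =
      ∏ q' ∈ Finset.univ.erase q, (x - quotientFunc G (e q') z) :=
    (Finset.prod_equiv e (by simp) (fun _ _ => rfl)).symm
  rw [this]
  refine Finset.prod_congr rfl fun q' _ => ?_
  rw [quotientFunc_smul_apply G γ q' z]
  simp [e]

open scoped Classical in
/-- Slash form of `interp_smul`. -/
lemma interp_slash {w : ℤ} (F : SlashInvariantForm 𝒢 w) (G : SlashInvariantForm 𝒢 0)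
    (x : ℂ) (γ : SL(2, ℤ)) :
    (interp F G x) ∣[w] γ = interp F G x := by
  ext z
  rw [SL_slash_apply, interp_smul, mul_comm, ← mul_assoc, ← zpow_add₀ (denom_ne_zero γ z)]
  simp

open scoped Classical in
/-- Evaluating `S_x(z)` at `x = G(z)` kills all terms except the one of the trivial coset. -/
lemma interp_self {w : ℤ} (F : SlashInvariantForm 𝒢 w) (G : SlashInvariantForm 𝒢 0) (z : ℍ) :
    letI := Fintype.ofFinite (Q 𝒢)
    interp F G (G z) z =
      F z * ∏ q' ∈ Finset.univ.erase ((1 : 𝒮ℒ) : Q 𝒢), (G z - quotientFunc G q' z) := by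
  let _ := Fintype.ofFinite (Q 𝒢)
  unfold interp
  rw [Finset.sum_eq_single ((1 : 𝒮ℒ) : Q 𝒢)]
  · rw [quotientFunc_one]
  · intro q _ hq
    have hmem : ((1 : 𝒮ℒ) : Q 𝒢) ∈ Finset.univ.erase q :=
      Finset.mem_erase.mpr ⟨fun h => hq h.symm, Finset.mem_univ _⟩
    rw [Finset.prod_eq_zero hmem, mul_zero]
    rw [quotientFunc_one, sub_self]
  · intro h
    exact absurd (Finset.mem_univ _) h

open scoped Classical in
/-- For fixed `z`, `x ↦ S_x(z)` is a polynomial function. -/
noncomputable def interpPoly {w : ℤ} (F : SlashInvariantForm 𝒢 w) (G : SlashInvariantForm 𝒢 0)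
    (z : ℍ) : ℂ[X] :=
  letI := Fintype.ofFinite (Q 𝒢)
  ∑ q : Q 𝒢, C (quotientFunc F q z) * ∏ q' ∈ Finset.univ.erase q, (X - C (quotientFunc G q' z))

open scoped Classical in
lemma eval_interpPoly {w : ℤ} (F : SlashInvariantForm 𝒢 w) (G : SlashInvariantForm 𝒢 0)
    (x : ℂ) (z : ℍ) : (interpPoly F G z).eval x = interp F G x z := by
  let _ := Fintype.ofFinite (Q 𝒢)
  unfold interpPoly interp
  simp [eval_finsetSum, eval_prod]

open scoped Classical in
lemma degree_interpPoly_lt {w : ℤ} (F : SlashInvariantForm 𝒢 w) (G : SlashInvariantForm 𝒢 0)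
    (z : ℍ) : (interpPoly F G z).degree < (Nat.card (Q 𝒢) : WithBot ℕ) := by
  let _ := Fintype.ofFinite (Q 𝒢)
  unfold interpPoly
  have hpos : 0 < Nat.card (Q 𝒢) := Nat.card_pos
  refine lt_of_le_of_lt (degree_sum_le _ _) ?_
  rw [Finset.sup_lt_iff (WithBot.bot_lt_coe _)]
  intro q _
  refine lt_of_le_of_lt (degree_mul_le _ _) ?_
  refine lt_of_le_of_lt (add_le_add degree_C_le (degree_prod_le _ _)) ?_
  rw [zero_add]
  have h1 : ∑ q' ∈ Finset.univ.erase q, (X - C (quotientFunc G q' z)).degree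
      = ((Finset.univ.erase q).card : WithBot ℕ) := by
    simp [degree_X_sub_C]
  rw [h1, Finset.card_erase_of_mem (Finset.mem_univ _), Finset.card_univ,
    ← Nat.card_eq_fintype_card]
  exact_mod_cast Nat.sub_lt hpos one_pos

/-- Lagrange interpolation in the parameter `x` at the nodes `0, 1, …, μ - 1`. -/
lemma interp_eq_sum_basis {w : ℤ} (F : SlashInvariantForm 𝒢 w) (G : SlashInvariantForm 𝒢 0)
    (x : ℂ) (z : ℍ) :
    interp F G x z = ∑ i ∈ Finset.range (Nat.card (Q 𝒢)),
      interp F G (i : ℂ) z *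
        (Lagrange.basis (Finset.range (Nat.card (Q 𝒢))) (fun n : ℕ => (n : ℂ)) i).eval x := by
  have hinj : Set.InjOn (fun n : ℕ => (n : ℂ)) (Finset.range (Nat.card (Q 𝒢)) : Set ℕ) :=
    fun a _ b _ h => Nat.cast_injective h
  have hdeg : (interpPoly F G z).degree < ((Finset.range (Nat.card (Q 𝒢))).card : WithBot ℕ) := by
    rw [Finset.card_range]
    exact degree_interpPoly_lt F G z
  have h := Lagrange.eq_interpolate hinj hdeg
  have h2 := congrArg (fun p => p.eval x) h
  simp only [Lagrange.interpolate_apply, eval_finsetSum, eval_mul, eval_C, eval_interpPoly] at h2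
  exact h2


open scoped Classical in
lemma interp_eq_fun {w : ℤ} (F : SlashInvariantForm 𝒢 w) (G : SlashInvariantForm 𝒢 0)
    (x : ℂ) :
    letI := Fintype.ofFinite (Q 𝒢)
    interp F G x = ∑ q : Q 𝒢, quotientFunc F q *
      ∏ q' ∈ Finset.univ.erase q, ((fun _ : ℍ => x) - quotientFunc G q') := by
  let _ := Fintype.ofFinite (Q 𝒢)
  funext z
  simp [interp, Finset.sum_apply, Finset.prod_apply]

open scoped Classical in
/-- `S_x` is holomorphic if `F` and `G` are. -/
lemma mdifferentiable_interp {w : ℤ} (F : SlashInvariantForm 𝒢 w) (G : SlashInvariantForm 𝒢 0)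
    (hF : MDifferentiable 𝓘(ℂ) 𝓘(ℂ) (F : ℍ → ℂ)) (hG : MDifferentiable 𝓘(ℂ) 𝓘(ℂ) (G : ℍ → ℂ))
    (x : ℂ) : MDifferentiable 𝓘(ℂ) 𝓘(ℂ) (interp F G x) := by
  let _ := Fintype.ofFinite (Q 𝒢)
  rw [interp_eq_fun]
  refine MDifferentiable.sum fun q _ => ?_
  refine (mdifferentiable_quotientFunc F hF q).mul ?_
  refine MDifferentiable.prod fun q' _ => ?_
  exact mdifferentiable_const.sub (mdifferentiable_quotientFunc G hG q')

open scoped Classical in
/-- Growth of `S_x` at `i∞`: if the translates of `F` are bounded and the translates of `G`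
become bounded after multiplication by `Δ ^ n`, then `S_x * Δ ^ (n * (μ - 1))` is bounded. -/
lemma isBoundedAtImInfty_interp_mul {w : ℤ} (F : SlashInvariantForm 𝒢 w)
    (G : SlashInvariantForm 𝒢 0) (n : ℕ)
    (hF : ∀ q : Q 𝒢, IsBoundedAtImInfty (quotientFunc F q))
    (hG : ∀ q : Q 𝒢, IsBoundedAtImInfty
      (fun z => quotientFunc G q z * ModularForm.discriminant z ^ n))
    (x : ℂ) :
    IsBoundedAtImInfty
      (fun z => interp F G x z * ModularForm.discriminant z ^ (n * (Nat.card (Q 𝒢) - 1))) := by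
  let _ := Fintype.ofFinite (Q 𝒢)
  have hΔ : IsBoundedAtImInfty (ModularForm.discriminant : ℍ → ℂ) :=
    ModularForm.discriminant_isZeroAtImInfty.boundedAtFilter
  have hΔn : IsBoundedAtImInfty (fun z : ℍ => ModularForm.discriminant z ^ n) := by
    have := Filter.BoundedAtFilter.prod (l := atImInfty) (Finset.range n)
      (f := fun _ : ℕ => (ModularForm.discriminant : ℍ → ℂ)) (fun _ _ => hΔ)
    rw [Finset.prod_const, Finset.card_range] at this
    exact this
  have key : (fun z => interp F G x z * ModularForm.discriminant z ^ (n * (Nat.card (Q 𝒢) - 1)))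
      = ∑ q : Q 𝒢, quotientFunc F q * ∏ q' ∈ Finset.univ.erase q,
          ((fun z : ℍ => x * ModularForm.discriminant z ^ n) -
            fun z => quotientFunc G q' z * ModularForm.discriminant z ^ n) := by
    funext z
    simp only [interp, Finset.sum_apply, Pi.mul_apply, Finset.prod_apply, Pi.sub_apply]
    rw [Finset.sum_mul]
    refine Finset.sum_congr rfl fun q _ => ?_
    rw [mul_assoc]
    congr 1
    have hc : (Finset.univ.erase q).card = Nat.card (Q 𝒢) - 1 := by
      rw [Finset.card_erase_of_mem (Finset.mem_univ _), Finset.card_univ,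
        Nat.card_eq_fintype_card]
    rw [pow_mul, ← hc, ← Finset.prod_const, ← Finset.prod_mul_distrib]
    refine Finset.prod_congr rfl fun q' _ => ?_
    ring
  rw [key]
  unfold IsBoundedAtImInfty Filter.BoundedAtFilter
  refine Asymptotics.IsBigO.sum fun q _ => ?_
  refine Filter.BoundedAtFilter.mul (hF q) ?_
  refine Filter.BoundedAtFilter.prod _ fun q' _ => ?_
  have h1 : Filter.BoundedAtFilter atImInfty
      (fun z : ℍ => x * ModularForm.discriminant z ^ n) :=
    Filter.BoundedAtFilter.mul (Filter.const_boundedAtFilter _ x) hΔn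
  have h2 := (hG q').neg
  have := Filter.BoundedAtFilter.add h1 h2
  simpa [sub_eq_add_neg] using this

end Fermat.Agent.S23.R3H26
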