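import Fermat.Agent.S22
import Fermat.Agent.S23.H9_StepI

/-!
# S23, STEP I with S22 plugged in

Unconditional versions of the statements of `H9_StepI`, using that the Hecke algebra is a
finitely generated `ℤ`-module (statement S22).
-/

set_option autoImplicit false

namespace Fermat.Agent.S23.H9

open CuspForm ModularFormClass CongruenceSubgroup UpperHalfPlane

/-- A weight-2 cusp form on `Γ₀(N)` with rational `q`-coefficients lies in the `ℂ`-span of the
integral lattice. -/
theorem mem_span_intLattice_of_rat (N : ℕ) [NeZero N] (f : CuspForm (Gamma0 N) 2)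
    (hf : ∀ n : ℕ, ∃ r : ℚ, qCoeff ⇑f n = (r : ℂ)) :
    f ∈ Submodule.span ℂ ((CuspForm.intLattice N 2 :
      Submodule ℤ (CuspForm (Gamma0 N) 2)) : Set (CuspForm (Gamma0 N) 2)) :=
  mem_span_intLattice_of_isRatForm (Fermat.Agent.S22.result N 2 ∅) f hf

/-- A weight-2 cusp form on `Γ₀(N)` with rational `q`-coefficients has a nonzero integer
multiple with integral `q`-coefficients. -/
theorem exists_int_multiple_of_rat (N : ℕ) [NeZero N] (f : CuspForm (Gamma0 N) 2)
    (hf : ∀ n : ℕ, ∃ r : ℚ, qCoeff ⇑f n = (r : ℂ)) :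
    ∃ D : ℤ, D ≠ 0 ∧ ∀ n : ℕ, ∃ m : ℤ, qCoeff ⇑((D : ℂ) • f) n = (m : ℂ) :=
  exists_int_multiple (Fermat.Agent.S22.result N 2 ∅) f hf

/-- If the cusp forms with rational `q`-coefficients span `S₂(Γ₀(N))` over `ℂ`, then
`S₂(Γ₀(N))` has an integral structure. -/
theorem hasIntegralStructure_of_span_rat (N : ℕ) [NeZero N]
    (h : Submodule.span ℂ {f : CuspForm (Gamma0 N) 2 |
      ∀ n : ℕ, ∃ r : ℚ, qCoeff ⇑f n = (r : ℂ)} = ⊤) :
    CuspForm.HasIntegralStructure N 2 :=
  hasIntegralStructure_of_span_isRatForm (Fermat.Agent.S22.result N 2 ∅) h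

end Fermat.Agent.S23.H9
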